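import Fermat.Agent.Wiring.S45Route
import Fermat.Agent.Newform.Raise
import Fermat.Agent.Reduction.GoodPrime
import Fermat.Prelude.Def_WeierstrassCurve_Mlc1RowStatement

/-!
# The outer shell of modularity lifting

From residual modularity at a level `M₀` to the minimal level of `W[p]`, and from modularity at some
squarefree level to modularity at the exact conductor level.  The middle part, from the minimal
level to a squarefree level, is the hypothesis `ChainConclusion`.
-/

set_option autoImplicit false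

open WeierstrassCurve WeierstrassCurve.Affine.Point

namespace FLTAgent.RT.Shell

local notation "Qbar" => AlgebraicClosure ℚ

variable (W : WeierstrassCurve ℤ) (p : ℕ)

/-- `W[p]` needs `q` in the level: ramified at `q ≠ p`, or not peu ramified at `q = p`. -/
def NeededAt (q : ℕ) : Prop :=
  (q = p ∧ ¬ (W.map (Int.castRingHom ℚ)).IsPeuRamifieeAt p p) ∨
    (q ≠ p ∧ ¬ GaloisRepUnramifiedAt (K := Qbar) ℚ (W.map (Int.castRingHom ℚ)) p q)

open scoped Classical in
/-- The primes of the minimal level. -/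
noncomputable def minPrimes : Finset ℕ := W.Δ.natAbs.primeFactors.filter (NeededAt W p)

/-- The minimal level. -/
noncomputable def minLevel : ℕ := ∏ q ∈ minPrimes W p, q

/-- What the chain of patched worlds has to supply. -/
def ChainConclusion : Prop :=
  W.IsResiduallyModularOfLevel p (minLevel W p) →
    ∃ N : ℕ, Squarefree N ∧ W.IsModularModelOfLevel N

/-- A square at `q ≠ p` is removed from a residual level, possibly with new simple primes. -/
def RemoveSquare : Prop :=
  ∀ M q : ℕ, 0 < M → q.Prime → q ≠ p → M.factorization q = 2 →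
    (∀ l : ℕ, M.factorization l ≤ 2) → M.factorization p ≤ 1 →
    W.IsResiduallyModularOfLevel p M →
    ∃ M' : ℕ, 0 < M' ∧ M'.factorization q ≤ 1 ∧
      (∀ l : ℕ, M'.factorization l ≤ max (M.factorization l) 1) ∧
      W.IsResiduallyModularOfLevel p M'

variable {W p}

theorem mem_minPrimes {q : ℕ} (hΔ : W.Δ ≠ 0) :
    q ∈ minPrimes W p ↔ (q.Prime ∧ (q : ℤ) ∣ W.Δ) ∧ NeededAt W p q := by
  classical
  rw [minPrimes, Finset.mem_filter, Nat.mem_primeFactors]
  simp [Int.natCast_dvd, hΔ]

theorem prime_of_mem_minPrimes {q : ℕ} (h : q ∈ minPrimes W p) : q.Prime := by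
  classical
  exact Nat.prime_of_mem_primeFactors (Finset.mem_filter.1 h).1

theorem minLevel_pos : 0 < minLevel W p :=
  Finset.prod_pos fun _ h => (prime_of_mem_minPrimes h).pos

theorem squarefree_minLevel : Squarefree (minLevel W p) := by
  refine Finset.squarefree_prod_of_pairwise_isCoprime (fun a ha b hb hab => ?_)
    fun q hq => (prime_of_mem_minPrimes hq).squarefree
  exact Nat.coprime_iff_isRelPrime.1
    ((Nat.coprime_primes (prime_of_mem_minPrimes ha) (prime_of_mem_minPrimes hb)).2 hab)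

/-- Residual modularity persists at multiples of the level. -/
theorem isResiduallyModularOfLevel_of_dvd {M N : ℕ} [NeZero N] (h : M ∣ N)
    (hM : W.IsResiduallyModularOfLevel p M) : W.IsResiduallyModularOfLevel p N := by
  have : NeZero M := ⟨fun e => NeZero.ne N (zero_dvd_iff.mp (e ▸ h))⟩
  obtain ⟨f, 𝔪, hf, h𝔪, hp, hc⟩ := hM
  obtain ⟨g, hg, hgf⟩ := Newform.exists_eigenform_of_dvd h hf
  refine ⟨g, 𝔪, hg, h𝔪, hp, fun ℓ hℓ hgood hℓN hℓp => ?_⟩
  obtain ⟨a, ha, ham⟩ := hc ℓ hℓ hgood (fun hd => hℓN (hd.trans h)) hℓp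
  exact ⟨a, ha.trans (hgf ℓ hℓ hℓN).symm, ham⟩

theorem squarefree_of_factorization_le {M : ℕ} (hM : 0 < M) (h : ∀ l, M.factorization l ≤ 1) :
    Squarefree M :=
  (Nat.squarefree_iff_factorization_le_one hM.ne').2 h

/-- The squares away from `p` are removed one by one. -/
theorem exists_squarefree_residual (hsq : RemoveSquare W p) {M : ℕ} (hM0 : 0 < M)
    (h2 : ∀ l : ℕ, M.factorization l ≤ 2) (hp : M.factorization p ≤ 1)
    (hM : W.IsResiduallyModularOfLevel p M) :
    ∃ M' : ℕ, Squarefree M' ∧ W.IsResiduallyModularOfLevel p M' := by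
  generalize hn : (M.primeFactors.filter fun l => M.factorization l = 2).card = n
  induction n using Nat.strong_induction_on generalizing M with
  | _ n ih =>
    by_cases hex : ∃ q, M.factorization q = 2
    · obtain ⟨q, hq⟩ := hex
      have hqP : q.Prime := by
        by_contra h
        rw [Nat.factorization_eq_zero_of_not_prime M h] at hq
        omega
      obtain ⟨M', hM'0, hqM', hle, hM'⟩ :=
        hsq M q hM0 hqP (fun e => by rw [e] at hq; omega) hq h2 hp hM
      refine ih _ ?_ hM'0 (fun l => by have := hle l; have := h2 l; omega)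
        (by have := hle p; omega) hM' rfl
      rw [← hn]
      refine Finset.card_lt_card ((Finset.ssubset_iff_of_subset fun l hl => ?_).2 ⟨q, ?_, ?_⟩)
      · simp only [Finset.mem_filter] at hl ⊢
        have := hle l
        have h' : M.factorization l = 2 := by have := h2 l; omega
        exact ⟨Nat.mem_primeFactors.2 ⟨Nat.prime_of_mem_primeFactors hl.1,
          Nat.dvd_of_factorization_pos (by omega), hM0.ne'⟩, h'⟩
      · exact Finset.mem_filter.2 ⟨Nat.mem_primeFactors.2
          ⟨hqP, Nat.dvd_of_factorization_pos (by omega), hM0.ne'⟩, hq⟩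
      · simp only [Finset.mem_filter]
        omega
    · push Not at hex
      exact ⟨M, squarefree_of_factorization_le hM0 fun l => by
        have := hex l; have := h2 l; omega, hM⟩

/-- A prime not needed by `W[p]` is removed from a squarefree residual level. -/
theorem isResiduallyModular_minLevel [Fact p.Prime] (hp2 : p ≠ 2) (hΔ : W.Δ ≠ 0)
    (hss : W.IsSemistableModel) (hirr : W.ModRepIsIrreducible p) (h38 : Wiring.LowerAwayFromP)
    (h39 : Wiring.LowerAtP) {M : ℕ} (hsq : Squarefree M)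
    (hM : W.IsResiduallyModularOfLevel p M) :
    W.IsResiduallyModularOfLevel p (minLevel W p) := by
  have hpp : p.Prime := Fact.out
  have : (W.map (Int.castRingHom ℚ)).IsElliptic :=
    ⟨by rw [map_Δ]; exact (Int.cast_ne_zero.2 hΔ : (W.Δ : ℚ) ≠ 0).isUnit⟩
  induction M using Nat.strong_induction_on with
  | _ M ih =>
    have hM0 : 0 < M := Nat.pos_of_ne_zero hsq.ne_zero
    by_cases hex : ∃ q : ℕ, q.Prime ∧ q ∣ M ∧ q ∉ minPrimes W p
    · obtain ⟨q, hq, hqM, hqn⟩ := hex
      have hq2 : ¬ q ^ 2 ∣ M := fun h => hq.not_isUnit (hsq q (by rwa [← pow_two]))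
      refine ih (M / q) (Nat.div_lt_self hM0 hq.one_lt)
        (hsq.squarefree_of_dvd (Nat.div_dvd_of_dvd hqM)) ?_
      rw [mem_minPrimes hΔ] at hqn
      by_cases hqp : q = p
      · subst hqp
        refine h39 W hΔ hq hp2 (hss q hq) hirr ?_ hM0 hqM hq2 hM
        by_cases hbad : (q : ℤ) ∣ W.Δ
        · by_contra h
          exact hqn ⟨⟨hq, hbad⟩, Or.inl ⟨rfl, h⟩⟩
        · have hv : padicValInt q W.Δ = 0 := padicValInt.eq_zero_of_not_dvd hbad
          rw [IsPeuRamifieeAt, map_Δ, eq_intCast, padicValRat.of_int, hv, Nat.cast_zero]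
          exact dvd_zero _
      · have key : GaloisRepUnramifiedAt (K := Qbar) ℚ (W.map (Int.castRingHom ℚ)) p q := by
          by_cases hbad : (q : ℤ) ∣ W.Δ
          · by_contra h
            exact hqn ⟨⟨hq, hbad⟩, Or.inr ⟨hqp, h⟩⟩
          · exact Reduction.galoisRepUnramifiedAt_of_good W hq hbad
              fun h => hqp ((Nat.prime_dvd_prime_iff_eq hq hpp).1 h)
        refine h38 p hp2 W hΔ hss (Torsion.natCard_torsionBy_qbar _ hpp.ne_zero)
          (Torsion.galoisFactorsThroughFiniteLevel_galoisRepModuleEnd _ hpp.ne_zero) hirr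
          M q hq hqp hqM hq2 hsq (fun A hA σ hσ => LinearMap.ext fun x => key A hA σ hσ x) hM
    · push Not at hex
      have : NeZero (minLevel W p) := ⟨minLevel_pos.ne'⟩
      refine isResiduallyModularOfLevel_of_dvd ?_ hM
      rw [← Nat.prod_primeFactors_of_squarefree hsq]
      exact Finset.prod_dvd_prod_of_subset _ _ _ fun q hq =>
        hex q (Nat.prime_of_mem_primeFactors hq) (Nat.dvd_of_mem_primeFactors hq)

/-- Modularity at a squarefree level gives modularity at the exact conductor level. -/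
theorem exactConductorLevel_of_squarefree (hΔ : W.Δ ≠ 0)
    (h35 : LevelDrop.NewformSpecialCharpoly) {N : ℕ} (hN : Squarefree N)
    (hmod : W.IsModularModelOfLevel N) : Mlc1IsModularModelOfExactConductorLevel W := by
  obtain ⟨f, hf, ha⟩ := hmod
  obtain ⟨M, g, hMN, hg, hag⟩ := LevelDrop.exists_newform hN.ne_zero hf
  have : NeZero M := ⟨fun e => hN.ne_zero (zero_dvd_iff.mp (e ▸ hMN))⟩
  set N' := N * W.Δ.natAbs with hN'
  have hN'0 : N' ≠ 0 := mul_ne_zero hN.ne_zero (Int.natAbs_ne_zero.2 hΔ)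
  have hMN' : M ∣ N' := hMN.trans (dvd_mul_right _ _)
  have hbad : ∀ ℓ : ℕ, ℓ.Prime → (ℓ : ℤ) ∣ W.Δ → ℓ ∣ N' := fun ℓ _ h =>
    dvd_mul_of_dvd_right (Int.natCast_dvd.1 h) _
  have hgN : ∀ ℓ : ℕ, ℓ.Prime → W.IsGoodPrimeFor ℓ → ¬ ℓ ∣ N' →
      ModularFormClass.qCoeff g ℓ = (W.apOfModel ℓ : ℂ) := fun ℓ hℓ hgood hℓN =>
    (hag ℓ hℓ fun h => hℓN (h.trans (dvd_mul_right _ _))).trans
      (ha ℓ hℓ hgood fun h => hℓN (h.trans (dvd_mul_right _ _)))
  have hd := LevelDrop.frobeniusDense
  have hsqM : Squarefree M := hN.squarefree_of_dvd hMN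
  have hMR : M ∣ W.conductorLevel := by
    rw [← Nat.prod_primeFactors_of_squarefree hsqM]
    refine Finset.prod_primes_dvd _ (fun q hq => (Nat.prime_of_mem_primeFactors hq).prime)
      fun q hq => (W.prime_dvd_conductorLevel_iff hΔ (Nat.prime_of_mem_primeFactors hq)).mpr ?_
    have hqP := Nat.prime_of_mem_primeFactors hq
    exact LevelDrop.bad_of_dvd hΔ hgN hMN' hN'0 hbad hd hg h35 q hqP
      (Nat.dvd_of_mem_primeFactors hq) fun h => hqP.not_isUnit (hsqM q (by rwa [← pow_two]))
  obtain ⟨u, hu, hug⟩ := Newform.exists_eigenform_of_dvd hMR hg.isNormalizedEigenform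
  refine ⟨W.conductorLevel, W.conductorLevel_pos, W.squarefree_conductorLevel,
    fun q hq => W.prime_dvd_conductorLevel_iff hΔ hq, u, hu, fun ℓ hℓ hgood hℓN => ?_⟩
  rw [hug ℓ hℓ hℓN]
  exact LevelDrop.qCoeff_eq_of_good hΔ hgN hMN' hN'0 hbad hd hg h35 ℓ hℓ hgood
    fun h => hℓN (h.trans hMR)

/-- The statement `S59` from the chain and the level-changing inputs. -/
theorem modularityLifting_of_chain [Fact p.Prime] (hp2 : p ≠ 2) (hΔ : W.Δ ≠ 0)
    (hss : W.IsSemistableModel) (hirr : W.ModRepIsIrreducible p)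
    (h35 : LevelDrop.NewformSpecialCharpoly) (hrem : RemoveSquare W p)
    (h38 : Wiring.LowerAwayFromP) (h39 : Wiring.LowerAtP) (hchain : ChainConclusion W p)
    {M₀ : ℕ} [NeZero M₀] (hres : W.IsResiduallyModularOfLevel p M₀) (hM₀ : ¬ p ^ 2 ∣ M₀)
    (hM₀3 : ∀ q : ℕ, q.Prime → q ≠ p → ¬ q ^ 3 ∣ M₀) :
    Mlc1IsModularModelOfExactConductorLevel W := by
  have hpp : p.Prime := Fact.out
  have h1 : M₀.factorization p ≤ 1 := by
    by_contra h
    exact hM₀ ((hpp.pow_dvd_iff_le_factorization (NeZero.ne M₀)).2 (by omega))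
  have h2 : ∀ l : ℕ, M₀.factorization l ≤ 2 := fun l => by
    by_cases hl : l.Prime
    · rcases eq_or_ne l p with rfl | hlp
      · omega
      · by_contra h
        exact hM₀3 l hl hlp ((hl.pow_dvd_iff_le_factorization (NeZero.ne M₀)).2 (by omega))
    · rw [Nat.factorization_eq_zero_of_not_prime M₀ hl]
      omega
  obtain ⟨M, hsqM, hM⟩ :=
    exists_squarefree_residual hrem (Nat.pos_of_neZero M₀) h2 h1 hres
  obtain ⟨N, hN, hmod⟩ := hchain (isResiduallyModular_minLevel hp2 hΔ hss hirr h38 h39 hsqM hM)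
  exact exactConductorLevel_of_squarefree hΔ h35 hN hmod

end FLTAgent.RT.Shell
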