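import Fermat.Agent.Deformation.PowerSeries
import Mathlib.LinearAlgebra.Matrix.Charpoly.Basic
import Mathlib.RingTheory.Ideal.KrullsHeightTheorem
import Mathlib.RingTheory.MvPowerSeries.Equiv
import Mathlib.RingTheory.MvPowerSeries.NoZeroDivisors

/-!
# Local data at an auxiliary prime

At a prime `q ≠ p` where the residual representation is unramified we only use the pair
(Frobenius `Φ`, tame generator `s`), given by eight coordinates around a chosen lift, subject to
`det Φ = q`, `Φ s = s ^ q Φ`, `trace s = t`, `det s = 1`.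
-/

set_option autoImplicit false

noncomputable section

open Matrix

namespace FLTAgent.RT

/-- The normal form of the residual Frobenius: a scalar matrix, or a companion matrix. -/
inductive LocalBase (𝒪 : Type) : Type
  | scalar (φ : 𝒪)
  | companion (T : 𝒪)

/-- A prime `q` together with a normal form of the residual Frobenius. -/
structure LocalDatum (𝒪 : Type) [CommRing 𝒪] : Type where
  q : ℕ
  base : LocalBase 𝒪
  isUnit_q : IsUnit (q : 𝒪)
  scalar_sq : ∀ φ, base = LocalBase.scalar φ → φ * φ = (q : 𝒪)

variable {𝒪 : Type} [CommRing 𝒪]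

/-- The chosen lift of the residual Frobenius. -/
def LocalDatum.baseMat (D : LocalDatum 𝒪) (A : Type*) [CommRing A] [Algebra 𝒪 A] :
    Matrix (Fin 2) (Fin 2) A :=
  match D.base with
  | .scalar φ => !![algebraMap 𝒪 A φ, 0; 0, algebraMap 𝒪 A φ]
  | .companion T => !![0, -(D.q : A); 1, algebraMap 𝒪 A T]

/-- The Frobenius matrix with the given coordinates. -/
def LocalDatum.phiMat (D : LocalDatum 𝒪) {A : Type*} [CommRing A] [Algebra 𝒪 A] (v : Fin 8 → A) :
    Matrix (Fin 2) (Fin 2) A :=
  D.baseMat A + !![v 0, v 1; v 2, v 3]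

/-- The inertia matrix with the given coordinates. -/
def sMat {A : Type*} [CommRing A] (v : Fin 8 → A) : Matrix (Fin 2) (Fin 2) A :=
  1 + !![v 4, v 5; v 6, v 7]

/-- The relations of the local problem at `q` with trace of inertia `t`. -/
structure LocalDatum.Rel (D : LocalDatum 𝒪) (t : 𝒪) {A : Type*} [CommRing A] [Algebra 𝒪 A]
    (v : Fin 8 → A) : Prop where
  det_phi : (D.phiMat v).det = (D.q : A)
  comm : D.phiMat v * sMat v = sMat v ^ D.q * D.phiMat v
  trace_s : (sMat v).trace = algebraMap 𝒪 A t
  det_s : (sMat v).det = 1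

/-- The number of free parameters of the unframed local problem: three in the scalar case, one
in the companion case. -/
def LocalDatum.h0 (D : LocalDatum 𝒪) : ℕ :=
  match D.base with
  | .scalar _ => 3
  | .companion _ => 1

/-- The normalisation of the basis: in the companion case Frobenius is exactly a companion
matrix in the first column. -/
def LocalDatum.IsNorm (D : LocalDatum 𝒪) {A : Type*} [Zero A] (v : Fin 8 → A) : Prop :=
  ∀ T, D.base = LocalBase.companion T → v 0 = 0 ∧ v 2 = 0

theorem LocalDatum.IsNorm.map {D : LocalDatum 𝒪} {A B F : Type*} [Zero A] [Zero B] [FunLike F A B]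
    [ZeroHomClass F A B] {v : Fin 8 → A} (h : D.IsNorm v) (f : F) :
    D.IsNorm fun k => f (v k) := fun T hT => by
  show f (v 0) = 0 ∧ f (v 2) = 0
  rw [(h T hT).1, (h T hT).2, map_zero]
  exact ⟨rfl, rfl⟩

variable {A B : Type*} [CommRing A] [Algebra 𝒪 A] [CommRing B] [Algebra 𝒪 B]

theorem LocalDatum.phiMat_map (D : LocalDatum 𝒪) (f : A →ₐ[𝒪] B) (v : Fin 8 → A) :
    (D.phiMat v).map f = D.phiMat (fun i => f (v i)) := by
  unfold LocalDatum.phiMat LocalDatum.baseMat
  cases D.base <;>
    · ext i j
      fin_cases i <;> fin_cases j <;> simp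

theorem sMat_map (f : A →ₐ[𝒪] B) (v : Fin 8 → A) :
    (sMat v).map f = sMat (fun i => f (v i)) := by
  unfold sMat
  ext i j
  fin_cases i <;> fin_cases j <;> simp

theorem LocalDatum.Rel.map {D : LocalDatum 𝒪} {t : 𝒪} {v : Fin 8 → A} (h : D.Rel t v)
    (f : A →ₐ[𝒪] B) : D.Rel t (fun i => f (v i)) where
  det_phi := by
    rw [← D.phiMat_map f, ← AlgHom.mapMatrix_apply, ← AlgHom.map_det, h.det_phi, map_natCast]
  comm := by
    rw [← D.phiMat_map f, ← sMat_map f, ← AlgHom.mapMatrix_apply, ← AlgHom.mapMatrix_apply,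
      ← map_pow, ← map_mul, ← map_mul, h.comm]
  trace_s := by
    rw [← sMat_map f, trace_fin_two, Matrix.map_apply, Matrix.map_apply, ← map_add,
      ← trace_fin_two, h.trace_s, AlgHom.commutes]
  det_s := by
    rw [← sMat_map f, ← AlgHom.mapMatrix_apply, ← AlgHom.map_det, h.det_s, map_one]

/-- Relations may be checked after an injective map. -/
theorem LocalDatum.Rel.of_injective {D : LocalDatum 𝒪} {t : 𝒪} {v : Fin 8 → A} (f : A →ₐ[𝒪] B)
    (hf : Function.Injective f) (h : D.Rel t (fun i => f (v i))) : D.Rel t v where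
  det_phi := hf (by rw [AlgHom.map_det, AlgHom.mapMatrix_apply, D.phiMat_map, h.det_phi,
    map_natCast])
  comm := Matrix.map_injective hf (by
    show f.mapMatrix _ = f.mapMatrix _
    rw [map_mul, map_mul, map_pow, AlgHom.mapMatrix_apply, AlgHom.mapMatrix_apply,
      D.phiMat_map, sMat_map, h.comm])
  trace_s := hf (by
    rw [trace_fin_two, map_add, ← Matrix.map_apply (f := f), ← Matrix.map_apply (f := f),
      sMat_map, ← trace_fin_two, h.trace_s, AlgHom.commutes])
  det_s := hf (by rw [AlgHom.map_det, AlgHom.mapMatrix_apply, sMat_map, h.det_s, map_one])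

/-- Powers of a matrix whose square vanishes after subtracting one. -/
theorem one_add_pow_of_mul_self_eq_zero {R : Type*} [Ring R] {N : R} (h : N * N = 0) (n : ℕ) :
    (1 + N) ^ n = 1 + n • N := by
  induction n with
  | zero => simp
  | succ n ih =>
    rw [pow_succ, ih, add_mul, one_mul, mul_add, mul_one, smul_mul_assoc, h, smul_zero, add_zero,
      succ_nsmul]
    abel

/-- The eight coordinates at one prime inside the index set of all variables. -/
abbrev LocVar (ι X : Type) : Type := ι × Fin 8 ⊕ X

/-- The coordinates at one prime as elements of the power series ring. -/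
def locCoord {ι X : Type} (i : ι) (k : Fin 8) : MvPowerSeries (LocVar ι X) 𝒪 :=
  MvPowerSeries.X (Sum.inl (i, k))

end FLTAgent.RT
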