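import Fermat.Agent.RT.LocalDim

/-!
# Explicit components of the local rings: unramified and Steinberg

A component is the kernel of a map from `𝒪⟦τ⟧` into a domain of power series.  Membership in it
is decided by polynomial approximations, so that it can be tested at points whose line coordinate
is not small.
-/

set_option autoImplicit false
set_option linter.unusedSectionVars false

noncomputable section

open IsLocalRing Matrix FLTAgent.Deformation

namespace FLTAgent.RT

variable {𝒪 : Type} [CommRing 𝒪]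

/-! ### The coordinates of the components -/

/-- Unramified coordinates from three parameters. -/
def LocalDatum.urCoord (D : LocalDatum 𝒪) {A : Type*} [CommRing A] [Algebra 𝒪 A] (x y z : A) :
    Fin 8 → A :=
  match D.base with
  | .scalar φ =>
    ![x, y, z, ((D.q : A) + y * z) * Ring.inverse (algebraMap 𝒪 A φ + x) - algebraMap 𝒪 A φ,
      0, 0, 0, 0]
  | .companion T =>
    ![x, (D.q : A) + (x * (algebraMap 𝒪 A T + z) - (D.q : A)) * Ring.inverse (1 + y), y, z,
      0, 0, 0, 0]

/-- The offset of the upper right entry. -/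
def LocalDatum.m0 (D : LocalDatum 𝒪) (ε : 𝒪) : 𝒪 :=
  match D.base with
  | .scalar _ => 0
  | .companion _ => -ε * D.q

/-- Steinberg coordinates with sign `ε`, line `(1, l)` and parameters `n`, `m`. -/
def LocalDatum.stCoord (D : LocalDatum 𝒪) (ε : 𝒪) {A : Type*} [CommRing A] [Algebra 𝒪 A]
    (l n m : A) : Fin 8 → A :=
  ![algebraMap 𝒪 A ε * ((D.q : A) - l * (algebraMap 𝒪 A (D.m0 ε) + m)) - D.baseMat A 0 0,
    algebraMap 𝒪 A ε * m,
    algebraMap 𝒪 A ε * (l * ((D.q : A) - 1 - l * (algebraMap 𝒪 A (D.m0 ε) + m))) - D.baseMat A 1 0,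
    algebraMap 𝒪 A ε * (1 + l * (algebraMap 𝒪 A (D.m0 ε) + m)) - D.baseMat A 1 1,
    -(l * n), n, -(l * l * n), l * n]

section map

variable {A B : Type*} [CommRing A] [Algebra 𝒪 A] [CommRing B] [Algebra 𝒪 B]

theorem LocalDatum.baseMat_map (D : LocalDatum 𝒪) (f : A →ₐ[𝒪] B) (i j : Fin 2) :
    f (D.baseMat A i j) = D.baseMat B i j := by
  unfold LocalDatum.baseMat
  cases D.base <;> fin_cases i <;> fin_cases j <;> simp

theorem LocalDatum.stCoord_map (D : LocalDatum 𝒪) (ε : 𝒪) (f : A →ₐ[𝒪] B) (l n m : A)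
    (k : Fin 8) : f (D.stCoord ε l n m k) = D.stCoord ε (f l) (f n) (f m) k := by
  unfold LocalDatum.stCoord
  fin_cases k <;> simp [D.baseMat_map f]

/-- The elements inverted in the unramified coordinates. -/
def LocalDatum.urDen (D : LocalDatum 𝒪) (x y : A) : A :=
  match D.base with
  | .scalar φ => algebraMap 𝒪 A φ + x
  | .companion _ => 1 + y

theorem map_ringInverse {u : A} (hu : IsUnit u) (f : A →ₐ[𝒪] B) :
    f (Ring.inverse u) = Ring.inverse (f u) := by
  refine ((hu.map f).mul_right_inj).mp ?_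
  rw [← map_mul, Ring.mul_inverse_cancel _ hu, map_one, Ring.mul_inverse_cancel _ (hu.map f)]

theorem LocalDatum.urCoord_map (D : LocalDatum 𝒪) (f : A →ₐ[𝒪] B) (x y z : A)
    (hu : IsUnit (D.urDen x y)) (k : Fin 8) :
    f (D.urCoord x y z k) = D.urCoord (f x) (f y) (f z) k := by
  unfold LocalDatum.urCoord
  unfold LocalDatum.urDen at hu
  cases hb : D.base <;> simp only [hb] at hu ⊢ <;> fin_cases k <;>
    simp [map_ringInverse hu f]

end map

section rel

variable {A : Type*} [CommRing A] [Algebra 𝒪 A]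

theorem LocalDatum.phiMat_stCoord (D : LocalDatum 𝒪) {ε : 𝒪} (hε : ε * ε = 1) (l n m : A) :
    D.phiMat (D.stCoord ε l n m) =
      !![algebraMap 𝒪 A ε * ((D.q : A) - l * (algebraMap 𝒪 A (D.m0 ε) + m)),
        algebraMap 𝒪 A ε * (algebraMap 𝒪 A (D.m0 ε) + m);
        algebraMap 𝒪 A ε * (l * ((D.q : A) - 1 - l * (algebraMap 𝒪 A (D.m0 ε) + m))),
        algebraMap 𝒪 A ε * (1 + l * (algebraMap 𝒪 A (D.m0 ε) + m))] := by
  have he : algebraMap 𝒪 A ε * algebraMap 𝒪 A ε = 1 := by rw [← map_mul, hε, map_one]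
  ext i j
  fin_cases i <;> fin_cases j <;> simp [LocalDatum.phiMat, LocalDatum.stCoord]
  · unfold LocalDatum.m0 LocalDatum.baseMat
    cases D.base <;> simp [mul_add] ; linear_combination -(D.q : A) * he

theorem LocalDatum.stCoord_rel (D : LocalDatum 𝒪) {ε : 𝒪} (hε : ε * ε = 1) (l n m : A) :
    D.Rel 2 (D.stCoord ε l n m) := by
  have he : algebraMap 𝒪 A ε * algebraMap 𝒪 A ε = 1 := by rw [← map_mul, hε, map_one]
  have hN : !![D.stCoord ε l n m 4, D.stCoord ε l n m 5; D.stCoord ε l n m 6,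
      D.stCoord ε l n m 7] * !![D.stCoord ε l n m 4, D.stCoord ε l n m 5; D.stCoord ε l n m 6,
      D.stCoord ε l n m 7] = 0 := by
    ext i j
    fin_cases i <;> fin_cases j <;>
      simp [LocalDatum.stCoord, Matrix.mul_apply, Fin.sum_univ_two] <;> ring
  constructor
  · rw [D.phiMat_stCoord hε, det_fin_two]
    simp
    linear_combination (D.q : A) * he
  · rw [sMat, one_add_pow_of_mul_self_eq_zero hN, D.phiMat_stCoord hε, ← Nat.cast_smul_eq_nsmul A]
    ext i j
    fin_cases i <;> fin_cases j <;>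
      simp [LocalDatum.stCoord, Matrix.mul_apply, Fin.sum_univ_two] <;> ring
  · rw [sMat, trace_fin_two]
    simp [LocalDatum.stCoord, map_ofNat]
    ring
  · rw [sMat, det_fin_two]
    simp [LocalDatum.stCoord]
    ring

theorem LocalDatum.trace_stCoord (D : LocalDatum 𝒪) {ε : 𝒪} (hε : ε * ε = 1) (l n m : A) :
    (D.phiMat (D.stCoord ε l n m)).trace = algebraMap 𝒪 A ε * ((D.q : A) + 1) := by
  rw [D.phiMat_stCoord hε, trace_fin_two]
  simp
  ring

theorem LocalDatum.stCoord_eq_zero (D : LocalDatum 𝒪) {ε : 𝒪} (l : A)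
    (he : algebraMap 𝒪 A ε * algebraMap 𝒪 A ε = 1)
    (hs : ∀ φ, D.base = LocalBase.scalar φ →
      algebraMap 𝒪 A ε = algebraMap 𝒪 A φ ∧ algebraMap 𝒪 A ε * (D.q : A) = algebraMap 𝒪 A φ)
    (hcmp : ∀ T, D.base = LocalBase.companion T →
      algebraMap 𝒪 A ε * (1 + (D.q : A)) = algebraMap 𝒪 A T ∧ l = -algebraMap 𝒪 A ε)
    (k : Fin 8) : D.stCoord ε l 0 0 k = 0 := by
  unfold LocalDatum.stCoord LocalDatum.m0 LocalDatum.baseMat
  cases hb : D.base with
  | scalar φ =>
    obtain ⟨h1, h2⟩ := hs φ hb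
    fin_cases k <;> simp
    · linear_combination h2
    · linear_combination l * (h2 - h1)
    · linear_combination h1
  | companion T =>
    obtain ⟨h1, rfl⟩ := hcmp T hb
    fin_cases k <;> simp
    · linear_combination -algebraMap 𝒪 A ε * (D.q : A) * he
    · linear_combination (algebraMap 𝒪 A ε * algebraMap 𝒪 A ε * (D.q : A) + 1) * he
    · linear_combination h1 + algebraMap 𝒪 A ε * (D.q : A) * he

theorem LocalDatum.stCoord_norm (D : LocalDatum 𝒪) {T : 𝒪} (hb : D.base = LocalBase.companion T)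
    {ε : 𝒪} (hε : ε * ε = 1) (n : A) :
    D.stCoord ε (-algebraMap 𝒪 A ε) n 0 0 = 0 ∧ D.stCoord ε (-algebraMap 𝒪 A ε) n 0 2 = 0 := by
  have he : algebraMap 𝒪 A ε * algebraMap 𝒪 A ε = 1 := by rw [← map_mul, hε, map_one]
  unfold LocalDatum.stCoord LocalDatum.baseMat LocalDatum.m0
  simp [hb]
  refine ⟨?_, ?_⟩
  · linear_combination -algebraMap 𝒪 A ε * (D.q : A) * he
  · linear_combination (algebraMap 𝒪 A ε * algebraMap 𝒪 A ε * (D.q : A) + 1) * he

theorem LocalDatum.urCoord_rel (D : LocalDatum 𝒪) (x y z : A) (hu : IsUnit (D.urDen x y)) :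
    D.Rel 2 (D.urCoord x y z) := by
  have hs : sMat (D.urCoord x y z) = 1 := by
    unfold sMat LocalDatum.urCoord
    cases D.base <;> (ext i j; fin_cases i <;> fin_cases j <;> simp)
  constructor
  · have hinv := Ring.mul_inverse_cancel _ hu
    unfold LocalDatum.urDen at hinv
    rw [det_fin_two]
    unfold LocalDatum.phiMat LocalDatum.baseMat LocalDatum.urCoord
    cases hb : D.base with
    | scalar φ =>
      simp only [hb] at hinv ⊢
      simp
      linear_combination ((D.q : A) + y * z) * hinv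
    | companion T =>
      simp only [hb] at hinv ⊢
      simp
      linear_combination -(x * (algebraMap 𝒪 A T + z) - (D.q : A)) * hinv
  · rw [hs, one_pow, mul_one, one_mul]
  · rw [hs, trace_one, Fintype.card_fin, map_ofNat, Nat.cast_ofNat]
  · rw [hs, det_one]

end rel

/-- Relations in the quotient by the kernel of a map hold when they hold in the image. -/
theorem LocalDatum.Rel.of_ker {R B : Type*} [CommRing R] [Algebra 𝒪 R] [CommRing B] [Algebra 𝒪 B]
    {D : LocalDatum 𝒪} {t : 𝒪} (f : R →ₐ[𝒪] B) {v : Fin 8 → R}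
    (h : D.Rel t fun k => f (v k)) :
    D.Rel t fun k => Ideal.Quotient.mk (RingHom.ker f) (v k) :=
  LocalDatum.Rel.of_injective (Ideal.Quotient.liftₐ (RingHom.ker f) f fun _ ha => ha)
    (RingHom.kerLift_injective (f : R →+* B)) h

/-! ### Components -/

/-- The type of a component at one prime. -/
inductive CompType (𝒪 : Type) : Type
  | ur
  | st (ε : 𝒪)
  | stUr (ε : 𝒪)

variable [IsLocalRing 𝒪]

/-- The compatibility of a sign with the residual normal form. -/
def LocalDatum.SignOK (D : LocalDatum 𝒪) (ε : 𝒪) : Prop :=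
  ε * ε = 1 ∧
    match D.base with
    | .scalar φ => ε * D.q - φ ∈ maximalIdeal 𝒪 ∧ ε - φ ∈ maximalIdeal 𝒪
    | .companion T => ε * (1 + D.q) - T ∈ maximalIdeal 𝒪

/-- A component type compatible with the residual normal form. -/
def CompType.OK (D : LocalDatum 𝒪) : CompType 𝒪 → Prop
  | .ur => True
  | .st ε => D.SignOK ε
  | .stUr ε => D.SignOK ε

/-- The small parameters. -/
abbrev SmallVar (ι X : Type) : Type := X ⊕ ι × Fin 3

/-- The coefficient ring of the models. -/
abbrev Small (𝒪 : Type) [CommRing 𝒪] (ι X : Type) : Type := MvPowerSeries (SmallVar ι X) 𝒪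

/-- Polynomials in the line coordinates. -/
abbrev Chart (𝒪 : Type) [CommRing 𝒪] (ι X : Type) : Type := MvPolynomial ι (Small 𝒪 ι X)

/-- The target domain of the models. -/
abbrev Model (𝒪 : Type) [CommRing 𝒪] (ι X : Type) : Type := MvPowerSeries ι (Small 𝒪 ι X)

variable {ι X : Type}

/-- A small parameter as an element of the chart ring. -/
def par (i : ι) (j : Fin 3) : Chart 𝒪 ι X := MvPolynomial.C (MvPowerSeries.X (Sum.inr (i, j)))

variable (D : ι → LocalDatum 𝒪) (c : ι → CompType 𝒪)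

/-- The line coordinate at one prime. -/
def lineVar (i : ι) (ε : 𝒪) (u : Chart 𝒪 ι X) : Chart 𝒪 ι X :=
  match (D i).base with
  | .scalar _ => MvPolynomial.X i
  | .companion _ => algebraMap 𝒪 _ (-ε) + u

/-- Which parameters are free on a component. -/
def LocalDatum.free (D : LocalDatum 𝒪) (c : CompType 𝒪) (j : Fin 3) : Bool :=
  match D.base, c with
  | .scalar _, _ => true
  | .companion _, .ur => j == 2
  | .companion _, _ => j == 1

/-- The parameters of a component in the coefficient ring. -/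
def spar (i : ι) (j : Fin 3) : Small 𝒪 ι X :=
  if (D i).free (c i) j then MvPowerSeries.X (Sum.inr (i, j)) else 0

/-- The parameters of a component in the chart ring. -/
def cpar (i : ι) (j : Fin 3) : Chart 𝒪 ι X :=
  MvPolynomial.C (spar D c i j)

/-- The coordinates of the component at one prime. -/
def chartCoord (i : ι) : Fin 8 → Chart 𝒪 ι X :=
  match c i with
  | .ur => fun k => MvPolynomial.C ((D i).urCoord (spar D c i 0) (spar D c i 1) (spar D c i 2) k)
  | .st ε => (D i).stCoord ε (lineVar D i ε (cpar D c i 0)) (cpar D c i 1) (cpar D c i 2)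
  | .stUr ε => (D i).stCoord ε (lineVar D i ε (cpar D c i 0)) 0 (cpar D c i 2)

/-- All coordinates of the component. -/
def chartVar : LocVar ι X → Chart 𝒪 ι X :=
  Sum.elim (fun ik => chartCoord D c ik.1 ik.2)
    (fun x => MvPolynomial.C (MvPowerSeries.X (Sum.inl x)))

variable [Finite ι] [Finite X]

variable (𝒪 ι X) in
/-- The ideal of chart polynomials all of whose coefficients lie in the `N`-th power. -/
def chartIdeal (N : ℕ) : Ideal (Chart 𝒪 ι X) :=
  (maximalIdeal (Small 𝒪 ι X) ^ N).map MvPolynomial.C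

theorem X_mem_maximalIdeal_small (s : SmallVar ι X) :
    (MvPowerSeries.X s : Small 𝒪 ι X) ∈ maximalIdeal (Small 𝒪 ι X) :=
  span_X_le_maximalIdeal (Ideal.subset_span ⟨s, rfl⟩)

theorem algebraMap_mem_maximalIdeal_small {a : 𝒪} (ha : a ∈ maximalIdeal 𝒪) :
    algebraMap 𝒪 (Small 𝒪 ι X) a ∈ maximalIdeal (Small 𝒪 ι X) := by
  rw [mem_maximalIdeal_powerSeries, constantCoeff_algebraMap]
  exact ha

theorem C_mem_chartIdeal {a : Small 𝒪 ι X} (ha : a ∈ maximalIdeal (Small 𝒪 ι X)) :
    MvPolynomial.C a ∈ chartIdeal 𝒪 ι X 1 := by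
  rw [chartIdeal, pow_one]
  exact Ideal.mem_map_of_mem _ ha

theorem par_mem (i : ι) (j : Fin 3) : par (𝒪 := 𝒪) (X := X) i j ∈ chartIdeal 𝒪 ι X 1 :=
  C_mem_chartIdeal (X_mem_maximalIdeal_small _)

theorem algebraMap_mem_chartIdeal {a : 𝒪} (ha : a ∈ maximalIdeal 𝒪) :
    algebraMap 𝒪 (Chart 𝒪 ι X) a ∈ chartIdeal 𝒪 ι X 1 :=
  C_mem_chartIdeal (algebraMap_mem_maximalIdeal_small ha)

theorem spar_mem (i : ι) (j : Fin 3) :
    spar (X := X) D c i j ∈ maximalIdeal (Small 𝒪 ι X) := by
  unfold spar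
  split
  · exact X_mem_maximalIdeal_small _
  · exact zero_mem _

theorem cpar_mem (i : ι) (j : Fin 3) : cpar (X := X) D c i j ∈ chartIdeal 𝒪 ι X 1 :=
  C_mem_chartIdeal (spar_mem D c i j)

theorem constantCoeff_spar (i : ι) (j : Fin 3) :
    MvPowerSeries.constantCoeff (spar (X := X) D c i j) = 0 := by
  unfold spar
  split
  · exact MvPowerSeries.constantCoeff_X _
  · exact map_zero _

theorem isUnit_urDen (i : ι) :
    IsUnit ((D i).urDen (spar (X := X) D c i 0) (spar D c i 1)) := by
  rw [MvPowerSeries.isUnit_iff_constantCoeff]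
  unfold LocalDatum.urDen
  cases hb : (D i).base with
  | scalar φ =>
    simp only [hb]
    rw [map_add, constantCoeff_spar, add_zero, constantCoeff_algebraMap]
    exact isUnit_of_mul_isUnit_left (((D i).scalar_sq φ hb).symm ▸ (D i).isUnit_q)
  | companion T =>
    simp only [hb]
    rw [map_add, constantCoeff_spar, add_zero, map_one]
    exact isUnit_one

theorem chartCoord_mem {i : ι} (hc : (c i).OK (D i)) (k : Fin 8) :
    chartCoord (X := X) D c i k ∈ chartIdeal 𝒪 ι X 1 := by
  have hst : ∀ {ε : 𝒪}, (D i).SignOK ε → ∀ {n m : Chart 𝒪 ι X}, n ∈ chartIdeal 𝒪 ι X 1 →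
      m ∈ chartIdeal 𝒪 ι X 1 → (D i).stCoord ε (lineVar D i ε (cpar D c i 0)) n m k ∈ chartIdeal 𝒪 ι X 1 := by
    intro ε hε n m hn hm
    obtain ⟨hee, hres⟩ := hε
    have he : algebraMap 𝒪 (Chart 𝒪 ι X) ε * algebraMap 𝒪 _ ε = 1 := by
      rw [← map_mul, hee, map_one]
    rw [← Ideal.Quotient.eq_zero_iff_mem]
    let π := Ideal.Quotient.mkₐ 𝒪 (chartIdeal 𝒪 ι X 1)
    have hπ : ∀ {x : Chart 𝒪 ι X}, x ∈ chartIdeal 𝒪 ι X 1 → π x = 0 := fun hx =>
      Ideal.Quotient.eq_zero_iff_mem.mpr hx
    have hconst : ∀ a ∈ maximalIdeal 𝒪,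
        algebraMap 𝒪 (Chart 𝒪 ι X ⧸ chartIdeal 𝒪 ι X 1) a = 0 := by
      intro a ha
      rw [← π.commutes]
      exact hπ (algebraMap_mem_chartIdeal ha)
    show π _ = 0
    rw [LocalDatum.stCoord_map (A := Chart 𝒪 ι X) (B := Chart 𝒪 ι X ⧸ chartIdeal 𝒪 ι X 1) (D i) ε π,
      hπ hn, hπ hm]
    refine (D i).stCoord_eq_zero _ (by rw [← map_mul, hee, map_one]) (fun φ hb => ?_)
      (fun T hb => ?_) k
    · simp only [hb] at hres
      have h1 := hconst _ hres.1
      have h2 := hconst _ hres.2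
      rw [map_sub, sub_eq_zero] at h1 h2
      rw [map_mul, map_natCast] at h1
      exact ⟨h2, h1⟩
    · simp only [hb] at hres
      have h1 := hconst _ hres
      rw [map_sub, map_mul, map_add, map_one, map_natCast, sub_eq_zero] at h1
      refine ⟨h1, ?_⟩
      simp only [lineVar, hb]
      rw [map_add, hπ (cpar_mem D c i 0), add_zero, AlgHom.commutes, map_neg]
  unfold chartCoord
  cases hk : c i with
  | ur =>
    refine C_mem_chartIdeal ?_
    rw [mem_maximalIdeal_powerSeries]
    have h0 : ∀ j, MvPowerSeries.constantCoeff (spar (X := X) D c i j) = 0 :=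
      constantCoeff_spar D c i
    let π := AlgHom.mk (MvPowerSeries.constantCoeff (σ := SmallVar ι X) (R := 𝒪))
      constantCoeff_algebraMap
    show π _ ∈ _
    rw [(D i).urCoord_map π _ _ _ (isUnit_urDen D c i)]
    have hπ : ∀ j, π (spar (X := X) D c i j) = 0 := h0
    rw [hπ 0, hπ 1, hπ 2]
    unfold LocalDatum.urCoord
    cases hb : (D i).base with
    | scalar φ =>
      simp only [hb]
      fin_cases k <;> simp
      have hφ : φ * φ = ((D i).q : 𝒪) := (D i).scalar_sq φ hb
      have hu : IsUnit φ := isUnit_of_mul_isUnit_left (hφ ▸ (D i).isUnit_q)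
      rw [show ((D i).q : 𝒪) * Ring.inverse φ = φ by
        rw [← hφ, mul_assoc, Ring.mul_inverse_cancel _ hu, mul_one], sub_self]
      exact not_isUnit_zero
    | companion T =>
      simp only [hb]
      fin_cases k <;> simp
  | st ε =>
    simp only [hk, CompType.OK] at hc
    exact hst hc (cpar_mem D c _ _) (cpar_mem D c _ _)
  | stUr ε =>
    simp only [hk, CompType.OK] at hc
    exact hst hc (zero_mem _) (cpar_mem D c _ _)

theorem chartVar_mem (hc : ∀ i, (c i).OK (D i)) (j : LocVar ι X) :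
    chartVar D c j ∈ chartIdeal 𝒪 ι X 1 := by
  rcases j with ⟨i, k⟩ | x
  · exact chartCoord_mem D c (hc i) k
  · exact C_mem_chartIdeal (X_mem_maximalIdeal_small _)

theorem chartCoord_rel {i : ι} (hc : (c i).OK (D i)) :
    (D i).Rel 2 (chartCoord (X := X) D c i) := by
  unfold chartCoord
  cases hk : c i with
  | ur =>
    exact ((D i).urCoord_rel (A := Small 𝒪 ι X) _ _ _ (isUnit_urDen (X := X) D c i)).map
      (IsScalarTower.toAlgHom 𝒪 (Small 𝒪 ι X) (Chart 𝒪 ι X))
  | st ε => simp only [hk, CompType.OK] at hc; exact (D i).stCoord_rel hc.1 _ _ _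
  | stUr ε => simp only [hk, CompType.OK] at hc; exact (D i).stCoord_rel hc.1 _ _ _

theorem chartCoord_norm {i : ι} (hc : (c i).OK (D i)) :
    (D i).IsNorm (chartCoord (X := X) D c i) := by
  intro T hT
  unfold chartCoord cpar spar LocalDatum.free lineVar
  have hci := hc
  cases hk : c i with
  | ur =>
    simp only [hT]
    unfold LocalDatum.urCoord
    simp [hT]
  | st ε =>
    simp only [hk, CompType.OK] at hci
    simp [hT]
    exact (D i).stCoord_norm hT hci.1 _
  | stUr ε =>
    simp only [hk, CompType.OK] at hci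
    simp [hT]
    exact (D i).stCoord_norm hT hci.1 _

/-- Inclusion of the chart ring in the model. -/
def chartToModel : Chart 𝒪 ι X →ₐ[𝒪] Model 𝒪 ι X :=
  ⟨MvPolynomial.coeToMvPowerSeries.ringHom, fun a => by
    show MvPolynomial.coeToMvPowerSeries.ringHom (R := Small 𝒪 ι X) (σ := ι)
      (MvPolynomial.C (algebraMap 𝒪 (Small 𝒪 ι X) a)) = _
    simp [MvPowerSeries.algebraMap_apply]⟩

theorem coeff_chartToModel (F : Chart 𝒪 ι X) (t : ι →₀ ℕ) :
    MvPowerSeries.coeff t (chartToModel F) = MvPolynomial.coeff t F :=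
  MvPolynomial.coeff_coe _ _

theorem chartToModel_mem {F : Chart 𝒪 ι X} (hF : F ∈ chartIdeal 𝒪 ι X 1) :
    chartToModel F ∈ maximalIdeal (Model 𝒪 ι X) := by
  rw [mem_maximalIdeal_powerSeries, ← MvPowerSeries.coeff_zero_eq_constantCoeff_apply,
    coeff_chartToModel]
  rw [chartIdeal, pow_one] at hF
  exact MvPolynomial.mem_map_C_iff.mp hF 0

section K

variable [IsAdicComplete (maximalIdeal 𝒪) 𝒪] (hc : ∀ i, (c i).OK (D i))

local instance : IsAdicComplete (maximalIdeal (Small 𝒪 ι X)) (Small 𝒪 ι X) :=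
  isAdicComplete_powerSeries

local instance : IsAdicComplete (maximalIdeal (Model 𝒪 ι X)) (Model 𝒪 ι X) :=
  isAdicComplete_powerSeries

/-- The map to the model. -/
def toModel : MvPowerSeries (LocVar ι X) 𝒪 →ₐ[𝒪] Model 𝒪 ι X :=
  psEval (fun j => chartToModel (chartVar D c j))
    (fun j => chartToModel_mem (chartVar_mem D c hc j))

/-- The component: kernel of the map to the model. -/
def compKer : Ideal (MvPowerSeries (LocVar ι X) 𝒪) :=
  RingHom.ker (toModel D c hc)

/-- The `N`-th polynomial approximation of a power series on a component. -/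
def approx (N : ℕ) (f : MvPowerSeries (LocVar ι X) 𝒪) : Chart 𝒪 ι X :=
  MvPolynomial.aeval (chartVar D c) (MvPowerSeries.truncTotal N f)

include hc in
theorem aeval_chartVar_mem {N : ℕ} {p : MvPolynomial (LocVar ι X) 𝒪}
    (hp : p ∈ MvPolynomial.idealOfVars (LocVar ι X) 𝒪 ^ N) :
    MvPolynomial.aeval (chartVar D c) p ∈ chartIdeal 𝒪 ι X N := by
  have h1 : (MvPolynomial.idealOfVars (LocVar ι X) 𝒪).map
      (MvPolynomial.aeval (R := 𝒪) (chartVar (X := X) D c) : MvPolynomial (LocVar ι X) 𝒪 →+* Chart 𝒪 ι X) ≤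
        chartIdeal 𝒪 ι X 1 := by
    rw [Ideal.map_span, Ideal.span_le]
    rintro _ ⟨_, ⟨j, rfl⟩, rfl⟩
    simpa using chartVar_mem D c hc j
  have h2 := Ideal.pow_right_mono h1 N
  rw [← Ideal.map_pow] at h2
  have h3 : chartIdeal 𝒪 ι X 1 ^ N = chartIdeal 𝒪 ι X N := by
    rw [chartIdeal, chartIdeal, pow_one, Ideal.map_pow]
  rw [← h3]
  exact h2 (Ideal.mem_map_of_mem _ hp)

/-- The map to the model is computed coefficientwise by the approximations. -/
theorem coeff_toModel_sub_approx (N : ℕ) (f : MvPowerSeries (LocVar ι X) 𝒪) (t : ι →₀ ℕ) :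
    MvPowerSeries.coeff t (toModel D c hc f) - MvPolynomial.coeff t (approx D c N f) ∈
      maximalIdeal (Small 𝒪 ι X) ^ N := by
  set M := N + t.degree with hM
  have hcoe : ∀ p : MvPolynomial (LocVar ι X) 𝒪,
      toModel D c hc (p : MvPowerSeries (LocVar ι X) 𝒪) =
        chartToModel (MvPolynomial.aeval (chartVar D c) p) := by
    intro p
    rw [toModel, psEval_coe]
    exact (MvPolynomial.comp_aeval_apply (chartVar D c) chartToModel p).symm
  have h1 : toModel D c hc f - chartToModel (approx D c M f) ∈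
      maximalIdeal (Model 𝒪 ι X) ^ M := by
    rw [approx, ← hcoe, ← map_sub]
    have hle : (Ideal.span (Set.range (MvPowerSeries.X (σ := LocVar ι X) (R := 𝒪)))).map
        (toModel D c hc) ≤ maximalIdeal (Model 𝒪 ι X) := by
      rw [Ideal.map_span, Ideal.span_le]
      rintro _ ⟨_, ⟨j, rfl⟩, rfl⟩
      rw [SetLike.mem_coe, toModel, psEval_X]
      exact chartToModel_mem (chartVar_mem D c hc j)
    have := Ideal.pow_right_mono hle M
    rw [← Ideal.map_pow] at this
    exact this (Ideal.mem_map_of_mem _ (sub_truncTotal_mem_span_X_pow f M))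
  have h1' := coeff_mem_of_mem_pow h1 t
  rw [map_sub, coeff_chartToModel, show M - t.degree = N by omega] at h1'
  have h2 : approx D c M f - approx D c N f ∈ chartIdeal 𝒪 ι X N := by
    rw [approx, approx, ← map_sub]
    refine aeval_chartVar_mem D c hc ?_
    exact MvPowerSeries.truncTotal_sub_truncTotal_mem_pow_idealOfVars (show N ≤ M by omega) le_rfl f
  have h2' := MvPolynomial.mem_map_C_iff.mp h2 t
  rw [MvPolynomial.coeff_sub] at h2'
  simpa using Ideal.add_mem _ h1' h2'

theorem mem_compKer_iff {f : MvPowerSeries (LocVar ι X) 𝒪} :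
    f ∈ compKer D c hc ↔ ∀ N, approx D c N f ∈ chartIdeal 𝒪 ι X N := by
  rw [compKer, RingHom.mem_ker]
  constructor
  · intro h N
    refine MvPolynomial.mem_map_C_iff.mpr fun t => ?_
    have := coeff_toModel_sub_approx D c hc N f t
    rwa [h, map_zero, zero_sub, neg_mem_iff] at this
  · intro h
    ext1 t
    rw [map_zero]
    refine eq_zero_of_forall_mem_pow (I := maximalIdeal (Small 𝒪 ι X)) fun N => ?_
    simpa using Ideal.add_mem _ (coeff_toModel_sub_approx D c hc N f t)
      (MvPolynomial.mem_map_C_iff.mp (h N) t)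

/-- **Point lemma.** An element of a component vanishes at every point of its chart, in any ring
with a nilpotent ideal containing the small parameters. -/
theorem eq_zero_of_mem_compKer {W : Type} [CommRing W] [Algebra 𝒪 W] {I : Ideal W} {N : ℕ}
    (hI : I ^ N = ⊥) (ψ : Small 𝒪 ι X →ₐ[𝒪] W)
    (hψ : ∀ a ∈ maximalIdeal (Small 𝒪 ι X), ψ a ∈ I) (l : ι → W)
    (F : MvPowerSeries (LocVar ι X) 𝒪 →ₐ[𝒪] W)
    (hF : ∀ j, F (MvPowerSeries.X j) = MvPolynomial.aevalTower ψ l (chartVar D c j))
    {f : MvPowerSeries (LocVar ι X) 𝒪} (hf : f ∈ compKer D c hc) : F f = 0 := by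
  set ev := MvPolynomial.aevalTower ψ l with hev
  have hJ : ∀ k, (chartIdeal 𝒪 ι X k).map (ev : Chart 𝒪 ι X →+* W) ≤
      I ^ k := by
    intro k
    rw [chartIdeal, Ideal.map_map]
    have : (ev : Chart 𝒪 ι X →+* W).comp MvPolynomial.C = (ψ : Small 𝒪 ι X →+* W) :=
      RingHom.ext fun a => MvPolynomial.aevalTower_C ψ l a
    rw [this, Ideal.map_pow]
    exact Ideal.pow_right_mono (Ideal.map_le_iff_le_comap.mpr hψ) k
  have hXI : ∀ j, F (MvPowerSeries.X j) ∈ I := fun j => by
    rw [hF j, ← pow_one I]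
    exact hJ 1 (Ideal.mem_map_of_mem _ (chartVar_mem D c hc j))
  have h1 : F (f - (MvPowerSeries.truncTotal N f : MvPowerSeries (LocVar ι X) 𝒪)) = 0 := by
    have hle : (Ideal.span (Set.range (MvPowerSeries.X (σ := LocVar ι X) (R := 𝒪)))).map F ≤ I := by
      rw [Ideal.map_span, Ideal.span_le]
      rintro _ ⟨_, ⟨j, rfl⟩, rfl⟩
      exact hXI j
    have := Ideal.pow_right_mono hle N
    rw [← Ideal.map_pow, hI] at this
    exact Ideal.mem_bot.mp (this (Ideal.mem_map_of_mem _ (sub_truncTotal_mem_span_X_pow f N)))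
  have hcomp : F.comp (MvPolynomial.coeToMvPowerSeries.algHom 𝒪) =
      ev.comp (MvPolynomial.aeval (chartVar D c)) :=
    MvPolynomial.algHom_ext fun j => by simpa using hF j
  have h2 : F (MvPowerSeries.truncTotal N f : MvPowerSeries (LocVar ι X) 𝒪) =
      ev (approx D c N f) := by
    simpa [approx] using DFunLike.congr_fun hcomp (MvPowerSeries.truncTotal N f)
  have h3 : ev (approx D c N f) ∈ I ^ N :=
    hJ N (Ideal.mem_map_of_mem _ ((mem_compKer_iff D c hc).mp hf N))
  rw [hI, Ideal.mem_bot] at h3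
  rwa [map_sub, h2, h3, sub_zero] at h1

theorem isNorm_compKer (i : ι) :
    (D i).IsNorm fun k => Ideal.Quotient.mk (compKer (X := X) D c hc) (locCoord i k) := by
  intro T hT
  have key : ∀ k, chartCoord (X := X) D c i k = 0 →
      Ideal.Quotient.mk (compKer (X := X) D c hc) (locCoord i k) = 0 := by
    intro k hk
    rw [Ideal.Quotient.eq_zero_iff_mem, compKer, RingHom.mem_ker, toModel, locCoord, psEval_X]
    show chartToModel (chartCoord D c i k) = 0
    rw [hk, map_zero]
  obtain ⟨h0, h2⟩ := chartCoord_norm D c (X := X) (hc i) T hT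
  exact ⟨key 0 h0, key 2 h2⟩

theorem isPrime_compKer [IsDomain 𝒪] : (compKer (X := X) D c hc).IsPrime :=
  haveI : IsDomain (Small 𝒪 ι X) := NoZeroDivisors.to_isDomain _
  haveI : IsDomain (Model 𝒪 ι X) := NoZeroDivisors.to_isDomain _
  RingHom.ker_isPrime (toModel (X := X) D c hc)

theorem rel_compKer (i : ι) :
    (D i).Rel 2 fun k => Ideal.Quotient.mk (compKer (X := X) D c hc) (locCoord i k) := by
  refine LocalDatum.Rel.of_ker (toModel (X := X) D c hc) ?_
  have h := (chartCoord_rel D c (X := X) (hc i)).map chartToModel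
  have e : (fun k => toModel D c hc (locCoord i k)) =
      fun k => chartToModel (X := X) (chartCoord D c i k) := funext fun k => by
    rw [toModel, locCoord, psEval_X]
    rfl
  rw [e]
  exact h

end K

end FLTAgent.RT
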