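import Fermat.Agent.RT.Lower.AwayChain
import Fermat.Agent.RT.Raise.End
import Fermat.Agent.RT.Carayol.BaseInst
import Fermat.Agent.MazurP.LowerGeneral
import Fermat.Agent.Wiring.LevelLowering
import Fermat.Agent.Semistable.Rep.Instance

/-!
# Modularity lifting at the conductor level

The assembly of lifting at an odd prime from the lowering of a scalar prime and the raising at a
multiplicative `p`.
-/

set_option autoImplicit false

noncomputable section

open WeierstrassCurve

namespace FLTAgent.RT

variable {W : WeierstrassCurve ℤ} {p : ℕ} [Fact p.Prime]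

/-- **Modularity lifting**, from scalar lowering and raising at `p`. -/
theorem modularityLifting (hp2 : p ≠ 2) (hΔ : W.Δ ≠ 0) (hss : W.IsSemistableModel)
    (hirr : W.ModRepIsIrreducible p) (hL : Lower.ScalarLoweringAt W p)
    (hraise : RaiseConclusion W p) {M₀ : ℕ} [NeZero M₀]
    (hres : W.IsResiduallyModularOfLevel p M₀) (hM₀ : ¬ p ^ 2 ∣ M₀)
    (hM₀3 : ∀ q : ℕ, q.Prime → q ≠ p → ¬ q ^ 3 ∣ M₀) :
    Mlc1IsModularModelOfExactConductorLevel W :=
  Lower.modularityLifting_of_lowering hp2 hΔ hss hirr Semistable.newformSpecialCharpoly_holds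
    (Carayol.removeSquare_inst hΔ hss hp2 hirr) Wiring.mazurPrincipleExt_holds hL
    (MazurP.lowerAtPAt hp2 hΔ hss hirr)
    (chainConclusion hp2 hΔ hss hirr (chainConclusion_of_peu hp2 hΔ hss hirr hraise))
    hres hM₀ hM₀3

end FLTAgent.RT
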