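import Fermat.Agent.RT.LocalDim
import Mathlib.RingTheory.Localization.FractionRing

/-!
# The pointwise obstruction used for level lowering

On the locus cut out by the three elements, the discriminant `u = (tr Φ)² - 4q` of a lift with
inertia eigenvalues `ζ^±1` is too small to be divisible by `ζ - 1`.
-/

set_option autoImplicit false

noncomputable section

open IsLocalRing Matrix

namespace FLTAgent.RT

/-- A prime containing given elements but not `ϖ`, when there are fewer elements than the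
dimension. -/
theorem exists_prime_not_mem_of_card_lt {A : Type*} [CommRing A] [IsLocalRing A]
    [IsNoetherianRing A] {κ : Type*} [Finite κ] (z : κ → A) (hz : ∀ i, z i ∈ maximalIdeal A)
    (ϖ : A) (h : ∀ P : Ideal A, P.IsPrime → (∀ i, z i ∈ P) → ϖ ∈ P → P = maximalIdeal A)
    (hdim : (Nat.card κ : ℕ) < ringKrullDim A) :
    ∃ P : Ideal A, P.IsPrime ∧ (∀ i, z i ∈ P) ∧ ϖ ∉ P := by
  by_contra hcon
  push Not at hcon
  exact absurd (ringKrullDim_le_card z (fun P hP hzP => h P hP hzP (hcon P hP hzP)) hz)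
    (not_le.mpr hdim)

variable {𝒪 : Type} [CommRing 𝒪]

/-- A matrix with trace `x + x'` and determinant `x x' = 1` and a power with exponent `≡ 1`. -/
theorem pow_eq_self_of_eigen {L : Type*} [CommRing L] [IsDomain L] {s : Matrix (Fin 2) (Fin 2) L}
    {x x' : L} (hxx : x * x' = 1) (htr : s.trace = x + x') (hdet : s.det = 1) (hne : x ≠ x')
    {q : ℕ} (hq : x ^ q = x) : s ^ q = s := by
  have hch : s * s = (x + x') • s - 1 := by
    rw [← htr]
    ext i j
    have hd : s 0 0 * s 1 1 - s 0 1 * s 1 0 = 1 := by rw [← det_fin_two]; exact hdet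
    fin_cases i <;> fin_cases j <;>
      simp [Matrix.mul_apply, Fin.sum_univ_two, trace_fin_two] <;>
      first | linear_combination -hd | ring
  have hpow : ∀ n, (x - x') • s ^ n =
      (x ^ n - x' ^ n) • s - (x * x' ^ n * (-1) + x' * x ^ n) • (1 : Matrix (Fin 2) (Fin 2) L) := by
    intro n
    induction n with
    | zero =>
      simp only [pow_zero, sub_self, zero_smul, mul_one, zero_sub, ← neg_smul]
      congr 1
      ring
    | succ n ih =>
      rw [pow_succ, ← smul_mul_assoc, ih, sub_mul, smul_mul_assoc, smul_mul_assoc, hch, one_mul,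
        smul_sub, smul_smul, pow_succ, pow_succ]
      ext i j
      simp only [Matrix.sub_apply, Matrix.smul_apply, smul_eq_mul]
      linear_combination (-(1 : Matrix (Fin 2) (Fin 2) L) i j * x' ^ n +
        (1 : Matrix (Fin 2) (Fin 2) L) i j * x ^ n) * hxx
  have hq' : x' ^ q = x' := by
    have h : x' ^ q * x = x' * x := by
      calc x' ^ q * x = x' ^ q * x ^ q := by rw [hq]
        _ = x' * x := by rw [← mul_pow, mul_comm x' x, hxx, one_pow]
    exact mul_right_cancel₀ (left_ne_zero_of_mul (hxx.trans_ne one_ne_zero)) h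
  refine smul_right_injective _ (sub_ne_zero.mpr hne) ?_
  show (x - x') • s ^ q = (x - x') • s
  rw [hpow q, hq, hq']
  simp [mul_comm x x']

/-- The discriminant of the Frobenius matrix. -/
def LocalDatum.disc (D : LocalDatum 𝒪) {A : Type*} [CommRing A] [Algebra 𝒪 A] (v : Fin 8 → A) : A :=
  (D.phiMat v).trace ^ 2 - 4 * (D.q : A)

/-- **Level lowering, pointwise form.** The discriminant is not divisible by `ζ - 1`. -/
theorem LocalDatum.chi_obstruction [IsLocalRing 𝒪] (D : LocalDatum 𝒪) (h2 : IsUnit (2 : 𝒪))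
    {ζ ζ' : 𝒪} (hζζ : ζ * ζ' = 1) (hζ : ζ - 1 ∈ maximalIdeal 𝒪) (hζq : ζ ^ D.q = ζ)
    (hbase : ∀ T, D.base = LocalBase.companion T → T * T = 4 * (D.q : 𝒪))
    {L : Type*} [CommRing L] [IsDomain L] [IsLocalRing L] [Algebra 𝒪 L]
    [IsLocalHom (algebraMap 𝒪 L)] (hne : algebraMap 𝒪 L (ζ - 1) ≠ 0) {v : Fin 8 → L}
    (hv : ∀ k, v k ∈ maximalIdeal L) (hrel : D.Rel (ζ + ζ') v) (hcut : ∀ i, D.cut v i = 0)
    {U : FractionRing L} (hU : IsIntegral L U)
    (hwU : algebraMap L (FractionRing L) (algebraMap 𝒪 L (ζ - 1)) * U =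
      algebraMap L (FractionRing L) (D.disc v)) : False := by
  set z := algebraMap 𝒪 L ζ with hz
  set z' := algebraMap 𝒪 L ζ' with hz'
  have hzz : z * z' = 1 := by rw [hz, hz', ← map_mul, hζζ, map_one]
  set w := algebraMap 𝒪 L (ζ - 1) with hw
  have hwm : w ∈ maximalIdeal L := by
    rw [IsLocalRing.mem_maximalIdeal, mem_nonunits_iff, hw]
    exact fun h => (IsLocalRing.mem_maximalIdeal _).mp hζ (IsLocalHom.map_nonunit _ h)
  have hzw : z = 1 + w := by rw [hw, map_sub, map_one]; ring
  have h2u : IsUnit (2 : L) := map_ofNat (algebraMap 𝒪 L) 2 ▸ h2.map (algebraMap 𝒪 L)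
  have hqu : IsUnit (D.q : L) := by simpa using D.isUnit_q.map (algebraMap 𝒪 L)
  have unit_add : ∀ {a m : L}, IsUnit a → m ∈ maximalIdeal L → IsUnit (a + m) := by
    intro a m ha hm
    by_contra hcon
    have : a ∈ maximalIdeal L := by
      simpa using (maximalIdeal L).sub_mem ((IsLocalRing.mem_maximalIdeal _).mpr hcon) hm
    exact (IsLocalRing.mem_maximalIdeal _).mp this ha
  have hδ : z - z' = w * (z' * (2 + w)) := by
    linear_combination -z * hzz + z' * (z + 1 + w) * hzw
  have hδu : IsUnit (z' * (2 + w)) :=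
    (IsUnit.of_mul_eq_one z (by rw [mul_comm, hzz])).mul (unit_add h2u hwm)
  have htr : (sMat v).trace = z + z' := by rw [hrel.trace_s, map_add]
  have hne' : z ≠ z' := by
    rw [Ne, ← sub_eq_zero, hδ]
    exact mul_ne_zero hne hδu.ne_zero
  have hsq : sMat v ^ D.q = sMat v :=
    pow_eq_self_of_eigen hzz htr hrel.det_s hne' (by rw [hz, ← map_pow, hζq])
  have hcomm := hrel.comm
  rw [hsq] at hcomm
  have h00 := congrFun (congrFun hcomm 0) 0
  have h01 := congrFun (congrFun hcomm 0) 1
  have h10 := congrFun (congrFun hcomm 1) 0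
  have hdet := hrel.det_phi
  rw [det_fin_two] at hdet
  have hdisc : (v 4 - v 7) ^ 2 + 4 * (v 5 * v 6) = (z - z') ^ 2 := by
    have hd := hrel.det_s
    rw [det_fin_two] at hd
    rw [trace_fin_two] at htr
    simp [sMat] at hd htr
    linear_combination -4 * hd + (2 + v 4 + v 7 + z + z') * htr + 4 * hzz
  obtain ⟨n, hn, c, hc, hun⟩ :
      ∃ n : ℕ, 2 < n ∧ ∃ c : L, IsUnit c ∧ D.disc v ^ n = w ^ 2 * c := by
    rcases hb : D.base with φ | T
    · simp only [LocalDatum.cut, hb] at hcut
      have hη : v 4 - v 7 = -(v 0 - v 3) ^ 5 := by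
        have := hcut 0; simp at this; linear_combination this
      have hg : v 6 = -v 1 ^ 3 := by have := hcut 1; simp at this; linear_combination this
      have hf : v 5 = -v 2 ^ 3 := by have := hcut 2; simp at this; linear_combination this
      rw [hη, hf, hg] at hdisc
      simp [LocalDatum.phiMat, LocalDatum.baseMat, sMat, hb, Matrix.mul_apply, Fin.sum_univ_two,
        hf, hg] at h00 h01 h10 hdet
      have hu : D.disc v = (v 0 - v 3) ^ 2 + 4 * (v 1 * v 2) := by
        simp [LocalDatum.disc, trace_fin_two, LocalDatum.phiMat, LocalDatum.baseMat, hb]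
        linear_combination 4 * hdet
      have hc3 : (v 0 - v 3) * v 2 ^ 3 = (v 0 - v 3) ^ 5 * v 1 := by
        linear_combination (-1 : L) * h01 - v 1 * hη
      have hb3 : (v 0 - v 3) * v 1 ^ 3 = (v 0 - v 3) ^ 5 * v 2 := by
        linear_combination h10 - v 2 * hη
      by_cases hα : v 0 - v 3 = 0
      · refine ⟨3, by norm_num, 16 * (z' * (2 + w)) ^ 2, ?_, ?_⟩
        · exact IsUnit.mul (by convert h2u.pow 4 using 1; norm_num) (hδu.pow 2)
        · rw [hu, hα]
          rw [hα, hδ] at hdisc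
          linear_combination 16 * hdisc
      · have hc3' : v 2 ^ 3 = (v 0 - v 3) ^ 4 * v 1 :=
          mul_left_cancel₀ hα (by linear_combination hc3)
        have hb3' : v 1 ^ 3 = (v 0 - v 3) ^ 4 * v 2 :=
          mul_left_cancel₀ hα (by linear_combination hb3)
        have hcube : (v 1 * v 2) * ((v 1 * v 2) ^ 2 - ((v 0 - v 3) ^ 4) ^ 2) = 0 := by
          linear_combination v 2 ^ 3 * hb3' + (v 0 - v 3) ^ 4 * v 2 * hc3'
        obtain ⟨σ, hσ⟩ : ∃ σ : L, v 1 * v 2 = σ * (v 0 - v 3) ^ 4 := by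
          rcases mul_eq_zero.mp hcube with h | h
          · exact ⟨0, by rw [h, zero_mul]⟩
          · rcases eq_or_eq_neg_of_sq_eq_sq _ _ (sub_eq_zero.mp h) with h | h
            · exact ⟨1, by rw [h, one_mul]⟩
            · exact ⟨-1, by rw [h, neg_one_mul]⟩
        set μ := 1 + 4 * σ * (v 0 - v 3) ^ 2 with hμ
        have hμu : IsUnit μ := unit_add isUnit_one (Ideal.mul_mem_left _ _
          (Ideal.pow_mem_of_mem _ ((maximalIdeal L).sub_mem (hv 0) (hv 3)) 2 (by norm_num)))
        refine ⟨5, by norm_num, μ ^ 4 * (z' * (2 + w)) ^ 2, (hμu.pow 4).mul (hδu.pow 2), ?_⟩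
        have hδ2 : (v 0 - v 3) ^ 10 * μ = (w * (z' * (2 + w))) ^ 2 := by
          rw [← hδ, hμ]
          linear_combination hdisc - 4 * v 2 ^ 3 * hb3' - 4 * (v 0 - v 3) ^ 4 * v 2 * hc3' -
            4 * (v 0 - v 3) ^ 8 * hσ
        rw [hu]
        have : (v 0 - v 3) ^ 2 + 4 * (v 1 * v 2) = (v 0 - v 3) ^ 2 * μ := by
          rw [hμ]; linear_combination 4 * hσ
        rw [this]
        linear_combination μ ^ 4 * hδ2
    · simp only [LocalDatum.cut, hb] at hcut
      have ha : v 0 = 0 := by simpa using hcut 0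
      have hcc : v 2 = 0 := by simpa using hcut 1
      have hd : v 3 = -v 6 := by have := hcut 2; simp at this; linear_combination this
      simp [LocalDatum.phiMat, LocalDatum.baseMat, sMat, hb, Matrix.mul_apply, Fin.sum_univ_two,
        ha, hcc, hd] at h00 h10 hdet
      have hb0 : v 1 = 0 := hdet
      rw [hb0] at h00
      have hf : v 5 = -(D.q : L) * v 6 := by linear_combination -h00
      have hηeq : v 4 - v 7 = -((algebraMap 𝒪 L T - v 6) * v 6) := by linear_combination h10
      have hu : D.disc v = v 6 * (v 6 - 2 * algebraMap 𝒪 L T) := by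
        have hTT : algebraMap 𝒪 L T * algebraMap 𝒪 L T = 4 * (D.q : L) := by
          rw [← map_mul, hbase T hb, map_mul, map_ofNat, map_natCast]
        simp [LocalDatum.disc, trace_fin_two, LocalDatum.phiMat, LocalDatum.baseMat, hb, ha, hd]
        linear_combination hTT
      have hTu : IsUnit (algebraMap 𝒪 L T) := by
        refine isUnit_of_mul_isUnit_left (y := algebraMap 𝒪 L T) ?_
        rw [← map_mul, hbase T hb, map_mul, map_ofNat, map_natCast]
        exact IsUnit.mul (by convert h2u.pow 2 using 1; norm_num) hqu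
      have hμu : IsUnit (v 6 - 2 * algebraMap 𝒪 L T) := by
        rw [sub_eq_neg_add]
        exact unit_add (h2u.mul hTu).neg (hv 6)
      refine ⟨3, by norm_num, (v 6 - 2 * algebraMap 𝒪 L T) ^ 2 * (z' * (2 + w)) ^ 2,
        (hμu.pow 2).mul (hδu.pow 2), ?_⟩
      rw [hu]
      have hTT : algebraMap 𝒪 L T * algebraMap 𝒪 L T = 4 * (D.q : L) := by
        rw [← map_mul, hbase T hb, map_mul, map_ofNat, map_natCast]
      have hδ2 : v 6 ^ 3 * (v 6 - 2 * algebraMap 𝒪 L T) = (w * (z' * (2 + w))) ^ 2 := by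
        rw [← hδ]
        rw [hf, hηeq] at hdisc
        linear_combination hdisc - v 6 ^ 2 * hTT
      linear_combination (v 6 - 2 * algebraMap 𝒪 L T) ^ 2 * hδ2
  -- `w ^ (n - 2) * U ^ n` is a unit, so `w` is invertible in an integral extension
  have hwF : algebraMap L (FractionRing L) w ≠ 0 := by
    rw [Ne, map_eq_zero_iff _ (IsFractionRing.injective L (FractionRing L))]
    exact hne
  obtain ⟨m, rfl⟩ : ∃ m, n = m + 3 := ⟨n - 3, by omega⟩
  have hkey : algebraMap L (FractionRing L) w ^ (m + 1) * U ^ (m + 3) =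
      algebraMap L (FractionRing L) c := by
    refine mul_left_cancel₀ (pow_ne_zero 2 hwF) ?_
    rw [← mul_assoc, ← pow_add, show 2 + (m + 1) = m + 3 by ring, ← mul_pow, hwU, ← map_pow, hun,
      map_mul, map_pow]
  obtain ⟨c', hc'⟩ := hc.exists_left_inv
  set x := algebraMap L (FractionRing L) w ^ m * U ^ (m + 3) * algebraMap L (FractionRing L) c'
    with hx
  have hxint : IsIntegral L x := by
    refine IsIntegral.mul (IsIntegral.mul ?_ (hU.pow _)) isIntegral_algebraMap
    rw [← map_pow]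
    exact isIntegral_algebraMap
  have hwx : algebraMap L (FractionRing L) w * x = 1 := by
    rw [hx, ← mul_assoc, ← mul_assoc, ← pow_succ', hkey, ← map_mul, mul_comm, hc', map_one]
  obtain ⟨f, hf, hfx⟩ := hxint
  have : IsUnit w := by
    refine isUnit_iff_exists_inv.mpr ?_
    set d := f.natDegree with hd
    refine ⟨-(∑ i ∈ Finset.range d, f.coeff i * w ^ (d - 1 - i)), ?_⟩
    apply IsFractionRing.injective L (FractionRing L)
    rw [map_mul, map_neg, map_sum, map_one, mul_neg, Finset.mul_sum]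
    have hev : Polynomial.eval₂ (algebraMap L (FractionRing L)) x f = 0 := hfx
    rw [Polynomial.eval₂_eq_sum_range, ← hd, Finset.sum_range_succ, hf.coeff_natDegree, map_one,
      one_mul] at hev
    have h1 : (algebraMap L (FractionRing L) w) ^ d * x ^ d = 1 := by
      rw [← mul_pow, hwx, one_pow]
    calc -∑ i ∈ Finset.range d, algebraMap L (FractionRing L) w *
          algebraMap L (FractionRing L) (f.coeff i * w ^ (d - 1 - i))
        = -(algebraMap L (FractionRing L) w ^ d *
            ∑ i ∈ Finset.range d, algebraMap L (FractionRing L) (f.coeff i) * x ^ i) := by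
          congr 1
          rw [Finset.mul_sum]
          refine Finset.sum_congr rfl fun i hi => ?_
          have hid : i < d := Finset.mem_range.mp hi
          rw [map_mul, map_pow]
          conv_rhs => rw [show d = (d - 1 - i) + 1 + i by omega, pow_add, pow_succ]
          calc algebraMap L (FractionRing L) w * (algebraMap L (FractionRing L) (f.coeff i) *
                algebraMap L (FractionRing L) w ^ (d - 1 - i))
              = algebraMap L (FractionRing L) w ^ (d - 1 - i) * algebraMap L (FractionRing L) w *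
                (algebraMap L (FractionRing L) (f.coeff i) *
                  (algebraMap L (FractionRing L) w * x) ^ i) := by
                rw [hwx, one_pow]; ring
            _ = _ := by rw [mul_pow]; ring
      _ = 1 := by
          rw [eq_neg_of_add_eq_zero_left hev, mul_neg, neg_neg, h1]
  exact (IsLocalRing.mem_maximalIdeal _).mp hwm this

variable [IsDomain 𝒪] [IsDiscreteValuationRing 𝒪] {ι X : Type} [Finite ι] [Finite X]

open FLTAgent.Deformation in
/-- On a prime of full dimension there is a characteristic zero point of the cut locus. -/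
theorem exists_lowering_point (h2 : IsUnit (2 : 𝒪)) (D : ι → LocalDatum 𝒪) (t : ι → 𝒪)
    (ht : ∀ i, t i - 2 ∈ maximalIdeal 𝒪) (Q : Ideal (MvPowerSeries (LocVar ι X) 𝒪)) [Q.IsPrime]
    (hQ : ∀ i, (D i).Rel (t i) fun k => Ideal.Quotient.mk Q (locCoord i k))
    (hN : ∀ i, (D i).IsNorm fun k => Ideal.Quotient.mk Q (locCoord i k))
    (hdim : (Nat.card ((Σ i, Fin (D i).h0) ⊕ X) : ℕ) <
      ringKrullDim (MvPowerSeries (LocVar ι X) 𝒪 ⧸ Q)) :
    ∃ P : Ideal (MvPowerSeries (LocVar ι X) 𝒪), P.IsPrime ∧ Q ≤ P ∧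
      (∀ a : 𝒪, a ≠ 0 → algebraMap 𝒪 _ a ∉ P) ∧
      (∀ i, (D i).Rel (t i) fun k => Ideal.Quotient.mk P (locCoord i k)) ∧
      (∀ i k, (D i).cut (fun k => Ideal.Quotient.mk P (locCoord i k)) k = 0) ∧
      ∀ x, (MvPowerSeries.X (Sum.inr x) : MvPowerSeries (LocVar ι X) 𝒪) ∈ P := by
  obtain ⟨ϖ, hϖ⟩ := IsDiscreteValuationRing.exists_irreducible 𝒪
  let R := MvPowerSeries (LocVar ι X) 𝒪
  have : IsLocalRing (R ⧸ Q) := isLocalRing_quotient ‹Q.IsPrime›.ne_top
  obtain ⟨P₀, hP₀, hz, hϖP⟩ := exists_prime_not_mem_of_card_lt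
    (fun z => Ideal.Quotient.mk Q (cutElt D z))
    (fun z => by rw [maximalIdeal_quotient_eq]; exact Ideal.mem_map_of_mem _ (cutElt_mem D z))
    (algebraMap 𝒪 (R ⧸ Q) ϖ)
    (fun P hP hzP hϖP => eq_maximalIdeal_quotient h2 D t ht Q hQ hN hϖ P hP hϖP hzP) hdim
  have hQP : Q ≤ P₀.comap (Ideal.Quotient.mk Q) := fun x hx => by
    rw [Ideal.mem_comap, Ideal.Quotient.eq_zero_iff_mem.mpr hx]
    exact zero_mem _
  refine ⟨P₀.comap (Ideal.Quotient.mk Q), inferInstance, hQP, fun a ha => ?_,
    fun i => (hQ i).map (Ideal.Quotient.factorₐ 𝒪 hQP), fun i k => ?_,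
    fun x => hz (Sum.inr x)⟩
  · intro h
    rw [Ideal.mem_comap, Ideal.Quotient.mk_algebraMap] at h
    obtain ⟨n, u, hu⟩ := IsDiscreteValuationRing.eq_unit_mul_pow_irreducible ha hϖ
    rw [hu, map_mul, map_pow] at h
    rcases hP₀.mem_or_mem h with h | h
    · exact hP₀.ne_top (Ideal.eq_top_of_isUnit_mem _ h (u.isUnit.map _))
    · exact hϖP (hP₀.mem_of_pow_mem n h)
  · refine (D i).cut_eq_zero ((hN i).map (Ideal.Quotient.factorₐ 𝒪 hQP)) (fun j => ?_) k
    show (D i).cut (fun k => Ideal.Quotient.mk (P₀.comap (Ideal.Quotient.mk Q)) (locCoord i k)) _ = 0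
    rw [← (D i).cut_map]
    exact Ideal.Quotient.eq_zero_iff_mem.mpr (hz (Sum.inl ⟨i, j⟩))

end FLTAgent.RT
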