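import Fermat.Agent.RT.LocalChi
import Mathlib.RingTheory.Valuation.ValuationRing

/-!
# A cut adapted to lowering at a scalar prime

At a prime `q ≡ 1 mod p` where the residual Frobenius is scalar, a cut with a large exponent
makes the discriminant of Frobenius too small to be divisible by a fixed root of `ζ - 1`.
-/

set_option autoImplicit false

noncomputable section

open IsLocalRing Matrix

namespace FLTAgent.RT

variable {𝒪 : Type} [CommRing 𝒪]

/-- The three cutting elements at a scalar prime, with exponent `2 k + 1`. -/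
def cutQ (k : ℕ) {A : Type*} [CommRing A] (v : Fin 8 → A) : Fin 3 → A :=
  ![(v 4 - v 7) - (v 0 - v 3) ^ (2 * k + 1), v 6 + v 1 ^ (2 * k + 1), v 5 - v 2 ^ (2 * k + 1)]

theorem cutQ_map (k : ℕ) {A B : Type*} [CommRing A] [CommRing B] (f : A →+* B) (v : Fin 8 → A)
    (i : Fin 3) : f (cutQ k v i) = cutQ k (fun j => f (v j)) i := by
  unfold cutQ
  fin_cases i <;> simp

theorem cutQ_mem (k : ℕ) {A : Type*} [CommRing A] (I : Ideal A) {v : Fin 8 → A}
    (hv : ∀ j, v j ∈ I) (i : Fin 3) : cutQ k v i ∈ I := by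
  unfold cutQ
  fin_cases i
  · exact I.sub_mem (I.sub_mem (hv _) (hv _))
      (I.pow_mem_of_mem (I.sub_mem (hv _) (hv _)) _ (by omega))
  · exact I.add_mem (hv _) (I.pow_mem_of_mem (hv _) _ (by omega))
  · exact I.sub_mem (hv _) (I.pow_mem_of_mem (hv _) _ (by omega))

/-- The equations of the scalar local problem on the cut locus, in terms of
`α = v 0 - v 3`, `b = v 1`, `c = v 2`. -/
theorem LocalDatum.eqns_cutQ (D : LocalDatum 𝒪) {φ : 𝒪} (hb : D.base = LocalBase.scalar φ)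
    {A : Type*} [CommRing A] [Algebra 𝒪 A] {t : 𝒪} {v : Fin 8 → A} (hrel : D.Rel t v) {k : ℕ}
    (hcut : ∀ i, cutQ k v i = 0) (hsq : sMat v ^ D.q = sMat v) :
    v 1 * v 1 ^ (2 * k + 1) + v 2 * v 2 ^ (2 * k + 1) = 0 ∧
    (v 0 - v 3) * v 2 ^ (2 * k + 1) = v 1 * (v 0 - v 3) ^ (2 * k + 1) ∧
    (v 0 - v 3) * v 1 ^ (2 * k + 1) + v 2 * (v 0 - v 3) ^ (2 * k + 1) = 0 ∧
    v 4 - v 7 = (v 0 - v 3) ^ (2 * k + 1) ∧
    v 6 = -v 1 ^ (2 * k + 1) ∧ v 5 = v 2 ^ (2 * k + 1) ∧
    D.disc v = (v 0 - v 3) ^ 2 + 4 * (v 1 * v 2) := by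
  have hη : v 4 - v 7 = (v 0 - v 3) ^ (2 * k + 1) := by
    have := hcut 0; simp [cutQ] at this; linear_combination this
  have hg : v 6 = -v 1 ^ (2 * k + 1) := by
    have := hcut 1; simp [cutQ] at this; linear_combination this
  have hf : v 5 = v 2 ^ (2 * k + 1) := by
    have := hcut 2; simp [cutQ] at this; linear_combination this
  have hcomm := hrel.comm
  rw [hsq] at hcomm
  have h00 := congrFun (congrFun hcomm 0) 0
  have h01 := congrFun (congrFun hcomm 0) 1
  have h10 := congrFun (congrFun hcomm 1) 0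
  have hdet := hrel.det_phi
  rw [det_fin_two] at hdet
  simp [LocalDatum.phiMat, LocalDatum.baseMat, sMat, hb, Matrix.mul_apply,
    Fin.sum_univ_two] at h00 h01 h10 hdet
  refine ⟨?_, ?_, ?_, hη, hg, hf, ?_⟩
  · rw [hf, hg] at h00
    linear_combination -h00
  · rw [hf] at h01
    linear_combination h01 + v 1 * hη
  · rw [hg] at h10
    linear_combination h10 + (-v 2) * hη
  · simp [LocalDatum.disc, trace_fin_two, LocalDatum.phiMat, LocalDatum.baseMat, hb]
    linear_combination 4 * hdet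

/-- In characteristic `p` the cut forces all coordinates to vanish. -/
theorem LocalDatum.eq_zero_of_cutQ [IsLocalRing 𝒪] (D : LocalDatum 𝒪) {φ : 𝒪}
    (hb : D.base = LocalBase.scalar φ) (h2 : IsUnit (2 : 𝒪))
    (hq : (D.q : 𝒪) - 1 ∈ maximalIdeal 𝒪) {k : ℕ} (h4 : (4 : 𝒪) ^ (2 * k) - 1 ∈ maximalIdeal 𝒪)
    {t : 𝒪} (ht : t - 2 ∈ maximalIdeal 𝒪) {L : Type*} [CommRing L] [IsDomain L] [IsLocalRing L]
    [Algebra 𝒪 L] (h𝔪 : ∀ r ∈ maximalIdeal 𝒪, algebraMap 𝒪 L r = 0) {v : Fin 8 → L}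
    (hv : ∀ j, v j ∈ maximalIdeal L) (hrel : D.Rel t v) (hcut : ∀ i, cutQ k v i = 0) :
    ∀ j, v j = 0 := by
  have h2u : IsUnit (2 : L) := map_ofNat (algebraMap 𝒪 L) 2 ▸ h2.map (algebraMap 𝒪 L)
  have hq1 : (D.q : L) = 1 := by
    have := h𝔪 _ hq
    rwa [map_sub, map_natCast, map_one, sub_eq_zero] at this
  have h41 : (4 : L) ^ (2 * k) = 1 := by
    have := h𝔪 _ h4
    rwa [map_sub, map_pow, map_ofNat, map_one, sub_eq_zero] at this
  have htr : (sMat v).trace = 2 := by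
    rw [hrel.trace_s]
    have := h𝔪 _ ht
    rwa [map_sub, map_ofNat, sub_eq_zero] at this
  have h7 : v 7 = -v 4 := by
    simp [sMat, trace_fin_two] at htr
    linear_combination htr
  have hnull : v 4 * v 4 + v 5 * v 6 = 0 := by
    have hd := hrel.det_s
    rw [det_fin_two] at hd
    simp [sMat, h7] at hd
    linear_combination -hd
  have hsq : sMat v ^ D.q = sMat v := by
    unfold sMat
    rw [one_add_pow_of_mul_self_eq_zero, ← Nat.cast_smul_eq_nsmul L, hq1, one_smul]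
    ext i j
    fin_cases i <;> fin_cases j <;> simp [Matrix.mul_apply, Fin.sum_univ_two, h7] <;>
      first | linear_combination hnull | ring
  obtain ⟨hbc, hc1, hb1, hη, hg, hf, -⟩ := D.eqns_cutQ hb hrel hcut hsq
  set α := v 0 - v 3 with hα
  have hη' : 2 * v 4 = α ^ (2 * k + 1) := by rw [h7] at hη; linear_combination hη
  have hδ : α ^ (2 * k + 1) * α ^ (2 * k + 1) = 4 * (v 1 * v 2) ^ (2 * k + 1) := by
    rw [hf, hg] at hnull
    rw [mul_pow]
    linear_combination 4 * hnull - (2 * v 4 + α ^ (2 * k + 1)) * hη'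
  have h4u : IsUnit (4 : L) := by
    have h := h2u.mul h2u
    norm_num at h
    exact h
  have hα0 : α = 0 := by
    by_contra hne
    have hc2 : v 2 ^ (2 * k + 1) = v 1 * α ^ (2 * k) :=
      mul_left_cancel₀ hne (by linear_combination hc1)
    have hb2 : v 1 ^ (2 * k + 1) = -(v 2 * α ^ (2 * k)) :=
      mul_left_cancel₀ hne (by linear_combination hb1)
    have hbc0 : v 1 * v 2 ≠ 0 := by
      intro h0
      rw [h0, zero_pow (by omega), mul_zero, ← pow_add] at hδ
      exact hne (pow_eq_zero_iff (by omega) |>.mp hδ)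
    have hprod : (v 1 * v 2) ^ (2 * k) = -(α ^ (2 * k) * α ^ (2 * k)) := by
      refine mul_left_cancel₀ hbc0 ?_
      rw [← pow_succ', mul_pow, hb2, hc2]
      ring
    have hα2 : α * α = -4 * (v 1 * v 2) := by
      refine mul_left_cancel₀ (mul_ne_zero (pow_ne_zero (2 * k) hne) (pow_ne_zero (2 * k) hne)) ?_
      linear_combination hδ + 4 * (v 1 * v 2) * hprod
    have h1 : α ^ (2 * k) * α ^ (2 * k) = (v 1 * v 2) ^ (2 * k) := by
      rw [← mul_pow, hα2, mul_pow, neg_pow, h41, mul_one, pow_mul (-1 : L), neg_one_sq, one_pow,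
        one_mul]
    rw [h1] at hprod
    refine pow_ne_zero (2 * k) hbc0 (h2u.mul_right_eq_zero.mp ?_)
    linear_combination hprod
  rw [hα0, zero_pow (by omega)] at hη' hδ
  have hbc0 : v 1 * v 2 = 0 := by
    rw [mul_zero, eq_comm] at hδ
    exact pow_eq_zero_iff (by omega) |>.mp (h4u.mul_right_eq_zero.mp hδ)
  have hb0 : v 1 = 0 ∧ v 2 = 0 := by
    rcases mul_eq_zero.mp hbc0 with h | h
    · refine ⟨h, ?_⟩
      rw [h, zero_mul, zero_add, ← pow_succ'] at hbc
      exact pow_eq_zero_iff (by omega) |>.mp hbc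
    · refine ⟨?_, h⟩
      rw [h, zero_mul, add_zero, ← pow_succ'] at hbc
      exact pow_eq_zero_iff (by omega) |>.mp hbc
  obtain ⟨h1, hc0⟩ := hb0
  have h4z : v 4 = 0 := h2u.mul_right_eq_zero.mp hη'
  have h5 : v 5 = 0 := by rw [hf, hc0, zero_pow (by omega)]
  have h6 : v 6 = 0 := by rw [hg, h1, zero_pow (by omega), neg_zero]
  have h03 : v 3 = v 0 := (sub_eq_zero.mp hα0).symm
  have h0 : v 0 = 0 := by
    have hdet := hrel.det_phi
    rw [det_fin_two] at hdet
    simp [LocalDatum.phiMat, LocalDatum.baseMat, hb, h03, h1, hc0] at hdet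
    have hφ : algebraMap 𝒪 L φ * algebraMap 𝒪 L φ = (D.q : L) := by
      rw [← map_mul, D.scalar_sq φ hb, map_natCast]
    have hu : IsUnit (2 * algebraMap 𝒪 L φ + v 0) := by
      by_contra hcon
      have hmem : 2 * algebraMap 𝒪 L φ ∈ maximalIdeal L := by
        simpa using (maximalIdeal L).sub_mem ((IsLocalRing.mem_maximalIdeal _).mpr hcon) (hv 0)
      exact (IsLocalRing.mem_maximalIdeal _).mp hmem (h2u.mul
        ((isUnit_of_mul_isUnit_left ((D.scalar_sq φ hb).symm ▸ D.isUnit_q)).map _))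
    exact hu.mul_left_eq_zero.mp (by linear_combination hdet - hφ)
  intro j
  fin_cases j <;> simp [h0, h1, hc0, h03, h4z, h5, h6, h7]

/-- **Lowering at a scalar prime, pointwise form.** On the cut locus no power `(disc - c₀) ^ K`
with `K ≤ k` is divisible by `ζ - 1`. -/
theorem LocalDatum.scalar_obstruction [IsLocalRing 𝒪] (D : LocalDatum 𝒪) {φ : 𝒪}
    (hb : D.base = LocalBase.scalar φ) (h2 : IsUnit (2 : 𝒪)) {k K : ℕ} (hKk : K ≤ k)
    (h4 : (4 : 𝒪) ^ (2 * k) - 1 ∈ maximalIdeal 𝒪)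
    {ζ ζ' : 𝒪} (hζζ : ζ * ζ' = 1) (hζ : ζ - 1 ∈ maximalIdeal 𝒪) (hζq : ζ ^ D.q = ζ)
    {V : Type*} [CommRing V] [IsDomain V] [ValuationRing V] [Algebra 𝒪 V]
    [IsLocalHom (algebraMap 𝒪 V)] (hne : algebraMap 𝒪 V (ζ - 1) ≠ 0) {v : Fin 8 → V}
    (hv : ∀ j, v j ∈ maximalIdeal V) (hrel : D.Rel (ζ + ζ') v) (hcut : ∀ i, cutQ k v i = 0)
    {c₀ : 𝒪} (hc₀ : ζ - 1 ∣ c₀) {Z : V}
    (hZ : (D.disc v - algebraMap 𝒪 V c₀) ^ K = algebraMap 𝒪 V (ζ - 1) * Z) : False := by
  set z := algebraMap 𝒪 V ζ with hz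
  set z' := algebraMap 𝒪 V ζ' with hz'
  have hzz : z * z' = 1 := by rw [hz, hz', ← map_mul, hζζ, map_one]
  set w := algebraMap 𝒪 V (ζ - 1) with hw
  have hm : ∀ a ∈ maximalIdeal 𝒪, algebraMap 𝒪 V a ∈ maximalIdeal V := fun a ha => by
    rw [IsLocalRing.mem_maximalIdeal, mem_nonunits_iff]
    exact fun h => (IsLocalRing.mem_maximalIdeal _).mp ha (IsLocalHom.map_nonunit _ h)
  have hzw : z = 1 + w := by rw [hw, map_sub, map_one]; ring
  have h2u : IsUnit (2 : V) := map_ofNat (algebraMap 𝒪 V) 2 ▸ h2.map (algebraMap 𝒪 V)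
  have h4u : IsUnit (4 : V) := by
    have h := h2u.mul h2u
    norm_num at h
    exact h
  have unit_add : ∀ {a m : V}, IsUnit a → m ∈ maximalIdeal V → IsUnit (a + m) := by
    intro a m ha hm
    by_contra hcon
    have : a ∈ maximalIdeal V := by
      simpa using (maximalIdeal V).sub_mem ((IsLocalRing.mem_maximalIdeal _).mpr hcon) hm
    exact (IsLocalRing.mem_maximalIdeal _).mp this ha
  have hδ : z - z' = w * (z' * (2 + w)) := by
    linear_combination -z * hzz + z' * (z + 1 + w) * hzw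
  have hδu : IsUnit (z' * (2 + w)) :=
    (IsUnit.of_mul_eq_one z (by rw [mul_comm, hzz])).mul (unit_add h2u (hm _ hζ))
  have hne' : z ≠ z' := by
    rw [Ne, ← sub_eq_zero, hδ]
    exact mul_ne_zero hne hδu.ne_zero
  have htr : (sMat v).trace = z + z' := by rw [hrel.trace_s, map_add]
  have hsq : sMat v ^ D.q = sMat v :=
    pow_eq_self_of_eigen hzz htr hrel.det_s hne' (by rw [hz, ← map_pow, hζq])
  obtain ⟨hbc, hc1, hb1, hη, hg, hf, hdisc⟩ := D.eqns_cutQ hb hrel hcut hsq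
  set α := v 0 - v 3 with hα
  have hδ2 : (z - z') ^ 2 = (α ^ (2 * k + 1)) ^ 2 - 4 * (v 1 * v 2) ^ (2 * k + 1) := by
    have hd := hrel.det_s
    rw [det_fin_two] at hd
    rw [trace_fin_two] at htr
    simp [sMat] at hd htr
    rw [mul_pow, ← hη]
    have e : v 5 * v 6 = -(v 1 ^ (2 * k + 1) * v 2 ^ (2 * k + 1)) := by rw [hf, hg]; ring
    linear_combination 4 * hd - (2 + v 4 + v 7 + z + z') * htr - 4 * hzz + 4 * e
  -- `disc ^ (2 k + 1)` is a unit multiple of `(ζ - ζ⁻¹) ^ 2`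
  obtain ⟨E, hE, hpow⟩ : ∃ E : V, IsUnit E ∧ D.disc v ^ (2 * k + 1) = (z - z') ^ 2 * E := by
    by_cases hα0 : α = 0
    · refine ⟨-4 ^ (2 * k), (h4u.pow _).neg, ?_⟩
      rw [hdisc, hδ2, hα0]
      rw [zero_pow (show 2 * k + 1 ≠ 0 by omega), zero_pow two_ne_zero, zero_add, mul_pow, pow_succ' 4]
      ring
    · have hc2 : v 2 ^ (2 * k + 1) = v 1 * α ^ (2 * k) :=
        mul_left_cancel₀ hα0 (by linear_combination hc1)
      have hb2 : v 1 ^ (2 * k + 1) = -(v 2 * α ^ (2 * k)) :=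
        mul_left_cancel₀ hα0 (by linear_combination hb1)
      by_cases hbc0 : v 1 * v 2 = 0
      · refine ⟨1, isUnit_one, ?_⟩
        rw [hdisc, hδ2, hbc0, zero_pow (show 2 * k + 1 ≠ 0 by omega)]
        ring_nf
      have hprod : (v 1 * v 2) ^ (2 * k) = -(α ^ (2 * k) * α ^ (2 * k)) := by
        refine mul_left_cancel₀ hbc0 ?_
        rw [← pow_succ', mul_pow, hb2, hc2]
        ring
      have hk : k ≠ 0 := by
        rintro rfl
        refine (IsLocalRing.mem_maximalIdeal (1 : V)).mp ?_ isUnit_one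
        simp only [mul_zero, pow_zero, one_mul] at hprod
        refine absurd (show (2 : V) = 0 by linear_combination hprod) h2u.ne_zero
      obtain ⟨σ, hσ⟩ : ∃ σ, v 1 * v 2 = α * α * σ := by
        rcases ValuationRing.dvd_total (α * α) (v 1 * v 2) with h | ⟨τ, hτ⟩
        · exact h
        · have hτu : IsUnit τ := by
            refine (isUnit_pow_iff (n := 2 * k) (by omega)).mp (IsUnit.of_mul_eq_one (-1) ?_)
            refine mul_left_cancel₀ (pow_ne_zero (2 * k) hbc0) ?_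
            calc (v 1 * v 2) ^ (2 * k) * (τ ^ (2 * k) * -1)
                = -((α * α) ^ (2 * k)) := by rw [hτ, mul_pow (v 1 * v 2) τ]; ring
              _ = (v 1 * v 2) ^ (2 * k) := by rw [hprod, mul_pow]
              _ = _ := (mul_one _).symm
          obtain ⟨τ', hτ'⟩ := hτu.exists_right_inv
          exact ⟨τ', by rw [hτ, mul_assoc, hτ', mul_one]⟩
      have hσk : σ ^ (2 * k) = -1 := by
        refine mul_left_cancel₀ (mul_ne_zero (pow_ne_zero (2 * k) hα0) (pow_ne_zero (2 * k) hα0)) ?_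
        rw [mul_neg_one, ← hprod, hσ, mul_pow, mul_pow]
      have hμu : IsUnit (1 + 4 * σ) := by
        by_contra hcon
        have hmem := (IsLocalRing.mem_maximalIdeal _).mpr hcon
        obtain ⟨d, hd⟩ : (1 + 4 * σ) ∣ (4 * σ) ^ (2 * k) - (-1) ^ (2 * k) := by
          have h := sub_dvd_pow_sub_pow (4 * σ) (-1) (2 * k)
          rwa [sub_neg_eq_add, add_comm] at h
        have h1 : (4 * σ) ^ (2 * k) - (-1) ^ (2 * k) ∈ maximalIdeal V :=
          hd ▸ Ideal.mul_mem_right _ _ hmem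
        have h4' : algebraMap 𝒪 V ((4 : 𝒪) ^ (2 * k) - 1) ∈ maximalIdeal V := hm _ h4
        rw [map_sub, map_pow, map_ofNat, map_one] at h4'
        rw [mul_pow, hσk, pow_mul (-1 : V), neg_one_sq, one_pow] at h1
        refine (IsLocalRing.mem_maximalIdeal _).mp ?_ h2u
        have e : (2 : V) = -((4 ^ (2 * k) * -1 - 1) + (4 ^ (2 * k) - 1)) := by ring
        rw [e]
        exact neg_mem (add_mem h1 h4')
      refine ⟨(1 + 4 * σ) ^ (2 * k), hμu.pow _, ?_⟩
      have h3 : (z - z') ^ 2 = α ^ (2 * k) * α ^ (2 * k) * (α * α * (1 + 4 * σ)) := by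
        rw [hδ2]
        linear_combination -4 * (v 1 * v 2) * hprod + 4 * α ^ (2 * k) * α ^ (2 * k) * hσ
      rw [h3, hdisc, hσ, show α ^ 2 + 4 * (α * α * σ) = α * α * (1 + 4 * σ) by ring, pow_succ,
        mul_pow, mul_pow]
      ring
  -- compare with the divisibility
  obtain ⟨Z', hZ'⟩ : w ∣ D.disc v ^ K := by
    have h1 : algebraMap 𝒪 V c₀ ∣ D.disc v ^ K - (D.disc v - algebraMap 𝒪 V c₀) ^ K := by
      simpa using sub_dvd_pow_sub_pow (D.disc v) (D.disc v - algebraMap 𝒪 V c₀) K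
    have h2' : w ∣ algebraMap 𝒪 V c₀ := map_dvd _ hc₀
    simpa using (h2'.trans h1).add ⟨Z, hZ⟩
  have hdm : D.disc v ∈ maximalIdeal V := by
    rw [hdisc]
    exact add_mem (Ideal.pow_mem_of_mem _ ((maximalIdeal V).sub_mem (hv 0) (hv 3)) 2 two_pos)
      (Ideal.mul_mem_left _ _ (Ideal.mul_mem_right _ _ (hv 1)))
  have hkey : (z' * (2 + w)) ^ 2 * E = Z' * Z' * D.disc v ^ (2 * (k - K) + 1) := by
    refine mul_left_cancel₀ (pow_ne_zero 2 hne) ?_
    calc w ^ 2 * ((z' * (2 + w)) ^ 2 * E) = D.disc v ^ (2 * k + 1) := by rw [hpow, hδ]; ring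
      _ = D.disc v ^ K * D.disc v ^ K * D.disc v ^ (2 * (k - K) + 1) := by
        rw [← pow_add, ← pow_add]
        congr 1
        omega
      _ = _ := by rw [hZ']; ring
  refine (IsLocalRing.mem_maximalIdeal _).mp ?_ ((hδu.pow 2).mul hE)
  rw [hkey]
  exact Ideal.mul_mem_left _ _ (Ideal.pow_mem_of_mem _ hdm _ (by omega))

variable [IsDomain 𝒪] [IsDiscreteValuationRing 𝒪] {ι X : Type} [Finite ι] [Finite X]

open FLTAgent.Deformation in
omit [IsDomain 𝒪] [IsDiscreteValuationRing 𝒪] in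
/-- A prime containing the uniformiser and all the variables is maximal. -/
theorem eq_maximalIdeal_of_vars [IsLocalRing 𝒪] {σ : Type} [Finite σ]
    (P : Ideal (MvPowerSeries σ 𝒪)) [P.IsPrime]
    (hm : ∀ a ∈ maximalIdeal 𝒪, algebraMap 𝒪 (MvPowerSeries σ 𝒪) a ∈ P)
    (hX : ∀ j, MvPowerSeries.X j ∈ P) : P = maximalIdeal (MvPowerSeries σ 𝒪) := by
  refine le_antisymm (IsLocalRing.le_maximalIdeal ‹P.IsPrime›.ne_top) fun f hf => ?_
  have hspan : Ideal.span (Set.range (MvPowerSeries.X (σ := σ) (R := 𝒪))) ≤ P := by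
    rw [Ideal.span_le]
    rintro _ ⟨j, rfl⟩
    exact hX j
  have h1 := sub_truncTotal_mem_span_X_pow f 1
  rw [pow_one] at h1
  have hC : (MvPowerSeries.truncTotal 1 f : MvPowerSeries σ 𝒪) =
      algebraMap 𝒪 _ (MvPowerSeries.constantCoeff f) := by
    classical
    ext d
    rw [MvPolynomial.coeff_coe, MvPowerSeries.algebraMap_apply, MvPowerSeries.coeff_C,
      Algebra.algebraMap_self_apply, MvPowerSeries.coeff_truncTotal_eq_ite]
    by_cases hd : d = 0
    · subst hd; simp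
    · have : d.degree ≠ 0 := fun h => hd ((Finsupp.degree_eq_zero_iff _).mp h)
      simp [hd, this]
  rw [hC] at h1
  rw [← sub_add_cancel f (algebraMap 𝒪 (MvPowerSeries σ 𝒪) (MvPowerSeries.constantCoeff f))]
  exact Ideal.add_mem _ (hspan h1) (hm _ (mem_maximalIdeal_powerSeries.mp hf))

open FLTAgent.Deformation in
/-- On a prime of full dimension there is a characteristic zero point of the locus cut by the
elements adapted to lowering at `i₀`. -/
theorem exists_scalar_lowering_point (h2 : IsUnit (2 : 𝒪)) (D : ι → LocalDatum 𝒪) (t : ι → 𝒪)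
    (ht : ∀ i, t i - 2 ∈ maximalIdeal 𝒪) (i₀ : ι) {φ : 𝒪}
    (hb : (D i₀).base = LocalBase.scalar φ) (hq : ((D i₀).q : 𝒪) - 1 ∈ maximalIdeal 𝒪) {k : ℕ}
    (h4 : (4 : 𝒪) ^ (2 * k) - 1 ∈ maximalIdeal 𝒪)
    (Q : Ideal (MvPowerSeries (LocVar ι X) 𝒪)) [Q.IsPrime]
    (hQ : ∀ i, (D i).Rel (t i) fun j => Ideal.Quotient.mk Q (locCoord i j))
    (hN : ∀ i, (D i).IsNorm fun j => Ideal.Quotient.mk Q (locCoord i j))
    (hdim : (Nat.card ((Σ i, Fin (D i).h0) ⊕ X) : ℕ) <
      ringKrullDim (MvPowerSeries (LocVar ι X) 𝒪 ⧸ Q)) :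
    ∃ P : Ideal (MvPowerSeries (LocVar ι X) 𝒪), P.IsPrime ∧ Q ≤ P ∧
      (∀ a : 𝒪, a ≠ 0 → algebraMap 𝒪 _ a ∉ P) ∧
      ∀ j, cutQ k (fun l => (locCoord i₀ l : MvPowerSeries (LocVar ι X) 𝒪)) j ∈ P := by
  classical
  obtain ⟨ϖ, hϖ⟩ := IsDiscreteValuationRing.exists_irreducible 𝒪
  let R := MvPowerSeries (LocVar ι X) 𝒪
  have : IsLocalRing (R ⧸ Q) := isLocalRing_quotient ‹Q.IsPrime›.ne_top
  let z : (Σ i, Fin (D i).h0) ⊕ X → R := Sum.elim
    (fun ij => if ij.1 = i₀ then cutQ k (fun l => locCoord i₀ l) (Fin.ofNat 3 ij.2.val)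
      else (D ij.1).cut (fun l => locCoord ij.1 l) ((D ij.1).cutIdx ij.2))
    (fun x => MvPowerSeries.X (Sum.inr x))
  have hzm : ∀ y, z y ∈ maximalIdeal R := fun y => by
    rcases y with ⟨i, j⟩ | x
    · dsimp [z]
      split
      · exact cutQ_mem k _ (fun l => span_X_le_maximalIdeal (Ideal.subset_span ⟨_, rfl⟩)) _
      · exact (D i).cut_mem _ (v := fun l => locCoord i l)
          (fun l => span_X_le_maximalIdeal (Ideal.subset_span ⟨_, rfl⟩)) _
    · exact span_X_le_maximalIdeal (Ideal.subset_span ⟨_, rfl⟩)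
  have h3 : (D i₀).h0 = 3 := by simp [LocalDatum.h0, hb]
  have hcutQ : ∀ P : Ideal R, (∀ y, z y ∈ P) → ∀ l, cutQ k (fun j => (locCoord i₀ j : R)) l ∈ P :=
    fun P hP l => by
      have := hP (Sum.inl ⟨i₀, ⟨l.val, by have := l.isLt; omega⟩⟩)
      simp only [z, Sum.elim_inl, if_pos] at this
      rwa [show Fin.ofNat 3 l.val = l from Fin.ofNat_val_eq_self l] at this
  obtain ⟨P₀, hP₀, hz, hϖP⟩ := exists_prime_not_mem_of_card_lt
    (fun y => Ideal.Quotient.mk Q (z y))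
    (fun y => by rw [maximalIdeal_quotient_eq]; exact Ideal.mem_map_of_mem _ (hzm y))
    (algebraMap 𝒪 (R ⧸ Q) ϖ) (fun P hP hzP hϖP => by
      set P' : Ideal R := P.comap (Ideal.Quotient.mk Q) with hP'
      have hQP : Q ≤ P' := fun x hx => by
        rw [hP', Ideal.mem_comap, Ideal.Quotient.eq_zero_iff_mem.mpr hx]
        exact zero_mem _
      let f : (R ⧸ Q) →ₐ[𝒪] R ⧸ P' := Ideal.Quotient.factorₐ 𝒪 hQP
      have : IsLocalRing (R ⧸ P') := isLocalRing_quotient (inferInstance : P'.IsPrime).ne_top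
      have hP'm : ∀ a ∈ maximalIdeal 𝒪, algebraMap 𝒪 R a ∈ P' := fun a ha => by
        rw [hϖ.maximalIdeal_eq, Ideal.mem_span_singleton] at ha
        obtain ⟨c, rfl⟩ := ha
        rw [hP', Ideal.mem_comap, Ideal.Quotient.mk_algebraMap, map_mul]
        exact Ideal.mul_mem_right _ _ hϖP
      have h𝔪 : ∀ a ∈ maximalIdeal 𝒪, algebraMap 𝒪 (R ⧸ P') a = 0 := fun a ha => by
        rw [← Ideal.Quotient.mk_algebraMap]
        exact Ideal.Quotient.eq_zero_iff_mem.mpr (hP'm a ha)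
      have hmax : P' = maximalIdeal R := by
        refine eq_maximalIdeal_of_vars P' hP'm ?_
        rintro (⟨i, j⟩ | x)
        · show (locCoord i j : R) ∈ P'
          rw [← Ideal.Quotient.eq_zero_iff_mem]
          have hm' : ∀ l, Ideal.Quotient.mk P' (locCoord i l) ∈ maximalIdeal (R ⧸ P') := fun l => by
            rw [maximalIdeal_quotient_eq]
            exact Ideal.mem_map_of_mem _ (span_X_le_maximalIdeal (Ideal.subset_span ⟨_, rfl⟩))
          by_cases hi : i = i₀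
          · subst hi
            refine (D i).eq_zero_of_cutQ hb h2 hq h4 (ht i) h𝔪 hm' ((hQ i).map f) (fun l => ?_) j
            rw [← cutQ_map]
            exact Ideal.Quotient.eq_zero_iff_mem.mpr (hcutQ P' (fun y => hzP y) l)
          · refine (D i).eq_zero_of_cut h2 (ht i) h𝔪
              (v := fun l => Ideal.Quotient.mk P' (locCoord i l)) hm' ((hQ i).map f) ?_ j
            refine fun l => (D i).cut_eq_zero ((hN i).map f) (fun l => ?_) l
            show (D i).cut (fun l => Ideal.Quotient.mk P' (locCoord i l)) _ = 0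
            rw [← (D i).cut_map]
            refine Ideal.Quotient.eq_zero_iff_mem.mpr ?_
            have := hzP (Sum.inl ⟨i, l⟩)
            simpa [z, hi, hP'] using this
        · exact hzP (Sum.inr x)
      have h' := congrArg (Ideal.map (Ideal.Quotient.mk Q)) hmax
      rwa [Ideal.map_comap_of_surjective _ Ideal.Quotient.mk_surjective,
        ← maximalIdeal_quotient_eq] at h') hdim
  have hQP : Q ≤ P₀.comap (Ideal.Quotient.mk Q) := fun x hx => by
    rw [Ideal.mem_comap, Ideal.Quotient.eq_zero_iff_mem.mpr hx]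
    exact zero_mem _
  refine ⟨P₀.comap (Ideal.Quotient.mk Q), inferInstance, hQP, fun a ha => ?_,
    hcutQ _ fun y => hz y⟩
  intro h
  rw [Ideal.mem_comap, Ideal.Quotient.mk_algebraMap] at h
  obtain ⟨n, u, hu⟩ := IsDiscreteValuationRing.eq_unit_mul_pow_irreducible ha hϖ
  rw [hu, map_mul, map_pow] at h
  rcases hP₀.mem_or_mem h with h | h
  · exact hP₀.ne_top (Ideal.eq_top_of_isUnit_mem _ h (u.isUnit.map _))
  · exact hϖP (hP₀.mem_of_pow_mem n h)

end FLTAgent.RT
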