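import Fermat.Agent.RT.LocalBasic

/-!
# The dimension bound for the local rings

Three explicit elements at every auxiliary prime, together with the uniformiser and the free
variables, cut the local ring down to dimension zero.
-/

set_option autoImplicit false

noncomputable section

open IsLocalRing Matrix

namespace FLTAgent.RT

/-- A Noetherian local ring in which only the maximal ideal contains `n` given elements has
dimension at most `n`. -/
theorem ringKrullDim_le_card {A : Type*} [CommRing A] [IsLocalRing A] [IsNoetherianRing A]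
    {κ : Type*} [Finite κ] (z : κ → A)
    (h : ∀ P : Ideal A, P.IsPrime → (∀ i, z i ∈ P) → P = maximalIdeal A)
    (hz : ∀ i, z i ∈ maximalIdeal A) :
    ringKrullDim A ≤ (Nat.card κ : ℕ) := by
  cases nonempty_fintype κ
  rw [← IsLocalRing.maximalIdeal_height_eq_ringKrullDim]
  have hmin : maximalIdeal A ∈ (Ideal.span (Set.range z)).minimalPrimes := by
    refine ⟨⟨inferInstance, Ideal.span_le.mpr ?_⟩, fun P hP _ => ?_⟩
    · rintro _ ⟨i, rfl⟩
      exact hz i
    · exact (h P hP.1 fun i => hP.2 (Ideal.subset_span ⟨i, rfl⟩)).ge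
  have hb := Ideal.height_le_card_of_mem_minimalPrimes_span (Set.finite_range z) hmin
  have hc : (Set.range z).ncard ≤ Nat.card κ := by
    rw [← Nat.card_coe_set_eq]
    exact Nat.card_le_card_of_surjective _ Set.rangeFactorization_surjective
  exact_mod_cast hb.trans (by exact_mod_cast hc)

variable {𝒪 : Type} [CommRing 𝒪]

/-- The three elements cutting the local ring at one prime. -/
def LocalDatum.cut (D : LocalDatum 𝒪) {A : Type*} [CommRing A] (v : Fin 8 → A) : Fin 3 → A :=
  match D.base with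
  | .scalar _ => ![(v 0 - v 3) ^ 5 + (v 4 - v 7), v 1 ^ 3 + v 6, v 2 ^ 3 + v 5]
  | .companion _ => ![v 0, v 2, v 3 + v 6]

theorem LocalDatum.cut_map (D : LocalDatum 𝒪) {A B : Type*} [CommRing A] [CommRing B]
    (f : A →+* B) (v : Fin 8 → A) (i : Fin 3) : f (D.cut v i) = D.cut (fun k => f (v k)) i := by
  unfold LocalDatum.cut
  cases D.base <;> fin_cases i <;> simp

theorem LocalDatum.cut_mem (D : LocalDatum 𝒪) {A : Type*} [CommRing A] (I : Ideal A)
    {v : Fin 8 → A} (hv : ∀ k, v k ∈ I) (i : Fin 3) : D.cut v i ∈ I := by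
  unfold LocalDatum.cut
  cases D.base <;> fin_cases i <;>
    first
    | exact hv _
    | exact I.add_mem (hv _) (hv _)
    | exact I.add_mem (I.pow_mem_of_mem (hv _) 3 (by norm_num)) (hv _)
    | exact I.add_mem (I.pow_mem_of_mem (I.sub_mem (hv _) (hv _)) 5 (by norm_num))
        (I.sub_mem (hv _) (hv _))

/-- In a local domain killed by the maximal ideal of `𝒪`, the relations and the three cutting
elements force all eight coordinates to vanish. -/
theorem LocalDatum.eq_zero_of_cut [IsLocalRing 𝒪] (D : LocalDatum 𝒪) (h2 : IsUnit (2 : 𝒪))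
    {t : 𝒪} (ht : t - 2 ∈ maximalIdeal 𝒪) {L : Type*} [CommRing L] [IsDomain L] [IsLocalRing L]
    [Algebra 𝒪 L] (h𝔪 : ∀ r ∈ maximalIdeal 𝒪, algebraMap 𝒪 L r = 0) {v : Fin 8 → L}
    (hv : ∀ k, v k ∈ maximalIdeal L) (hrel : D.Rel t v) (hcut : ∀ i, D.cut v i = 0) :
    ∀ k, v k = 0 := by
  have hqu : IsUnit (D.q : L) := by simpa using D.isUnit_q.map (algebraMap 𝒪 L)
  have h2u : IsUnit (2 : L) := map_ofNat (algebraMap 𝒪 L) 2 ▸ h2.map (algebraMap 𝒪 L)
  have hconst : ∀ r : 𝒪, algebraMap 𝒪 L r ∈ maximalIdeal L → algebraMap 𝒪 L r = 0 := by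
    intro r hr
    refine h𝔪 r ?_
    rw [IsLocalRing.mem_maximalIdeal, mem_nonunits_iff] at hr ⊢
    exact fun hu => hr (hu.map _)
  have htL : algebraMap 𝒪 L t = 2 := by
    have := h𝔪 _ ht
    rwa [map_sub, map_ofNat, sub_eq_zero] at this
  have hh : v 7 = -v 4 := by
    have := hrel.trace_s
    rw [htL, trace_fin_two] at this
    simp [sMat] at this
    linear_combination this
  have hnull : v 4 * v 4 + v 5 * v 6 = 0 := by
    have := hrel.det_s
    rw [det_fin_two] at this
    simp [sMat, hh] at this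
    linear_combination -this
  have hN2 : !![v 4, v 5; v 6, v 7] * !![v 4, v 5; v 6, v 7] = 0 := by
    ext i j
    fin_cases i <;> fin_cases j <;> simp [Matrix.mul_apply, Fin.sum_univ_two, hh] <;>
      first | linear_combination hnull | ring
  have hcomm : D.phiMat v * !![v 4, v 5; v 6, v 7] =
      (D.q : L) • (!![v 4, v 5; v 6, v 7] * D.phiMat v) := by
    have := hrel.comm
    rw [sMat, one_add_pow_of_mul_self_eq_zero hN2, mul_add, mul_one, add_mul, one_mul,
      add_right_inj, ← Nat.cast_smul_eq_nsmul L, smul_mul_assoc] at this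
    exact this
  have h00 := congrFun (congrFun hcomm 0) 0
  have h01 := congrFun (congrFun hcomm 0) 1
  have h10 := congrFun (congrFun hcomm 1) 0
  have h11 := congrFun (congrFun hcomm 1) 1
  have hdet := hrel.det_phi
  rw [det_fin_two] at hdet
  have unit_add : ∀ {u m : L}, IsUnit u → m ∈ maximalIdeal L → IsUnit (u + m) := by
    intro u m hu hm
    by_contra hcon
    have : u ∈ maximalIdeal L := by
      simpa using (maximalIdeal L).sub_mem ((IsLocalRing.mem_maximalIdeal _).mpr hcon) hm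
    exact (IsLocalRing.mem_maximalIdeal _).mp this hu
  have kill : ∀ {u x : L}, IsUnit u → u * x = 0 → x = 0 := fun hu h =>
    hu.mul_right_eq_zero.mp h
  rcases hb : D.base with φ | T
  · simp only [LocalDatum.cut, hb] at hcut
    have hη : 2 * v 4 = -(v 0 - v 3) ^ 5 := by
      have := hcut 0
      simp [hh] at this
      linear_combination this
    have hg1 : v 6 = -v 1 ^ 3 := by have := hcut 1; simp at this; linear_combination this
    have hf1 : v 5 = -v 2 ^ 3 := by have := hcut 2; simp at this; linear_combination this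
    simp [LocalDatum.phiMat, LocalDatum.baseMat, hb, Matrix.mul_apply, Fin.sum_univ_two, hh, hg1,
      hf1] at h00 h01 h10 h11 hdet
    rw [hg1, hf1] at hnull
    set x := algebraMap 𝒪 L φ + v 0 with hx
    set y := algebraMap 𝒪 L φ + v 3 with hy
    have hφ : algebraMap 𝒪 L φ * algebraMap 𝒪 L φ = (D.q : L) := by
      rw [← map_mul, D.scalar_sq φ hb, map_natCast]
    have hφu : IsUnit (algebraMap 𝒪 L φ) :=
      isUnit_of_mul_isUnit_left (hφ ▸ hqu)
    have hxu : IsUnit x := unit_add hφu (hv 0)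
    have h0m : v 0 - v 3 ∈ maximalIdeal L := (maximalIdeal L).sub_mem (hv 0) (hv 3)
    have key : v 0 = v 3 ∧ v 1 = 0 ∧ v 2 = 0 := by
      suffices h : v 4 = 0 ∧ v 1 = 0 ∧ v 2 = 0 by
        refine ⟨sub_eq_zero.mp (eq_zero_of_pow_eq_zero (n := 5) ?_), h.2⟩
        linear_combination hη - 2 * h.1
      by_cases hq1 : IsUnit (1 - (D.q : L))
      · have hu2 : IsUnit (x - (D.q : L) * y) := by
          have hm : v 0 - (D.q : L) * v 3 ∈ maximalIdeal L :=
            (maximalIdeal L).sub_mem (hv 0) ((maximalIdeal L).mul_mem_left _ (hv 3))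
          convert unit_add (hφu.mul hq1) hm using 1
          ring
        have hu3 : IsUnit (y - (D.q : L) * x) := by
          have hm : v 3 - (D.q : L) * v 0 ∈ maximalIdeal L :=
            (maximalIdeal L).sub_mem (hv 3) ((maximalIdeal L).mul_mem_left _ (hv 0))
          convert unit_add (hφu.mul hq1) hm using 1
          ring
        have hb4 : (y - (D.q : L) * x) * v 1 ^ 4 = (1 + (D.q : L)) * (v 4 * v 1 * v 2) *
            (-1) * (-1) := by linear_combination (-v 1) * h10
        have hc4 : (x - (D.q : L) * y) * v 2 ^ 4 = -(1 + (D.q : L)) * (v 4 * v 1 * v 2) := by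
          linear_combination (-v 2) * h01
        have he : v 4 = 0 := by
          refine kill (u := x * (1 - (D.q : L)) * ((x - (D.q : L) * y) * (y - (D.q : L) * x)) +
            (-(1 + (D.q : L)) * ((x - (D.q : L) * y) + (D.q : L) * (y - (D.q : L) * x))) *
              (v 1 * v 2)) ?_ ?_
          · exact unit_add ((hxu.mul hq1).mul (hu2.mul hu3))
              (Ideal.mul_mem_left _ _ (Ideal.mul_mem_left _ _ (hv 2)))
          · linear_combination (x - (D.q : L) * y) * (y - (D.q : L) * x) * h00 +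
              (x - (D.q : L) * y) * hb4 - (D.q : L) * (y - (D.q : L) * x) * hc4
        refine ⟨he, eq_zero_of_pow_eq_zero (n := 4) (kill hu3 ?_),
          eq_zero_of_pow_eq_zero (n := 4) (kill hu2 ?_)⟩
        · rw [hb4, he]; ring
        · rw [hc4, he]; ring
      · have hq1' : (D.q : L) = 1 := by
          have h1 : algebraMap 𝒪 L (1 - (D.q : 𝒪)) = 0 := hconst _ (by
            rw [IsLocalRing.mem_maximalIdeal, mem_nonunits_iff, map_sub, map_one, map_natCast]
            exact hq1)
          rw [map_sub, map_one, map_natCast, sub_eq_zero] at h1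
          exact h1.symm
        rw [hq1'] at h00 h01 h10
        have hc3 : (v 0 - v 3) * v 2 ^ 3 = (v 0 - v 3) ^ 5 * v 1 := by
          linear_combination (-1 : L) * h01 - v 1 * hη
        have hb3 : (v 0 - v 3) * v 1 ^ 3 = (v 0 - v 3) ^ 5 * v 2 := by
          linear_combination h10 - v 2 * hη
        have hbc : v 1 ^ 4 = v 2 ^ 4 := by linear_combination -h00
        have hnull' : (v 0 - v 3) ^ 10 + 4 * (v 1 ^ 3 * v 2 ^ 3) = 0 := by
          linear_combination 4 * hnull - (2 * v 4 - (v 0 - v 3) ^ 5) * hη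
        by_cases hα : v 0 - v 3 = 0
        · have he : v 4 = 0 := kill h2u (by rw [hη, hα]; ring)
          have h3 : (v 1 * v 2) ^ 3 = 0 := by
            refine kill (h2u.mul h2u) ?_
            rw [hα] at hnull'
            linear_combination hnull'
          rcases mul_eq_zero.mp (eq_zero_of_pow_eq_zero h3) with h | h
          · exact ⟨he, h, eq_zero_of_pow_eq_zero (n := 4) (by rw [← hbc, h]; ring)⟩
          · exact ⟨he, eq_zero_of_pow_eq_zero (n := 4) (by rw [hbc, h]; ring), h⟩
        · exfalso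
          have hc3' : v 2 ^ 3 = (v 0 - v 3) ^ 4 * v 1 :=
            mul_left_cancel₀ hα (by linear_combination hc3)
          have hb3' : v 1 ^ 3 = (v 0 - v 3) ^ 4 * v 2 :=
            mul_left_cancel₀ hα (by linear_combination hb3)
          have hα2 : (v 0 - v 3) ^ 2 = -4 * (v 1 * v 2) := by
            refine mul_left_cancel₀ (pow_ne_zero 8 hα) ?_
            linear_combination hnull' - 4 * v 1 ^ 3 * hc3' - 4 * (v 0 - v 3) ^ 4 * v 1 * hb3'
          have hne : v 1 * v 2 ≠ 0 := fun h => hα (eq_zero_of_pow_eq_zero (n := 2) (by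
            rw [hα2, h, mul_zero]))
          have h256 : IsUnit (1 - 256 * (v 1 * v 2) * (v 1 * v 2)) := by
            rw [sub_eq_add_neg]
            exact unit_add isUnit_one (neg_mem (Ideal.mul_mem_left _ _
              (Ideal.mul_mem_left _ _ (hv 2))))
          refine hne (eq_zero_of_pow_eq_zero (n := 3) (kill h256 ?_))
          linear_combination v 2 ^ 3 * hb3' + (v 0 - v 3) ^ 4 * v 2 * hc3' +
            (v 1 * v 2) * ((v 0 - v 3) ^ 6 + (v 0 - v 3) ^ 4 * (-4 * (v 1 * v 2)) +
              (v 0 - v 3) ^ 2 * (-4 * (v 1 * v 2)) ^ 2 + (-4 * (v 1 * v 2)) ^ 3) * hα2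
    obtain ⟨hd, hb1, hc1⟩ := key
    have hf : v 5 = 0 := by rw [hf1, hc1]; ring
    have hg : v 6 = 0 := by rw [hg1, hb1]; ring
    have he : v 4 = 0 := kill h2u (by rw [hη, hd]; ring)
    have hv0 : v 0 = 0 := by
      refine kill (u := algebraMap 𝒪 L φ * 2 + v 0)
        (unit_add (hφu.mul h2u) (hv 0)) ?_
      have hyx : y = x := by rw [hy, hx, hd]
      rw [hyx, hb1, hc1] at hdet
      linear_combination hdet - hφ
    have hd' : v 3 = 0 := hd ▸ hv0
    intro k
    fin_cases k <;> simp [hh, hd', hb1, hc1, he, hf, hg, hv0]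
  · simp only [LocalDatum.cut, hb] at hcut
    have ha : v 0 = 0 := by simpa using hcut 0
    have hc : v 2 = 0 := by simpa using hcut 1
    have hd : v 3 = -v 6 := by have := hcut 2; simp at this; linear_combination this
    simp [LocalDatum.phiMat, LocalDatum.baseMat, hb, Matrix.mul_apply, Fin.sum_univ_two, hh, ha,
      hc, hd] at h00 h01 h10 h11 hdet
    have hb0 : v 1 = 0 := hdet
    rw [hb0] at h00
    have hf : v 5 = -v 6 := by
      have : (D.q : L) * (v 5 + v 6) = 0 := by linear_combination -h00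
      linear_combination kill hqu this
    have hg : v 6 = 0 := by
      by_contra hne
      have he2 : (v 4 - v 6) * (v 4 + v 6) = 0 := by
        linear_combination hnull - v 6 * hf
      have h21 : v 4 * (1 + (D.q : L)) + (algebraMap 𝒪 L T - v 6) * v 6 = 0 := by
        linear_combination h10
      rcases mul_eq_zero.mp he2 with he | he
      · have h5 : v 6 * (algebraMap 𝒪 L (T + (1 + (D.q : 𝒪))) - v 6) = 0 := by
          rw [map_add, map_add, map_one, map_natCast]
          linear_combination h21 - (1 + (D.q : L)) * he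
        rcases mul_eq_zero.mp h5 with h | h
        · exact hne h
        · rw [sub_eq_zero] at h
          exact hne (h ▸ hconst _ (h ▸ hv 6))
      · have h5 : v 6 * (algebraMap 𝒪 L (T - (1 + (D.q : 𝒪))) - v 6) = 0 := by
          rw [map_sub, map_add, map_one, map_natCast]
          linear_combination h21 - (1 + (D.q : L)) * he
        rcases mul_eq_zero.mp h5 with h | h
        · exact hne h
        · rw [sub_eq_zero] at h
          exact hne (h ▸ hconst _ (h ▸ hv 6))
    have he : v 4 = 0 := mul_self_eq_zero.mp (by rw [hf, hg] at hnull; linear_combination hnull)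
    intro k
    fin_cases k <;> simp [hh, ha, hb0, hc, hd, hf, hg, he]

variable [IsDomain 𝒪] [IsDiscreteValuationRing 𝒪]
variable {ι X : Type} [Finite ι] [Finite X]

omit [IsDomain 𝒪] [IsDiscreteValuationRing 𝒪] [Finite ι] [Finite X] in
/-- The index of the `j`-th cutting element that is not killed by the normalisation. -/
def LocalDatum.cutIdx (D : LocalDatum 𝒪) (j : Fin D.h0) : Fin 3 :=
  match D.base with
  | .scalar _ => Fin.ofNat 3 j.val
  | .companion _ => 2

omit [IsDomain 𝒪] [IsDiscreteValuationRing 𝒪] [Finite ι] [Finite X] in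
theorem LocalDatum.cut_eq_zero (D : LocalDatum 𝒪) {A : Type*} [CommRing A] {v : Fin 8 → A}
    (hn : D.IsNorm v) (h : ∀ j, D.cut v (D.cutIdx j) = 0) (k : Fin 3) : D.cut v k = 0 := by
  cases hb : D.base with
  | scalar φ =>
    have hh : D.h0 = 3 := by simp [LocalDatum.h0, hb]
    have := h ⟨k.val, by have := k.isLt; omega⟩
    unfold LocalDatum.cutIdx at this
    simp only [hb] at this
    rwa [show Fin.ofNat 3 k.val = k from Fin.ofNat_val_eq_self k] at this
  | companion T =>
    have hh : D.h0 = 1 := by simp [LocalDatum.h0, hb]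
    have h2' := h ⟨0, by omega⟩
    unfold LocalDatum.cutIdx at h2'
    simp only [hb] at h2'
    obtain ⟨h0, h2⟩ := hn T hb
    fin_cases k
    · simpa [LocalDatum.cut, hb] using h0
    · simpa [LocalDatum.cut, hb] using h2
    · exact h2'

/-- The elements cutting `𝒪⟦τ⟧` down besides the uniformiser. -/
def cutElt (D : ι → LocalDatum 𝒪) :
    (Σ i, Fin (D i).h0) ⊕ X → MvPowerSeries (LocVar ι X) 𝒪 :=
  Sum.elim (fun ij => (D ij.1).cut (fun k => locCoord ij.1 k) ((D ij.1).cutIdx ij.2))
    (fun x => MvPowerSeries.X (Sum.inr x))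

open FLTAgent.Deformation in
omit [IsDomain 𝒪] [IsDiscreteValuationRing 𝒪] in
theorem cutElt_mem [IsLocalRing 𝒪] (D : ι → LocalDatum 𝒪) (z : (Σ i, Fin (D i).h0) ⊕ X) :
    cutElt D z ∈ maximalIdeal (MvPowerSeries (LocVar ι X) 𝒪) := by
  rcases z with ⟨i, j⟩ | x
  · exact (D i).cut_mem _ (v := fun k => locCoord i k)
      (fun k => span_X_le_maximalIdeal (Ideal.subset_span ⟨_, rfl⟩)) _
  · exact span_X_le_maximalIdeal (Ideal.subset_span ⟨_, rfl⟩)

open FLTAgent.Deformation in
/-- A prime on which the relations and normalisations hold and which contains the cutting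
elements and the uniformiser is maximal. -/
theorem eq_maximalIdeal_of_cut (h2 : IsUnit (2 : 𝒪)) (D : ι → LocalDatum 𝒪) (t : ι → 𝒪)
    (ht : ∀ i, t i - 2 ∈ maximalIdeal 𝒪) (P : Ideal (MvPowerSeries (LocVar ι X) 𝒪)) [P.IsPrime]
    (hP : ∀ i, (D i).Rel (t i) fun k => Ideal.Quotient.mk P (locCoord i k))
    (hN : ∀ i, (D i).IsNorm fun k => Ideal.Quotient.mk P (locCoord i k))
    {ϖ : 𝒪} (hϖ : Irreducible ϖ) (hϖP : algebraMap 𝒪 _ ϖ ∈ P) (hcut : ∀ z, cutElt D z ∈ P) :
    P = maximalIdeal (MvPowerSeries (LocVar ι X) 𝒪) := by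
  let R := MvPowerSeries (LocVar ι X) 𝒪
  have : IsLocalRing (R ⧸ P) := isLocalRing_quotient ‹P.IsPrime›.ne_top
  refine le_antisymm (IsLocalRing.le_maximalIdeal ‹P.IsPrime›.ne_top) fun f hf => ?_
  have h𝔪 : ∀ r ∈ maximalIdeal 𝒪, algebraMap 𝒪 (R ⧸ P) r = 0 := by
    intro r hr
    rw [hϖ.maximalIdeal_eq, Ideal.mem_span_singleton] at hr
    obtain ⟨c, rfl⟩ := hr
    rw [← Ideal.Quotient.mk_algebraMap, map_mul]
    exact Ideal.Quotient.eq_zero_iff_mem.mpr (Ideal.mul_mem_right _ _ hϖP)
  have hloc : ∀ i k, (locCoord i k : R) ∈ P := by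
    intro i k
    rw [← Ideal.Quotient.eq_zero_iff_mem]
    refine (D i).eq_zero_of_cut h2 (ht i) h𝔪 (v := fun k => Ideal.Quotient.mk P (locCoord i k))
      (fun k => ?_) (hP i) ?_ k
    · rw [maximalIdeal_quotient_eq]
      exact Ideal.mem_map_of_mem _ (span_X_le_maximalIdeal (Ideal.subset_span ⟨_, rfl⟩))
    · refine fun j => (D i).cut_eq_zero (hN i) (fun j => ?_) j
      rw [← (D i).cut_map]
      exact Ideal.Quotient.eq_zero_iff_mem.mpr (hcut (Sum.inl ⟨i, j⟩))
  have hspan : Ideal.span (Set.range MvPowerSeries.X) ≤ P := by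
    rw [Ideal.span_le]
    rintro _ ⟨j | x, rfl⟩
    · exact hloc j.1 j.2
    · exact hcut (Sum.inr x)
  have h1 := sub_truncTotal_mem_span_X_pow f 1
  rw [pow_one] at h1
  have hC : (MvPowerSeries.truncTotal 1 f : R) =
      algebraMap 𝒪 R (MvPowerSeries.constantCoeff f) := by
    classical
    ext d
    rw [MvPolynomial.coeff_coe, MvPowerSeries.algebraMap_apply, MvPowerSeries.coeff_C,
      Algebra.algebraMap_self_apply, MvPowerSeries.coeff_truncTotal_eq_ite]
    by_cases hd : d = 0
    · subst hd; simp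
    · have : d.degree ≠ 0 := fun h => hd ((Finsupp.degree_eq_zero_iff _).mp h)
      simp [hd, this]
  rw [hC] at h1
  have hc := mem_maximalIdeal_powerSeries.mp hf
  rw [hϖ.maximalIdeal_eq, Ideal.mem_span_singleton] at hc
  obtain ⟨c, hc⟩ := hc
  rw [← sub_add_cancel f (algebraMap 𝒪 R (MvPowerSeries.constantCoeff f))]
  refine Ideal.add_mem _ (hspan h1) ?_
  rw [hc, map_mul]
  exact Ideal.mul_mem_right _ _ hϖP

open FLTAgent.Deformation in
/-- The quotient form of `eq_maximalIdeal_of_cut`, for a list of elements. -/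
theorem eq_maximalIdeal_quotient (h2 : IsUnit (2 : 𝒪)) (D : ι → LocalDatum 𝒪) (t : ι → 𝒪)
    (ht : ∀ i, t i - 2 ∈ maximalIdeal 𝒪) (Q : Ideal (MvPowerSeries (LocVar ι X) 𝒪))
    [IsLocalRing (MvPowerSeries (LocVar ι X) 𝒪 ⧸ Q)]
    (hQ : ∀ i, (D i).Rel (t i) fun k => Ideal.Quotient.mk Q (locCoord i k))
    (hN : ∀ i, (D i).IsNorm fun k => Ideal.Quotient.mk Q (locCoord i k))
    {ϖ : 𝒪} (hϖ : Irreducible ϖ) (P : Ideal (MvPowerSeries (LocVar ι X) 𝒪 ⧸ Q)) (hP : P.IsPrime)
    (hϖP : algebraMap 𝒪 _ ϖ ∈ P) (hcut : ∀ z, Ideal.Quotient.mk Q (cutElt D z) ∈ P) :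
    P = maximalIdeal _ := by
  let R := MvPowerSeries (LocVar ι X) 𝒪
  have hQP : Q ≤ P.comap (Ideal.Quotient.mk Q) := fun x hx => by
    rw [Ideal.mem_comap, Ideal.Quotient.eq_zero_iff_mem.mpr hx]
    exact zero_mem _
  let f : (R ⧸ Q) →ₐ[𝒪] R ⧸ P.comap (Ideal.Quotient.mk Q) := Ideal.Quotient.factorₐ 𝒪 hQP
  have h := eq_maximalIdeal_of_cut h2 D t ht (P.comap (Ideal.Quotient.mk Q))
    (fun i => (hQ i).map f) (fun i => (hN i).map f) hϖ
    (by rw [Ideal.mem_comap, Ideal.Quotient.mk_algebraMap]; exact hϖP) hcut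
  have h' := congrArg (Ideal.map (Ideal.Quotient.mk Q)) h
  rwa [Ideal.map_comap_of_surjective _ Ideal.Quotient.mk_surjective,
    ← maximalIdeal_quotient_eq] at h'

open FLTAgent.Deformation in
/-- The dimension bound: a prime quotient of `𝒪⟦τ⟧` in which the relations hold at every prime has
dimension at most `1 + ∑ h⁰ + |X|`. -/
theorem ringKrullDim_quotient_le (h2 : IsUnit (2 : 𝒪)) (D : ι → LocalDatum 𝒪) (t : ι → 𝒪)
    (ht : ∀ i, t i - 2 ∈ maximalIdeal 𝒪) (Q : Ideal (MvPowerSeries (LocVar ι X) 𝒪)) [Q.IsPrime]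
    (hQ : ∀ i, (D i).Rel (t i) fun k => Ideal.Quotient.mk Q (locCoord i k))
    (hN : ∀ i, (D i).IsNorm fun k => Ideal.Quotient.mk Q (locCoord i k)) :
    ringKrullDim (MvPowerSeries (LocVar ι X) 𝒪 ⧸ Q) ≤
      (Nat.card (Unit ⊕ ((Σ i, Fin (D i).h0) ⊕ X)) : ℕ) := by
  obtain ⟨ϖ, hϖ⟩ := IsDiscreteValuationRing.exists_irreducible 𝒪
  let R := MvPowerSeries (LocVar ι X) 𝒪
  have : IsLocalRing (R ⧸ Q) := isLocalRing_quotient ‹Q.IsPrime›.ne_top
  refine ringKrullDim_le_card (κ := Unit ⊕ ((Σ i, Fin (D i).h0) ⊕ X))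
    (Sum.elim (fun _ => algebraMap 𝒪 (R ⧸ Q) ϖ) fun z => Ideal.Quotient.mk Q (cutElt D z))
    (fun P hP hzP => eq_maximalIdeal_quotient h2 D t ht Q hQ hN hϖ P hP (hzP (Sum.inl ()))
      fun z => hzP (Sum.inr z)) ?_
  rintro (u | z)
  · show algebraMap 𝒪 (R ⧸ Q) ϖ ∈ _
    rw [maximalIdeal_quotient_eq, ← Ideal.Quotient.mk_algebraMap]
    refine Ideal.mem_map_of_mem _ ?_
    rw [mem_maximalIdeal_powerSeries, constantCoeff_algebraMap]
    exact (IsLocalRing.mem_maximalIdeal _).mpr hϖ.not_isUnit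
  · show Ideal.Quotient.mk Q (cutElt D z) ∈ maximalIdeal (R ⧸ Q)
    rw [maximalIdeal_quotient_eq]
    exact Ideal.mem_map_of_mem _ (cutElt_mem D z)

end FLTAgent.RT
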