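import Fermat.Agent.RT.LocalPrimes

/-!
# Distinguishing the components
-/

set_option autoImplicit false
set_option linter.unusedSectionVars false

noncomputable section

open IsLocalRing Matrix FLTAgent.Deformation

namespace FLTAgent.RT

variable {𝒪 : Type} [CommRing 𝒪] [IsLocalRing 𝒪] {ι X : Type} [Finite ι] [Finite X]
variable [IsAdicComplete (maximalIdeal 𝒪) 𝒪]
variable (D : ι → LocalDatum 𝒪) (c : ι → CompType 𝒪) (hc : ∀ i, (c i).OK (D i))

local instance : IsAdicComplete (maximalIdeal (Small 𝒪 ι X)) (Small 𝒪 ι X) :=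
  isAdicComplete_powerSeries

local instance : IsAdicComplete (maximalIdeal (Model 𝒪 ι X)) (Model 𝒪 ι X) :=
  isAdicComplete_powerSeries

/-- The trace of the Frobenius matrix at one prime. -/
def frobTrace (i : ι) : MvPowerSeries (LocVar ι X) 𝒪 :=
  ((D i).phiMat fun k => locCoord i k).trace

theorem algebraMap_not_mem_compKer {a : 𝒪} (ha : a ≠ 0) :
    algebraMap 𝒪 (MvPowerSeries (LocVar ι X) 𝒪) a ∉ compKer D c hc := by
  intro h
  rw [compKer, RingHom.mem_ker, AlgHom.commutes] at h
  have h2 := congrArg (fun F => MvPowerSeries.coeff 0 (MvPowerSeries.coeff 0 F)) h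
  simp [MvPowerSeries.algebraMap_apply, MvPowerSeries.coeff_C] at h2
  exact ha h2

theorem mem_compKer_iff_chart {f : MvPowerSeries (LocVar ι X) 𝒪} {F : Chart 𝒪 ι X}
    (hF : toModel D c hc f = chartToModel F) : f ∈ compKer D c hc ↔ F = 0 := by
  rw [compKer, RingHom.mem_ker, hF]
  exact ⟨fun h => MvPolynomial.ext _ _ fun t => by
    rw [← coeff_chartToModel, h, map_zero, MvPolynomial.coeff_zero],
    fun h => by rw [h, map_zero]⟩

theorem locCoord_mem_compKer {i : ι}
    (hci : c i = CompType.ur ∨ ∃ ε, c i = CompType.stUr ε) {k : Fin 8} (hk : 4 ≤ k) :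
    (locCoord i k : MvPowerSeries (LocVar ι X) 𝒪) ∈ compKer D c hc := by
  rw [mem_compKer_iff_chart D c hc (toModel_locCoord D c hc i k), chartCoord_eq]
  obtain ⟨h4, h5, h6, h7⟩ := compCoord_inertia (D i) hci
    (MvPolynomial.X i : Chart 𝒪 ι X) (fun j => cpar D c i j)
  fin_cases k <;> first | exact absurd hk (by decide) | assumption

theorem locCoord_not_mem_compKer {i : ι} {ε : 𝒪} (hci : c i = CompType.st ε) :
    (locCoord i 5 : MvPowerSeries (LocVar ι X) 𝒪) ∉ compKer D c hc := by
  rw [mem_compKer_iff_chart D c hc (toModel_locCoord D c hc i 5)]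
  have h : chartCoord (X := X) D c i 5 = par i 1 := by
    unfold chartCoord
    simp [hci, LocalDatum.stCoord]
    unfold cpar spar LocalDatum.free
    cases hb : (D i).base <;> simp [hci, hb, par]
  rw [h, par, MvPolynomial.C_eq_zero]
  intro h0
  classical
  have h2 := congrArg (MvPowerSeries.coeff (Finsupp.single (Sum.inr (i, 1)) 1)) h0
  simp [MvPowerSeries.coeff_X] at h2

theorem toModel_frobTrace (i : ι) :
    toModel (X := X) D c hc (frobTrace D i) =
      chartToModel ((D i).phiMat (chartCoord D c i)).trace := by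
  have h1 := (D i).phiMat_map (toModel (X := X) D c hc) (fun k => locCoord i k)
  have h2 := (D i).phiMat_map (chartToModel (𝒪 := 𝒪) (ι := ι) (X := X)) (chartCoord D c i)
  rw [show (fun k => toModel (X := X) D c hc (locCoord i k)) =
    fun k => chartToModel (chartCoord D c i k) from funext (toModel_locCoord D c hc i)] at h1
  rw [← h2] at h1
  rw [frobTrace, trace_fin_two, trace_fin_two, map_add, map_add]
  exact congrArg₂ (· + ·) (congrFun (congrFun h1 0) 0) (congrFun (congrFun h1 1) 1)

theorem frobTrace_sub_mem_compKer {i : ι} {ε : 𝒪}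
    (hci : c i = CompType.st ε ∨ c i = CompType.stUr ε) :
    frobTrace (X := X) D i - algebraMap 𝒪 _ ε * ((D i).q + 1) ∈ compKer D c hc := by
  refine (mem_compKer_iff_chart D c hc (F := ((D i).phiMat (chartCoord D c i)).trace -
    algebraMap 𝒪 _ ε * (((D i).q : Chart 𝒪 ι X) + 1)) ?_).mpr ?_
  · simp only [map_sub, map_mul, AlgHom.commutes, map_add, map_natCast, map_one,
      toModel_frobTrace]
  · have hε : ε * ε = 1 := by
      have := hc i
      rcases hci with h | h <;> simp only [h, CompType.OK] at this <;> exact this.1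
    rcases hci with h | h <;> unfold chartCoord <;> simp only [h] <;>
      rw [(D i).trace_stCoord hε, sub_self]

/-- The level raising element at one prime. -/
def raisingElt (i : ι) : MvPowerSeries (LocVar ι X) 𝒪 :=
  frobTrace D i ^ 2 - (((D i).q : MvPowerSeries (LocVar ι X) 𝒪) + 1) ^ 2

theorem raisingElt_mem_compKer {i : ι} {ε : 𝒪}
    (hci : c i = CompType.st ε ∨ c i = CompType.stUr ε) :
    raisingElt (X := X) D i ∈ compKer D c hc := by
  have hε : ε * ε = 1 := by
    have := hc i
    rcases hci with h | h <;> simp only [h, CompType.OK] at this <;> exact this.1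
  have he : algebraMap 𝒪 (MvPowerSeries (LocVar ι X) 𝒪) ε * algebraMap 𝒪 _ ε = 1 := by
    rw [← map_mul, hε, map_one]
  have h := frobTrace_sub_mem_compKer (X := X) D c hc hci
  have key : raisingElt (X := X) D i =
      (frobTrace D i - algebraMap 𝒪 (MvPowerSeries (LocVar ι X) 𝒪) ε * (((D i).q : MvPowerSeries (LocVar ι X) 𝒪) + 1)) *
        (frobTrace D i + algebraMap 𝒪 (MvPowerSeries (LocVar ι X) 𝒪) ε * (((D i).q : MvPowerSeries (LocVar ι X) 𝒪) + 1)) := by
    rw [raisingElt]
    linear_combination (((D i).q : MvPowerSeries (LocVar ι X) 𝒪) + 1) ^ 2 * he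
  rw [key]
  exact Ideal.mul_mem_right _ _ h

/-- The sign is determined by the trace of Frobenius. -/
theorem sign_eq_of_mem [CharZero 𝒪] [IsDomain 𝒪] {i : ι} {ε ε' : 𝒪}
    (hci : c i = CompType.st ε ∨ c i = CompType.stUr ε)
    (h : frobTrace (X := X) D i - algebraMap 𝒪 _ ε' * ((D i).q + 1) ∈ compKer D c hc) :
    ε' = ε := by
  by_contra hne
  have h' := Ideal.sub_mem _ (frobTrace_sub_mem_compKer (X := X) D c hc hci) h
  have hq : ((D i).q : 𝒪) + 1 ≠ 0 := by exact_mod_cast Nat.succ_ne_zero (D i).q
  refine algebraMap_not_mem_compKer (X := X) D c hc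
    (mul_ne_zero (sub_ne_zero.mpr hne) hq) ?_
  rw [map_mul, map_sub, map_add, map_one, map_natCast]
  convert h' using 1
  ring

/-- The raising element is not identically zero on an unramified component. -/
theorem raisingElt_not_mem_compKer [IsDomain 𝒪] {i : ι} (hci : c i = CompType.ur) :
    raisingElt (X := X) D i ∉ compKer D c hc := by
  classical
  have hF : toModel (X := X) D c hc (raisingElt D i) =
      chartToModel (((D i).phiMat (chartCoord D c i)).trace ^ 2 -
        (((D i).q : Chart 𝒪 ι X) + 1) ^ 2) := by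
    simp only [raisingElt, map_sub, map_pow, toModel_frobTrace, map_add, map_natCast, map_one]
  rw [mem_compKer_iff_chart D c hc hF]
  intro h0
  set T : Chart 𝒪 ι X := ((D i).phiMat (chartCoord D c i)).trace with hT
  set Q : Chart 𝒪 ι X := ((D i).q : Chart 𝒪 ι X) + 1 with hQ
  have h1 : (T - Q) * (T + Q) = 0 := by linear_combination h0
  have hS : IsDomain (Small 𝒪 ι X) := NoZeroDivisors.to_isDomain _
  -- `T` is not a constant
  have key : ∀ a : 𝒪, T ≠ algebraMap 𝒪 (Chart 𝒪 ι X) a := by
    intro a ha
    set x : Small 𝒪 ι X := spar D c i 0 with hx0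
    set y : Small 𝒪 ι X := spar D c i 1 with hy0
    set z : Small 𝒪 ι X := spar D c i 2 with hz0
    have hval : chartCoord (X := X) D c i =
        fun k => MvPolynomial.C ((D i).urCoord x y z k) := by
      funext k; unfold chartCoord; simp only [hci]; rfl
    have ht : ((D i).phiMat ((D i).urCoord x y z)).trace = algebraMap 𝒪 (Small 𝒪 ι X) a := by
      have hm := (D i).phiMat_map (IsScalarTower.toAlgHom 𝒪 (Small 𝒪 ι X) (Chart 𝒪 ι X))
        ((D i).urCoord x y z)
      have hT' : T = MvPolynomial.C ((D i).phiMat ((D i).urCoord x y z)).trace := by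
        rw [hT, hval, trace_fin_two, trace_fin_two, map_add]
        exact congrArg₂ (· + ·) (congrFun (congrFun hm 0) 0).symm (congrFun (congrFun hm 1) 1).symm
      rw [hT'] at ha
      exact MvPolynomial.C_injective _ _ (ha.trans (IsScalarTower.algebraMap_apply 𝒪
        (Small 𝒪 ι X) (Chart 𝒪 ι X) a))
    cases hb : (D i).base with
    | scalar φ =>
      have hfree : ∀ j, spar (X := X) D c i j = MvPowerSeries.X (Sum.inr (i, j)) := fun j => by
        simp [spar, LocalDatum.free, hb]
      have hx : x = MvPowerSeries.X (Sum.inr (i, 0)) := hfree 0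
      have hy : y = MvPowerSeries.X (Sum.inr (i, 1)) := hfree 1
      have hz : z = MvPowerSeries.X (Sum.inr (i, 2)) := hfree 2
      have hden := isUnit_urDen (X := X) D c i
      simp only [LocalDatum.urDen, hb] at hden
      have hinv := Ring.mul_inverse_cancel _ hden
      simp [LocalDatum.phiMat, LocalDatum.baseMat, LocalDatum.urCoord, hb, trace_fin_two] at ht
      rw [← hx0] at hinv
      have heq : algebraMap 𝒪 (Small 𝒪 ι X) a * (algebraMap 𝒪 _ φ + x) =
          (algebraMap 𝒪 _ φ + x) ^ 2 + (((D i).q : Small 𝒪 ι X) + y * z) := by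
        linear_combination -(algebraMap 𝒪 (Small 𝒪 ι X) φ + x) * ht +
          (((D i).q : Small 𝒪 ι X) + y * z) * hinv
      let e : SmallVar ι X →₀ ℕ :=
        Finsupp.single (Sum.inr (i, 1)) 1 + Finsupp.single (Sum.inr (i, 2)) 1
      have he := congrArg (MvPowerSeries.coeff e) heq
      have hne : ∀ n, e ≠ Finsupp.single (Sum.inr (i, 0)) n := fun n h => by
        have := DFunLike.congr_fun h (Sum.inr (i, 1))
        simp [e] at this
      have he0 : e ≠ 0 := fun h => by
        have := DFunLike.congr_fun h (Sum.inr (i, 1))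
        simp [e] at this
      have hq : MvPowerSeries.coeff e ((D i).q : Small 𝒪 ι X) = 0 := by
        rw [← map_natCast (MvPowerSeries.C (σ := SmallVar ι X) (R := 𝒪)), MvPowerSeries.coeff_C,
          if_neg he0]
      have hyz : MvPowerSeries.coeff e (y * z) = 1 := by
        rw [hy, hz, MvPowerSeries.X_def, MvPowerSeries.X_def, MvPowerSeries.monomial_mul_monomial,
          MvPowerSeries.coeff_monomial, if_pos rfl, mul_one]
      have hC : MvPowerSeries.coeff e (MvPowerSeries.C φ * MvPowerSeries.C φ : Small 𝒪 ι X) = 0 :=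
        by rw [← map_mul, MvPowerSeries.coeff_C, if_neg he0]
      rw [add_sq, map_add, map_add, map_add, map_add, mul_add, map_add, pow_two, pow_two,
        MvPowerSeries.algebraMap_apply, MvPowerSeries.algebraMap_apply, hq, hyz] at he
      have hx1 : ∀ b : 𝒪, MvPowerSeries.coeff e (MvPowerSeries.C b * x) = 0 := fun b => by
        rw [MvPowerSeries.coeff_C_mul, hx, MvPowerSeries.coeff_X, if_neg (hne 1), mul_zero]
      have hx2 : MvPowerSeries.coeff e (x * x) = 0 := by
        rw [hx, MvPowerSeries.X_def, MvPowerSeries.monomial_mul_monomial,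
          MvPowerSeries.coeff_monomial, if_neg]
        rw [← Finsupp.single_add]
        exact hne 2
      have hC2 : MvPowerSeries.coeff e
          (MvPowerSeries.C a * MvPowerSeries.C φ : Small 𝒪 ι X) = 0 := by
        rw [← map_mul, MvPowerSeries.coeff_C, if_neg he0]
      have h2x : MvPowerSeries.coeff e (2 * MvPowerSeries.C φ * x) = 0 := by
        rw [two_mul, add_mul, map_add, hx1, add_zero]
      simp [Algebra.algebraMap_self_apply, hx1, hC, hC2, hx2, h2x] at he
    | companion T₀ =>
      simp [LocalDatum.phiMat, LocalDatum.baseMat, LocalDatum.urCoord, hb, trace_fin_two] at ht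
      let e : SmallVar ι X →₀ ℕ := Finsupp.single (Sum.inr (i, 2)) 1
      have hx : x = 0 := by simp [hx0, spar, LocalDatum.free, hb, hci]
      have hz : z = MvPowerSeries.X (Sum.inr (i, 2)) := by
        simp [hz0, spar, LocalDatum.free, hb, hci]
      have he := congrArg (MvPowerSeries.coeff e) ht
      simp [e, hx, hz, MvPowerSeries.coeff_X, MvPowerSeries.algebraMap_apply,
        MvPowerSeries.coeff_C, Finsupp.single_eq_single_iff, Finsupp.single_eq_zero] at he
  rcases mul_eq_zero.mp h1 with h | h
  · refine key (((D i).q : 𝒪) + 1) ?_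
    rw [map_add, map_one, map_natCast]
    linear_combination h
  · refine key (-(((D i).q : 𝒪) + 1)) ?_
    rw [map_neg, map_add, map_one, map_natCast]
    linear_combination h

/-- The element separating the two signs on ramified components. -/
def signElt (i : ι) (ε : 𝒪) : MvPowerSeries (LocVar ι X) 𝒪 :=
  (((D i).phiMat fun k => locCoord i k) 0 0 -
      algebraMap 𝒪 _ ε * ((D i).q : MvPowerSeries (LocVar ι X) 𝒪)) * locCoord i 5 -
    (((D i).phiMat fun k => locCoord i k) 0 1) * locCoord i 4

theorem toModel_signElt {i : ι} {ε ε' : 𝒪} (hci : c i = CompType.st ε') :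
    toModel (X := X) D c hc (signElt D i ε) =
      chartToModel (algebraMap 𝒪 _ ((ε' - ε) * (D i).q) * par i 1) := by
  have hε : ε' * ε' = 1 := by
    have := hc i
    simp only [hci, CompType.OK] at this
    exact this.1
  have hmap : ∀ a b, toModel (X := X) D c hc (((D i).phiMat fun k => locCoord i k) a b) =
      chartToModel ((D i).phiMat (chartCoord D c i) a b) := fun a b => by
    have h1 := congrFun (congrFun ((D i).phiMat_map (toModel (X := X) D c hc)
      (fun k => locCoord i k)) a) b
    have h2 := congrFun (congrFun ((D i).phiMat_map (chartToModel (𝒪 := 𝒪) (ι := ι) (X := X))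
      (chartCoord D c i)) a) b
    rw [Matrix.map_apply] at h1 h2
    rw [h1, h2]
    simp only [toModel_locCoord]
  rw [signElt]
  simp only [map_sub, map_mul, hmap, toModel_locCoord, AlgHom.commutes, map_natCast]
  rw [← map_natCast (chartToModel (𝒪 := 𝒪) (ι := ι) (X := X)) (D i).q,
    ← AlgHom.commutes (chartToModel (𝒪 := 𝒪) (ι := ι) (X := X)) ε,
    ← AlgHom.commutes (chartToModel (𝒪 := 𝒪) (ι := ι) (X := X)) ε']
  simp only [← map_mul, ← map_sub]
  congr 1
  have hpar : cpar (X := X) D c i 1 = par i 1 := by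
    unfold cpar spar LocalDatum.free
    cases hb : (D i).base <;> simp [hci, par]
  have hcoord : chartCoord (X := X) D c i =
      (D i).stCoord ε' (lineVar D i ε' (cpar D c i 0)) (cpar D c i 1) (cpar D c i 2) := by
    unfold chartCoord; simp only [hci]
  rw [hcoord, (D i).phiMat_stCoord hε, ← hpar]
  simp [LocalDatum.stCoord, -MvPolynomial.algebraMap_apply]
  ring

section red

variable [IsDomain 𝒪] [DecidableEq X] (s : Finset X)

local instance : IsAdicComplete
    (maximalIdeal (MvPowerSeries (SmallVar ι X) (ResidueField 𝒪)))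
    (MvPowerSeries (SmallVar ι X) (ResidueField 𝒪)) :=
  haveI : IsAdicComplete (maximalIdeal (ResidueField 𝒪)) (ResidueField 𝒪) :=
    isAdicComplete_of_pow_eq_bot (n := 1) (by rw [pow_one, IsLocalRing.maximalIdeal_eq_bot])
  isAdicComplete_powerSeries

/-- The value of a parameter after reduction and specialisation of the variables in `s`. -/
def redVar : SmallVar ι X → MvPowerSeries (SmallVar ι X) (ResidueField 𝒪)
  | Sum.inl x => if x ∈ s then 0 else MvPowerSeries.X (Sum.inl x)
  | Sum.inr j => MvPowerSeries.X (Sum.inr j)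

theorem redVar_mem (j : SmallVar ι X) :
    redVar (𝒪 := 𝒪) s j ∈ maximalIdeal (MvPowerSeries (SmallVar ι X) (ResidueField 𝒪)) := by
  rcases j with x | j
  · by_cases h : x ∈ s
    · rw [redVar, if_pos h]
      exact Ideal.zero_mem _
    · rw [redVar, if_neg h]
      exact span_X_le_maximalIdeal (Ideal.subset_span ⟨_, rfl⟩)
  · exact span_X_le_maximalIdeal (Ideal.subset_span ⟨_, rfl⟩)

/-- Reduction modulo the maximal ideal of `𝒪` and specialisation of the variables in `s`. -/
def redSmall : Small 𝒪 ι X →ₐ[𝒪] MvPowerSeries (SmallVar ι X) (ResidueField 𝒪) :=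
  psEval (redVar s) (redVar_mem s)

/-- The map to the reduced specialised model. -/
def redModel : MvPowerSeries (LocVar ι X) 𝒪 →+*
    MvPowerSeries ι (MvPowerSeries (SmallVar ι X) (ResidueField 𝒪)) :=
  (MvPowerSeries.map (redSmall (ι := ι) s).toRingHom).comp (toModel D c hc).toRingHom

/-- The special prime of a component: reduce and specialise the variables in `s`. -/
def redKer : Ideal (MvPowerSeries (LocVar ι X) 𝒪) :=
  RingHom.ker (redModel D c hc s)

theorem compKer_le_redKer : compKer D c hc ≤ redKer D c hc s := fun f hf => by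
  rw [compKer, RingHom.mem_ker] at hf
  rw [redKer, RingHom.mem_ker, redModel, RingHom.comp_apply]
  show MvPowerSeries.map _ (toModel D c hc f) = 0
  rw [hf, map_zero]

theorem isPrime_redKer : (redKer D c hc s).IsPrime :=
  haveI : IsDomain (MvPowerSeries (SmallVar ι X) (ResidueField 𝒪)) := NoZeroDivisors.to_isDomain _
  haveI : IsDomain (MvPowerSeries ι (MvPowerSeries (SmallVar ι X) (ResidueField 𝒪))) :=
    NoZeroDivisors.to_isDomain _
  RingHom.ker_isPrime (redModel D c hc s)

theorem mem_redKer_iff_chart {f : MvPowerSeries (LocVar ι X) 𝒪} {F : Chart 𝒪 ι X}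
    (hF : toModel D c hc f = chartToModel F) :
    f ∈ redKer D c hc s ↔ ∀ t, redSmall (ι := ι) s (MvPolynomial.coeff t F) = 0 := by
  rw [redKer, RingHom.mem_ker, redModel, RingHom.comp_apply]
  show MvPowerSeries.map _ (toModel D c hc f) = 0 ↔ _
  rw [hF]
  refine ⟨fun h t => ?_, fun h => ?_⟩
  · have := congrArg (MvPowerSeries.coeff t) h
    rwa [MvPowerSeries.coeff_map, coeff_chartToModel, map_zero] at this
  · ext1 t
    rw [MvPowerSeries.coeff_map, coeff_chartToModel, map_zero]
    exact h t

theorem algebraMap_mem_redKer {a : 𝒪} (ha : a ∈ maximalIdeal 𝒪) :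
    algebraMap 𝒪 (MvPowerSeries (LocVar ι X) 𝒪) a ∈ redKer D c hc s := by
  classical
  refine (mem_redKer_iff_chart D c hc s (F := algebraMap 𝒪 _ a) ?_).mpr fun t => ?_
  · rw [AlgHom.commutes, AlgHom.commutes]
  · rw [show algebraMap 𝒪 (Chart 𝒪 ι X) a = MvPolynomial.C (algebraMap 𝒪 _ a) from rfl,
      MvPolynomial.coeff_C]
    split
    · rw [AlgHom.commutes, IsScalarTower.algebraMap_apply 𝒪 (ResidueField 𝒪),
        ResidueField.algebraMap_eq, residue_eq_zero_iff _ |>.mpr ha, map_zero]
    · exact map_zero _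

theorem X_mem_redKer {x : X} (hx : x ∈ s) :
    (MvPowerSeries.X (Sum.inr x) : MvPowerSeries (LocVar ι X) 𝒪) ∈ redKer D c hc s := by
  classical
  refine (mem_redKer_iff_chart D c hc s (F := MvPolynomial.C (MvPowerSeries.X (Sum.inl x))) ?_).mpr
    fun t => ?_
  · rw [toModel, psEval_X]
    rfl
  · rw [MvPolynomial.coeff_C]
    split
    · rw [redSmall, psEval_X]
      exact if_pos hx
    · exact map_zero _

theorem signElt_not_mem_redKer {i : ι} {ε ε' : 𝒪} (hci : c i = CompType.st ε')
    (hne : IsUnit (ε' - ε)) : signElt (X := X) D i ε ∉ redKer D c hc s := by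
  classical
  rw [mem_redKer_iff_chart D c hc s (toModel_signElt D c hc hci)]
  intro h
  have h0 := h 0
  rw [par, show algebraMap 𝒪 (Chart 𝒪 ι X) ((ε' - ε) * (D i).q) =
      MvPolynomial.C (algebraMap 𝒪 _ ((ε' - ε) * (D i).q)) from rfl, ← map_mul,
    MvPolynomial.coeff_C, if_pos rfl, map_mul, AlgHom.commutes, redSmall, psEval_X] at h0
  refine ((hne.mul (D i).isUnit_q).map (algebraMap 𝒪
    (MvPowerSeries (SmallVar ι X) (ResidueField 𝒪)))).mul_right_eq_zero.mp h0 |> fun h1 => ?_
  have := congrArg (MvPowerSeries.coeff (Finsupp.single (Sum.inr (i, (1 : Fin 3))) 1)) h1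
  simp [redVar, MvPowerSeries.coeff_X] at this

theorem locCoord_not_mem_redKer {i : ι} {ε : 𝒪} (hci : c i = CompType.st ε) :
    (locCoord i 5 : MvPowerSeries (LocVar ι X) 𝒪) ∉ redKer D c hc s := by
  classical
  rw [mem_redKer_iff_chart D c hc s (toModel_locCoord D c hc i 5)]
  intro h
  have hpar : chartCoord (X := X) D c i 5 = par i 1 := by
    unfold chartCoord
    simp [hci, LocalDatum.stCoord]
    unfold cpar spar LocalDatum.free
    cases hb : (D i).base <;> simp [hci, par]
  have h0 := h 0
  rw [hpar, par, MvPolynomial.coeff_C, if_pos rfl, redSmall, psEval_X] at h0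
  have := congrArg (MvPowerSeries.coeff (Finsupp.single (Sum.inr (i, (1 : Fin 3))) 1)) h0
  simp [redVar, MvPowerSeries.coeff_X] at this

end red

end FLTAgent.RT
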