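import Fermat.Agent.RT.LocalPoint
import Mathlib.RingTheory.Valuation.ValuationRing

/-!
# Local points in a domain are Steinberg or unramified

At a point with nontrivial inertia the kernel of `s - 1` is a line fixed by Frobenius, and the
point is given by the Steinberg formulas as soon as the line coordinate is finite.
-/

set_option autoImplicit false
set_option linter.unusedSectionVars false

noncomputable section

open IsLocalRing Matrix

namespace FLTAgent.RT

variable {𝒪 : Type} [CommRing 𝒪] {V : Type} [CommRing V] [IsDomain V] [Algebra 𝒪 V]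

/-- The basic equations at a point with trace of inertia two. -/
theorem LocalDatum.Rel.eqns {D : LocalDatum 𝒪} {v : Fin 8 → V} (h : D.Rel 2 v) :
    v 7 = -v 4 ∧ v 4 * v 4 + v 5 * v 6 = 0 ∧
      D.phiMat v * !![v 4, v 5; v 6, v 7] =
        (D.q : V) • (!![v 4, v 5; v 6, v 7] * D.phiMat v) := by
  have hh : v 7 = -v 4 := by
    have := h.trace_s
    rw [map_ofNat, trace_fin_two] at this
    simp [sMat] at this
    linear_combination this
  have hnull : v 4 * v 4 + v 5 * v 6 = 0 := by
    have := h.det_s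
    rw [det_fin_two] at this
    simp [sMat, hh] at this
    linear_combination -this
  refine ⟨hh, hnull, ?_⟩
  have hN2 : !![v 4, v 5; v 6, v 7] * !![v 4, v 5; v 6, v 7] = 0 := by
    ext i j
    fin_cases i <;> fin_cases j <;> simp [Matrix.mul_apply, Fin.sum_univ_two, hh] <;>
      first | linear_combination hnull | ring
  have := h.comm
  rw [sMat, one_add_pow_of_mul_self_eq_zero hN2, mul_add, mul_one, add_mul, one_mul,
    add_right_inj, ← Nat.cast_smul_eq_nsmul V, smul_mul_assoc] at this
  exact this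

variable [IsLocalRing 𝒪] [IsLocalRing V] [IsLocalHom (algebraMap 𝒪 V)]

theorem mem_maximalIdeal_of_algebraMap {a : 𝒪} (h : algebraMap 𝒪 V a ∈ maximalIdeal V) :
    a ∈ maximalIdeal 𝒪 := by
  rw [IsLocalRing.mem_maximalIdeal, mem_nonunits_iff] at h ⊢
  exact fun hu => h (hu.map _)

/-- **A ramified point with finite line coordinate.** -/
theorem LocalDatum.exists_sign_of_line (D : LocalDatum 𝒪) {v : Fin 8 → V}
    (hv : ∀ k, v k ∈ maximalIdeal V) (hrel : D.Rel 2 v) (hf : v 5 ≠ 0) {l : V}
    (hl : v 4 + l * v 5 = 0) :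
    ∃ ε : 𝒪, (ε = 1 ∨ ε = -1) ∧ D.SignOK ε ∧
      (∀ T, D.base = LocalBase.companion T → l + algebraMap 𝒪 V ε ∈ maximalIdeal V) ∧
      ∀ k, v k = D.stCoord ε l (v 5) (algebraMap 𝒪 V ε * v 1) k := by
  obtain ⟨hh, hnull, hcomm⟩ := hrel.eqns
  have hqu : IsUnit (D.q : V) := by simpa using D.isUnit_q.map (algebraMap 𝒪 V)
  have he4 : v 4 = -(l * v 5) := by linear_combination hl
  have hg : v 6 = -(l * l * v 5) := by
    refine mul_left_cancel₀ hf ?_
    linear_combination hnull - (v 4 - l * v 5) * hl
  have hdet := hrel.det_phi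
  rw [det_fin_two] at hdet
  set P := D.phiMat v with hP
  have h01 := congrFun (congrFun hcomm 0) 1
  have h00 := congrFun (congrFun hcomm 0) 0
  simp [Matrix.mul_apply, Fin.sum_univ_two, hh, he4, hg, Matrix.vecMul, dotProduct] at h01 h00
  set ν := P 1 1 - l * P 0 1 with hν
  have hA : P 0 0 = (D.q : V) * ν - l * P 0 1 := by
    refine mul_left_cancel₀ hf ?_
    rw [hν]
    linear_combination h01
  have hC : P 1 0 = l * (P 0 0 - ν) := by
    refine mul_left_cancel₀ (mul_ne_zero hqu.ne_zero hf) ?_
    rw [hν] at hA ⊢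
    linear_combination -h00 - v 5 * l * hA
  have hν2 : (D.q : V) * (ν * ν) = (D.q : V) * 1 := by
    linear_combination hdet - P 1 1 * hA + P 0 1 * hC + l * P 0 1 * hA
  obtain ⟨ε, hε, hεν⟩ : ∃ ε : 𝒪, (ε = 1 ∨ ε = -1) ∧ algebraMap 𝒪 V ε = ν := by
    have h1 : ν * ν = 1 := mul_left_cancel₀ hqu.ne_zero hν2
    rcases mul_self_eq_one_iff.mp h1 with h | h
    · exact ⟨1, Or.inl rfl, by rw [map_one, h]⟩
    · exact ⟨-1, Or.inr rfl, by rw [map_neg, map_one, h]⟩
  have hεε : ε * ε = 1 := by rcases hε with rfl | rfl <;> norm_num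
  have he : algebraMap 𝒪 V ε * algebraMap 𝒪 V ε = 1 := by rw [← map_mul, hεε, map_one]
  set E := algebraMap 𝒪 V ε with hE
  rw [← hεν] at hν hA hC
  cases hb : D.base with
  | scalar φ =>
    simp [hP, LocalDatum.phiMat, LocalDatum.baseMat, hb] at hν hA hC
    refine ⟨ε, hε, ⟨hεε, ?_⟩, fun T hT => by simp at hT, fun k => ?_⟩
    · simp only [hb]
      refine ⟨mem_maximalIdeal_of_algebraMap (V := V) ?_,
        mem_maximalIdeal_of_algebraMap (V := V) ?_⟩
      · rw [map_sub, map_mul, map_natCast, ← hE]
        have : E * (D.q : V) - algebraMap 𝒪 V φ = v 0 + l * v 1 := by linear_combination -hA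
        rw [this]
        exact add_mem (hv 0) (Ideal.mul_mem_left _ _ (hv 1))
      · rw [map_sub, ← hE]
        have : E - algebraMap 𝒪 V φ = v 3 - l * v 1 := by linear_combination hν
        rw [this]
        exact sub_mem (hv 3) (Ideal.mul_mem_left _ _ (hv 1))
    · fin_cases k <;>
        simp [LocalDatum.stCoord, LocalDatum.m0, LocalDatum.baseMat, hb, hh, he4, hg, ← hE]
      · linear_combination hA + (l * v 1) * he
      · linear_combination -(v 1) * he
      · linear_combination hC + l * hA + (l * l * v 1) * he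
      · linear_combination -hν - (l * v 1) * he
  | companion T =>
    simp [hP, LocalDatum.phiMat, LocalDatum.baseMat, hb] at hν hA hC
    have hlE : l + E ∈ maximalIdeal V := by
      have h1 : (D.q : V) * (l + E) = v 0 + l * v 1 := by linear_combination -hA
      have h2 : (D.q : V) * (l + E) ∈ maximalIdeal V :=
        h1 ▸ add_mem (hv 0) (Ideal.mul_mem_left _ _ (hv 1))
      exact (Ideal.unit_mul_mem_iff_mem _ hqu).mp h2
    refine ⟨ε, hε, ⟨hεε, ?_⟩, fun T' hT => hlE, fun k => ?_⟩
    · simp only [hb]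
      refine mem_maximalIdeal_of_algebraMap (V := V) ?_
      rw [map_sub, map_mul, map_add, map_one, map_natCast, ← hE]
      have : E * (1 + (D.q : V)) - algebraMap 𝒪 V T = v 0 + v 3 := by
        linear_combination -hA + hν
      rw [this]
      exact add_mem (hv 0) (hv 3)
    · fin_cases k <;>
        simp [LocalDatum.stCoord, LocalDatum.m0, LocalDatum.baseMat, hb, hh, he4, hg, ← hE]
      · linear_combination hA + (l * v 1 - l * (D.q : V)) * he
      · linear_combination -(v 1) * he
      · linear_combination hC + l * hA + (l * l * v 1 - l * l * (D.q : V)) * he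
      · linear_combination -hν - (l * v 1 - l * (D.q : V)) * he

/-- The line coordinate is finite for a companion normal form. -/
theorem LocalDatum.exists_line_companion [ValuationRing V] (D : LocalDatum 𝒪) {T : 𝒪}
    (hb : D.base = LocalBase.companion T) {v : Fin 8 → V} (hv : ∀ k, v k ∈ maximalIdeal V)
    (hrel : D.Rel 2 v) (hne : ¬ (v 4 = 0 ∧ v 5 = 0 ∧ v 6 = 0 ∧ v 7 = 0)) :
    v 5 ≠ 0 ∧ ∃ l : V, v 4 + l * v 5 = 0 := by
  obtain ⟨hh, hnull, hcomm⟩ := hrel.eqns
  have hqu : IsUnit (D.q : V) := by simpa using D.isUnit_q.map (algebraMap 𝒪 V)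
  have hbu : IsUnit (-(D.q : V) + v 1) := by
    by_contra hcon
    refine (IsLocalRing.mem_maximalIdeal _).mp ?_ hqu.neg
    simpa using (maximalIdeal V).sub_mem ((IsLocalRing.mem_maximalIdeal _).mpr hcon) (hv 1)
  have h00 := congrFun (congrFun hcomm 0) 0
  have h01 := congrFun (congrFun hcomm 0) 1
  simp [Matrix.mul_apply, Fin.sum_univ_two, hh, LocalDatum.phiMat, LocalDatum.baseMat, hb]
    at h00 h01
  have hf : v 5 ≠ 0 := by
    intro hf
    apply hne
    have he : v 4 = 0 := mul_self_eq_zero.mp (by linear_combination hnull - v 6 * hf)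
    have hg : v 6 = 0 := hbu.mul_right_eq_zero.mp (by
      rw [he, hf] at h00
      linear_combination h00)
    exact ⟨he, hf, hg, by rw [hh, he, neg_zero]⟩
  refine ⟨hf, ?_⟩
  rcases ValuationRing.dvd_total (v 5) (v 4) with ⟨c, hc⟩ | ⟨r, hr⟩
  · exact ⟨-c, by rw [hc]; ring⟩
  · -- `f = r e` with `r` a non-unit is impossible: `(e : f)` is integral
    by_cases hru : IsUnit r
    · obtain ⟨w, hw⟩ := hru.exists_left_inv
      exact ⟨-w, by rw [hr]; linear_combination (-(v 4)) * hw⟩
    · exfalso
      obtain ⟨u, hu⟩ := hbu.exists_left_inv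
      have hrm : r ∈ maximalIdeal V := (IsLocalRing.mem_maximalIdeal _).mpr hru
      have hg : v 6 = v 4 * (u * ((D.q : V) * (v 0 + r * (1 + v 2)) - v 0)) := by
        rw [hr] at h00
        linear_combination u * h00 - v 6 * hu
      have hz : v 4 * (v 4 * (1 + r * (u * ((D.q : V) * (v 0 + r * (1 + v 2)) - v 0)))) = 0 := by
        rw [hr, hg] at hnull
        linear_combination hnull
      rcases mul_eq_zero.mp hz with h | h
      · exact hf (by rw [hr, h, zero_mul])
      · rcases mul_eq_zero.mp h with h | h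
        · exact hf (by rw [hr, h, zero_mul])
        · refine (IsLocalRing.mem_maximalIdeal (1 : V)).mp ?_ isUnit_one
          rw [eq_neg_of_add_eq_zero_left h]
          exact neg_mem (Ideal.mul_mem_right _ _ hrm)

end FLTAgent.RT
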