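import Fermat.Agent.RT.LocalModel

/-!
# Points of the components

Evaluation of power series at nilpotent elements, the point lemma in terms of coordinates, the
change of chart and the inclusions between components.
-/

set_option autoImplicit false
set_option linter.unusedSectionVars false

noncomputable section

open IsLocalRing Matrix FLTAgent.Deformation

namespace FLTAgent.RT

/-! ### Evaluation at nilpotent elements -/

section nil

variable {𝒪 : Type} [CommRing 𝒪] {σ : Type} [Finite σ] {W : Type} [CommRing W] [Algebra 𝒪 W]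
  {I : Ideal W} {N : ℕ} (hI : I ^ N = ⊥) (x : σ → W) (hx : ∀ s, x s ∈ I)

include hI hx in
theorem aeval_eq_zero_of_mem_pow {p : MvPolynomial σ 𝒪}
    (hp : p ∈ MvPolynomial.idealOfVars σ 𝒪 ^ N) : MvPolynomial.aeval x p = 0 := by
  have h1 : (MvPolynomial.idealOfVars σ 𝒪).map
      (MvPolynomial.aeval (R := 𝒪) x : MvPolynomial σ 𝒪 →+* W) ≤ I := by
    rw [Ideal.map_span, Ideal.span_le]
    rintro _ ⟨_, ⟨j, rfl⟩, rfl⟩
    simpa using hx j
  have h2 := Ideal.pow_right_mono h1 N
  rw [← Ideal.map_pow, hI] at h2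
  exact Ideal.mem_bot.mp (h2 (Ideal.mem_map_of_mem _ hp))

/-- Evaluation of power series at nilpotent elements. -/
def evalNil : MvPowerSeries σ 𝒪 →ₐ[𝒪] W :=
  (Ideal.Quotient.liftₐ _ (MvPolynomial.aeval x) fun _ hp =>
    aeval_eq_zero_of_mem_pow hI x hx hp).comp
  ((MvPowerSeries.truncTotalAlgHom σ 𝒪 N).restrictScalars 𝒪)

theorem evalNil_apply (f : MvPowerSeries σ 𝒪) :
    evalNil hI x hx f = MvPolynomial.aeval x (MvPowerSeries.truncTotal N f) :=
  rfl

theorem evalNil_X (s : σ) : evalNil hI x hx (MvPowerSeries.X s : MvPowerSeries σ 𝒪) = x s := by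
  classical
  rw [evalNil_apply, ← sub_eq_zero,
    ← MvPolynomial.aeval_X (R := 𝒪) x s, ← map_sub]
  refine aeval_eq_zero_of_mem_pow hI x hx
    ((MvPolynomial.mem_pow_idealOfVars_iff' ..).mpr fun d hd => ?_)
  rw [MvPolynomial.coeff_sub, MvPowerSeries.coeff_truncTotal _ hd, ← MvPolynomial.coe_X,
    MvPolynomial.coeff_coe, sub_self]

include hI in
/-- An algebra map out of a power series ring sending the variables into a nilpotent ideal is
determined by them. -/
theorem algHom_ext_nil {f g : MvPowerSeries σ 𝒪 →ₐ[𝒪] W}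
    (hf : ∀ s, f (MvPowerSeries.X s) ∈ I)
    (h : ∀ s, f (MvPowerSeries.X s) = g (MvPowerSeries.X s)) : f = g := by
  ext a
  have key : ∀ F : MvPowerSeries σ 𝒪 →ₐ[𝒪] W, (∀ s, F (MvPowerSeries.X s) ∈ I) →
      F a = MvPolynomial.aeval (fun s => F (MvPowerSeries.X s)) (MvPowerSeries.truncTotal N a) := by
    intro F hF
    have hle : (Ideal.span (Set.range (MvPowerSeries.X (σ := σ) (R := 𝒪)))).map F ≤ I := by
      rw [Ideal.map_span, Ideal.span_le]
      rintro _ ⟨_, ⟨j, rfl⟩, rfl⟩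
      exact hF j
    have h0 := Ideal.pow_right_mono hle N
    rw [← Ideal.map_pow, hI] at h0
    have h1 := Ideal.mem_bot.mp (h0 (Ideal.mem_map_of_mem _ (sub_truncTotal_mem_span_X_pow a N)))
    rw [map_sub, sub_eq_zero] at h1
    rw [h1]
    have : F.comp (MvPolynomial.coeToMvPowerSeries.algHom 𝒪) =
        MvPolynomial.aeval fun s => F (MvPowerSeries.X s) :=
      MvPolynomial.algHom_ext fun j => by simp
    simpa using DFunLike.congr_fun this (MvPowerSeries.truncTotal N a)
  rw [key f hf, key g (fun s => h s ▸ hf s)]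
  simp only [h]

theorem evalNil_mem [IsLocalRing 𝒪] (hm : ∀ a ∈ maximalIdeal 𝒪, algebraMap 𝒪 W a ∈ I)
    {f : MvPowerSeries σ 𝒪} (hf : f ∈ maximalIdeal (MvPowerSeries σ 𝒪)) :
    evalNil hI x hx f ∈ I := by
  classical
  rw [evalNil_apply, MvPolynomial.as_sum (MvPowerSeries.truncTotal N f), map_sum]
  refine Ideal.sum_mem _ fun d _ => ?_
  rw [MvPolynomial.aeval_monomial]
  by_cases hd : d = 0
  · subst hd
    refine Ideal.mul_mem_right _ _ (hm _ ?_)
    rcases Nat.eq_zero_or_pos N with hN | hN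
    · rw [MvPowerSeries.coeff_truncTotal_eq_zero _ (by simp [hN])]
      exact zero_mem _
    · rw [MvPowerSeries.coeff_truncTotal _ (by simpa using hN),
        MvPowerSeries.coeff_zero_eq_constantCoeff_apply]
      exact mem_maximalIdeal_powerSeries.mp hf
  · refine Ideal.mul_mem_left _ _ ?_
    obtain ⟨s, hs⟩ : ∃ s, d s ≠ 0 := by
      by_contra hcon
      push Not at hcon
      exact hd (Finsupp.ext hcon)
    rw [Finsupp.prod]
    exact I.mem_of_dvd (Finset.dvd_prod_of_mem _ (Finsupp.mem_support_iff.mpr hs))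
      (Ideal.pow_mem_of_mem _ (hx s) _ (Nat.pos_of_ne_zero hs))

end nil

variable {𝒪 : Type} [CommRing 𝒪]

/-! ### Coordinates of a component with given parameters -/

/-- Coordinates of a component type at a line coordinate and three parameters. -/
def LocalDatum.compCoord (D : LocalDatum 𝒪) {A : Type*} [CommRing A] [Algebra 𝒪 A]
    (c : CompType 𝒪) (l : A) (u : Fin 3 → A) : Fin 8 → A :=
  match c with
  | .ur => D.urCoord (u 0) (u 1) (u 2)
  | .st ε => D.stCoord ε
      (match D.base with | .scalar _ => l | .companion _ => algebraMap 𝒪 A (-ε) + u 0) (u 1) (u 2)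
  | .stUr ε => D.stCoord ε
      (match D.base with | .scalar _ => l | .companion _ => algebraMap 𝒪 A (-ε) + u 0) 0 (u 2)

theorem LocalDatum.compCoord_map (D : LocalDatum 𝒪) {A B : Type*} [CommRing A] [Algebra 𝒪 A]
    [CommRing B] [Algebra 𝒪 B] (f : A →ₐ[𝒪] B) (c : CompType 𝒪) (l : A) (u : Fin 3 → A)
    (hu : c = CompType.ur → IsUnit (D.urDen (u 0) (u 1))) (k : Fin 8) :
    f (D.compCoord c l u k) = D.compCoord c (f l) (fun j => f (u j)) k := by
  unfold LocalDatum.compCoord
  cases c with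
  | ur => exact D.urCoord_map f _ _ _ (hu rfl) k
  | st ε => cases hb : D.base <;> simp [D.stCoord_map ε f]
  | stUr ε => cases hb : D.base <;> simp [D.stCoord_map ε f]

/-- The parameters of an unramified point. -/
def LocalDatum.urPar (D : LocalDatum 𝒪) {A : Type*} (v : Fin 8 → A) : Fin 3 → A :=
  match D.base with
  | .scalar _ => ![v 0, v 1, v 2]
  | .companion _ => ![v 0, v 2, v 3]

theorem LocalDatum.urCoord_of_det (D : LocalDatum 𝒪) {A : Type*} [CommRing A] [Algebra 𝒪 A]
    {v : Fin 8 → A} (h4 : v 4 = 0) (h5 : v 5 = 0) (h6 : v 6 = 0) (h7 : v 7 = 0)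
    (hdet : (D.phiMat v).det = (D.q : A)) (hu : IsUnit (D.urDen (D.urPar v 0) (D.urPar v 1)))
    (k : Fin 8) : D.urCoord (D.urPar v 0) (D.urPar v 1) (D.urPar v 2) k = v k := by
  have hinv := Ring.mul_inverse_cancel _ hu
  unfold LocalDatum.urDen at hinv hu
  rw [det_fin_two] at hdet
  unfold LocalDatum.urCoord
  unfold LocalDatum.urPar at hinv hu ⊢
  unfold LocalDatum.phiMat LocalDatum.baseMat at hdet
  cases hb : D.base with
  | scalar φ =>
    simp only [hb] at hinv hu hdet ⊢
    simp at hinv hu hdet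
    fin_cases k <;> simp [h4, h5, h6, h7]
    refine sub_eq_iff_eq_add.mpr ((hu.mul_right_inj).mp ?_)
    linear_combination ((D.q : A) + v 1 * v 2) * hinv - hdet
  | companion T =>
    simp only [hb] at hinv hu hdet ⊢
    simp at hinv hu hdet
    fin_cases k <;> simp [h4, h5, h6, h7]
    refine (hu.mul_right_inj).mp ?_
    linear_combination (v 0 * (algebraMap 𝒪 A T + v 3) - (D.q : A)) * hinv + hdet

variable [IsLocalRing 𝒪] {ι X : Type} [Finite ι] [Finite X]

theorem isUnit_urDen_of_mem (D : LocalDatum 𝒪) {W : Type*} [CommRing W] [Algebra 𝒪 W]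
    {I : Ideal W} {N : ℕ} (hI : I ^ N = ⊥) {x y : W} (hx : x ∈ I) (hy : y ∈ I) :
    IsUnit (D.urDen x y) := by
  have hnil : ∀ {z : W}, z ∈ I → IsNilpotent z := fun {z} hz =>
    ⟨N, Ideal.mem_bot.mp (hI ▸ Ideal.pow_mem_pow hz N)⟩
  unfold LocalDatum.urDen
  cases hb : D.base with
  | scalar φ =>
    refine IsNilpotent.isUnit_add_left_of_commute (hnil hx) ?_ (Commute.all _ _)
    exact (isUnit_of_mul_isUnit_left ((D.scalar_sq φ hb).symm ▸ D.isUnit_q)).map _
  | companion T => exact IsNilpotent.isUnit_one_add (hnil hy)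

variable (D : ι → LocalDatum 𝒪) (c : ι → CompType 𝒪)

theorem chartCoord_eq (i : ι) (k : Fin 8) :
    chartCoord (X := X) D c i k =
      (D i).compCoord (A := Chart 𝒪 ι X) (c i) (MvPolynomial.X i) (fun j => cpar D c i j) k := by
  unfold chartCoord LocalDatum.compCoord lineVar
  cases hk : c i with
  | ur =>
    exact (D i).urCoord_map (IsScalarTower.toAlgHom 𝒪 (Small 𝒪 ι X) (Chart 𝒪 ι X)) _ _ _
      (isUnit_urDen D c i) k
  | st ε => rfl
  | stUr ε => rfl

variable [IsAdicComplete (maximalIdeal 𝒪) 𝒪] (hc : ∀ i, (c i).OK (D i))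

/-- **Point lemma in coordinates.** -/
theorem eq_zero_of_point {W : Type} [CommRing W] [Algebra 𝒪 W] {I : Ideal W} {N : ℕ}
    (hI : I ^ N = ⊥) (hm : ∀ a ∈ maximalIdeal 𝒪, algebraMap 𝒪 W a ∈ I) (l : ι → W)
    (u : ι → Fin 3 → W) (hu : ∀ i j, u i j ∈ I)
    (hu0 : ∀ i j, (D i).free (c i) j = false → u i j = 0) (x : X → W) (hx : ∀ t, x t ∈ I)
    (F : MvPowerSeries (LocVar ι X) 𝒪 →ₐ[𝒪] W)
    (hF : ∀ i k, F (locCoord i k) = (D i).compCoord (c i) (l i) (u i) k)
    (hFx : ∀ t, F (MvPowerSeries.X (Sum.inr t)) = x t)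
    {f : MvPowerSeries (LocVar ι X) 𝒪} (hf : f ∈ compKer D c hc) : F f = 0 := by
  have hy : ∀ s : SmallVar ι X, Sum.elim x (fun ij : ι × Fin 3 => u ij.1 ij.2) s ∈ I := by
    rintro (t | ⟨i, j⟩)
    · exact hx t
    · exact hu i j
  set ψ := evalNil (𝒪 := 𝒪) hI (Sum.elim x (fun ij : ι × Fin 3 => u ij.1 ij.2)) hy with hψ
  have hpar : ∀ i j, MvPolynomial.aevalTower ψ l (cpar (X := X) D c i j) = u i j := by
    intro i j
    rw [cpar, MvPolynomial.aevalTower_C, spar]
    split
    · rw [hψ, evalNil_X]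
      rfl
    · rename_i hfree
      rw [map_zero, hu0 i j (Bool.eq_false_iff.mpr hfree)]
  refine eq_zero_of_mem_compKer D c hc hI ψ (fun a ha => evalNil_mem hI _ hy hm ha) l F ?_ hf
  rintro (⟨i, k⟩ | t)
  · show F (locCoord i k) = MvPolynomial.aevalTower ψ l (chartCoord D c i k)
    rw [hF, chartCoord_eq]
    have hden : c i = CompType.ur →
        IsUnit ((D i).urDen (cpar (X := X) D c i 0) (cpar D c i 1)) := fun _ => by
      have := (isUnit_urDen (X := X) D c i).map
        (IsScalarTower.toAlgHom 𝒪 (Small 𝒪 ι X) (Chart 𝒪 ι X))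
      unfold LocalDatum.urDen at this ⊢
      cases hb : (D i).base <;> simp only [hb] at this ⊢ <;> simpa [cpar] using this
    rw [LocalDatum.compCoord_map (A := Chart 𝒪 ι X) (D i) (MvPolynomial.aevalTower ψ l) _ _ _ hden,
      MvPolynomial.aevalTower_X]
    simp only [hpar]
  · show _ = MvPolynomial.aevalTower ψ l (MvPolynomial.C (MvPowerSeries.X (Sum.inl t)))
    rw [MvPolynomial.aevalTower_C, hψ, evalNil_X]
    exact hFx t

/-- **Universal point.** To lie in a component it suffices to vanish at the universal points. -/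
theorem mem_compKer_of_forall {f : MvPowerSeries (LocVar ι X) 𝒪}
    (h : ∀ N, ∃ (W : Type) (_ : CommRing W) (_ : Algebra 𝒪 W) (ρ : Chart 𝒪 ι X →ₐ[𝒪] W),
      (∀ G, ρ G = 0 → G ∈ chartIdeal 𝒪 ι X N) ∧
      ∃ F : MvPowerSeries (LocVar ι X) 𝒪 →ₐ[𝒪] W,
        (∀ j, F (MvPowerSeries.X j) = ρ (chartVar D c j)) ∧
        F (f - (MvPowerSeries.truncTotal N f : MvPowerSeries (LocVar ι X) 𝒪)) = 0 ∧ F f = 0) :
    f ∈ compKer D c hc := by
  refine (mem_compKer_iff D c hc).mpr fun N => ?_
  obtain ⟨W, _, _, ρ, hρ, F, hF, h1, h2⟩ := h N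
  refine hρ _ ?_
  have hcomp : F.comp (MvPolynomial.coeToMvPowerSeries.algHom 𝒪) =
      ρ.comp (MvPolynomial.aeval (chartVar D c)) :=
    MvPolynomial.algHom_ext fun j => by simpa using hF j
  have h3 : F (MvPowerSeries.truncTotal N f : MvPowerSeries (LocVar ι X) 𝒪) =
      ρ (approx D c N f) := by
    simpa [approx] using DFunLike.congr_fun hcomp (MvPowerSeries.truncTotal N f)
  rwa [map_sub, h2, h3, zero_sub, neg_eq_zero] at h1

/-- The exchange of the two lines on the eight coordinates. -/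
def swapIdx : Fin 8 → Fin 8 := ![3, 2, 1, 0, 7, 6, 5, 4]

theorem swapIdx_swapIdx (k : Fin 8) : swapIdx (swapIdx k) = k := by
  fin_cases k <;> rfl

/-- The exchange of the lines at a set of primes. -/
def swapVar (s : ι → Bool) : LocVar ι X → LocVar ι X :=
  Sum.elim (fun ik => Sum.inl (ik.1, if s ik.1 then swapIdx ik.2 else ik.2)) Sum.inr

theorem swapVar_swapVar (s : ι → Bool) (j : LocVar ι X) : swapVar s (swapVar s j) = j := by
  rcases j with ⟨i, k⟩ | t
  · by_cases h : s i <;> simp [swapVar, h, swapIdx_swapIdx]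
  · rfl

/-- The automorphism exchanging the lines at a set of primes. -/
def swapHom (s : ι → Bool) :
    MvPowerSeries (LocVar ι X) 𝒪 →ₐ[𝒪] MvPowerSeries (LocVar ι X) 𝒪 :=
  have : IsAdicComplete (maximalIdeal (MvPowerSeries (LocVar ι X) 𝒪))
      (MvPowerSeries (LocVar ι X) 𝒪) := isAdicComplete_powerSeries
  psEval (fun j => MvPowerSeries.X (swapVar s j))
    (fun _ => span_X_le_maximalIdeal (Ideal.subset_span ⟨_, rfl⟩))

theorem swapHom_X (s : ι → Bool) (j : LocVar ι X) :
    swapHom (𝒪 := 𝒪) s (MvPowerSeries.X j) = MvPowerSeries.X (swapVar s j) := by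
  have := isAdicComplete_powerSeries (σ := LocVar ι X) (𝒪 := 𝒪)
  exact psEval_X _ _ j

theorem swapHom_swapHom (s : ι → Bool) (f : MvPowerSeries (LocVar ι X) 𝒪) :
    swapHom s (swapHom s f) = f := by
  have : IsAdicComplete (maximalIdeal (MvPowerSeries (LocVar ι X) 𝒪))
      (MvPowerSeries (LocVar ι X) 𝒪) := isAdicComplete_powerSeries
  have h : (swapHom (X := X) (𝒪 := 𝒪) s).comp (swapHom s) = AlgHom.id 𝒪 _ :=
    powerSeries_algHom_ext
      (fun j => by rw [AlgHom.comp_apply, swapHom_X, swapHom_X, swapVar_swapVar, AlgHom.id_apply])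
      (fun j => by
        rw [AlgHom.comp_apply, swapHom_X, swapHom_X, swapVar_swapVar]
        exact span_X_le_maximalIdeal (Ideal.subset_span ⟨_, rfl⟩))
  exact DFunLike.congr_fun h f

end FLTAgent.RT
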