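import Fermat.Agent.RT.LocalSwap
import Fermat.Agent.RT.LocalLine
import Mathlib.RingTheory.Valuation.LocalSubring

/-!
# Every characteristic zero prime contains a component
-/

set_option autoImplicit false
set_option linter.unusedSectionVars false

noncomputable section

open IsLocalRing Matrix FLTAgent.Deformation

namespace FLTAgent.RT

variable {𝒪 : Type} [CommRing 𝒪] [IsLocalRing 𝒪] {ι X : Type} [Finite ι] [Finite X]
variable [IsAdicComplete (maximalIdeal 𝒪) 𝒪]

local instance : IsAdicComplete (maximalIdeal (Small 𝒪 ι X)) (Small 𝒪 ι X) :=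
  isAdicComplete_powerSeries

local instance : IsAdicComplete (maximalIdeal (Model 𝒪 ι X)) (Model 𝒪 ι X) :=
  isAdicComplete_powerSeries

/-- The universal ramified or unramified coordinates at a point, as elements of the model. -/
theorem toModel_locCoord (D : ι → LocalDatum 𝒪) (c : ι → CompType 𝒪)
    (hc : ∀ i, (c i).OK (D i)) (i : ι) (k : Fin 8) :
    toModel (X := X) D c hc (locCoord i k) = chartToModel (chartCoord D c i k) := by
  rw [toModel, locCoord, psEval_X]
  rfl

variable [IsNoetherianRing 𝒪]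

/-- **A point with finite line coordinates kills its component.** -/
theorem eq_zero_of_domain_point (D : ι → LocalDatum 𝒪) (c : ι → CompType 𝒪)
    (hc : ∀ i, (c i).OK (D i)) {V : Type} [CommRing V] [IsDomain V] [IsLocalRing V] [Algebra 𝒪 V]
    (G : MvPowerSeries (LocVar ι X) 𝒪 →ₐ[𝒪] V)
    (hm : ∀ a ∈ maximalIdeal 𝒪, algebraMap 𝒪 V a ∈ maximalIdeal V)
    (hG : ∀ j, G (MvPowerSeries.X j) ∈ maximalIdeal V) (l : ι → V) (u : ι → Fin 3 → V)
    (hu : ∀ i j, u i j ∈ maximalIdeal V ∧ u i j ∈ (MvPolynomial.eval₂Hom G.toRingHom l).range)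
    (hu0 : ∀ i j, (D i).free (c i) j = false → u i j = 0)
    (hpt : ∀ i k, G (locCoord i k) = (D i).compCoord (c i) (l i) (u i) k)
    {f : MvPowerSeries (LocVar ι X) 𝒪} (hf : f ∈ compKer D c hc) : G f = 0 := by
  let S₀ : Subalgebra 𝒪 V :=
    { (MvPolynomial.eval₂Hom G.toRingHom l).range.toSubsemiring with
      algebraMap_mem' := fun a => ⟨MvPolynomial.C (algebraMap 𝒪 _ a), by
        rw [MvPolynomial.eval₂Hom_C]
        exact G.commutes a⟩ }
  have : IsNoetherianRing S₀ :=
    isNoetherianRing_range (MvPolynomial.eval₂Hom G.toRingHom l)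
  have hGS : ∀ r, G r ∈ S₀ := fun r => ⟨MvPolynomial.C r, MvPolynomial.eval₂Hom_C _ _ r⟩
  let G₀ : MvPowerSeries (LocVar ι X) 𝒪 →ₐ[𝒪] S₀ := G.codRestrict S₀ hGS
  let J : Ideal S₀ := (maximalIdeal V).comap S₀.val
  have hJ : J ≠ ⊤ := by
    rw [Ne, Ideal.eq_top_iff_one, Ideal.mem_comap, map_one, ← Ideal.eq_top_iff_one]
    exact (maximalIdeal.isMaximal V).ne_top
  suffices h : ∀ N, G₀ f ∈ J ^ N by
    have h0 : G₀ f ∈ (⨅ N : ℕ, J ^ N) := Submodule.mem_iInf _ |>.mpr h
    have h1 : G₀ f ∈ (⊥ : Ideal S₀) := (Ideal.iInf_pow_eq_bot_of_isDomain J hJ).le h0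
    exact congrArg Subtype.val (Ideal.mem_bot.mp h1)
  intro N
  let π : S₀ →ₐ[𝒪] S₀ ⧸ J ^ N := Ideal.Quotient.mkₐ 𝒪 (J ^ N)
  rw [← Ideal.Quotient.eq_zero_iff_mem]
  show π (G₀ f) = 0
  have hI : (J.map (π : S₀ →+* S₀ ⧸ J ^ N)) ^ N = ⊥ := by
    rw [← Ideal.map_pow, Ideal.map_eq_bot_iff_le_ker]
    intro x hx
    exact Ideal.Quotient.eq_zero_iff_mem.mpr hx
  have huS : ∀ i j, u i j ∈ S₀ := fun i j => (hu i j).2
  have hlS : ∀ i, l i ∈ S₀ := fun i => ⟨MvPolynomial.X i, MvPolynomial.eval₂Hom_X' _ _ i⟩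
  let u₀ : ι → Fin 3 → S₀ ⧸ J ^ N := fun i j => π ⟨u i j, huS i j⟩
  have hu₀ : ∀ i j, u₀ i j ∈ J.map (π : S₀ →+* S₀ ⧸ J ^ N) := fun i j =>
    Ideal.mem_map_of_mem _ (show (⟨u i j, huS i j⟩ : S₀) ∈ J from (hu i j).1)
  refine eq_zero_of_point D c hc hI (fun a ha => ?_) (fun i => π ⟨l i, hlS i⟩) u₀ hu₀
    (fun i j hj => (congrArg π (Subtype.val_injective (hu0 i j hj) : (⟨u i j, huS i j⟩ : S₀) = 0)).trans
      (map_zero π))
    (fun t => π (G₀ (MvPowerSeries.X (Sum.inr t))))
    (fun t => Ideal.mem_map_of_mem _ (show G₀ _ ∈ J from hG _)) (π.comp G₀) (fun i k => ?_)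
    (fun t => rfl) hf
  · rw [← π.commutes]
    exact Ideal.mem_map_of_mem _ (show algebraMap 𝒪 S₀ a ∈ J from hm a ha)
  · -- compare inside `V`, where `S₀` embeds; the unramified case uses the determinant equation
    show π (G₀ (locCoord i k)) = _
    cases hk : c i with
    | ur =>
      have hrel : (D i).phiMat (fun k => G (locCoord i k)) =
          (D i).phiMat ((D i).compCoord (c i) (l i) (u i)) := by
        rw [funext (hpt i)]
      have hU : IsUnit ((D i).urDen (u i 0) (u i 1)) := by
        unfold LocalDatum.urDen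
        cases hb : (D i).base with
        | scalar φ =>
          by_contra hcon
          refine (IsLocalRing.mem_maximalIdeal _).mp ?_
            ((isUnit_of_mul_isUnit_left (((D i).scalar_sq φ hb).symm ▸ (D i).isUnit_q)).map
              (algebraMap 𝒪 V))
          simpa using (maximalIdeal V).sub_mem ((IsLocalRing.mem_maximalIdeal _).mpr hcon) (hu i 0).1
        | companion T =>
          by_contra hcon
          refine (IsLocalRing.mem_maximalIdeal (1 : V)).mp ?_ isUnit_one
          simpa using (maximalIdeal V).sub_mem ((IsLocalRing.mem_maximalIdeal _).mpr hcon) (hu i 1).1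
      have hdetV : ((D i).phiMat fun k => G (locCoord i k)).det = ((D i).q : V) := by
        rw [hrel, hk]
        exact ((D i).urCoord_rel _ _ _ hU).det_phi
      have hdet : ((D i).phiMat fun k => π (G₀ (locCoord i k))).det = ((D i).q : S₀ ⧸ J ^ N) := by
        have h1 : ((D i).phiMat fun k => G₀ (locCoord i k)).det = ((D i).q : S₀) := by
          refine Subtype.val_injective ?_
          show S₀.val ((D i).phiMat fun k => G₀ (locCoord i k)).det = S₀.val ((D i).q : S₀)
          rw [AlgHom.map_det, AlgHom.mapMatrix_apply, LocalDatum.phiMat_map, map_natCast]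
          exact hdetV
        rw [← LocalDatum.phiMat_map, ← AlgHom.mapMatrix_apply, ← AlgHom.map_det, h1, map_natCast]
      have hzero : ∀ k, G (locCoord i k) = 0 → π (G₀ (locCoord i k)) = 0 := fun k h => by
        rw [show G₀ (locCoord i k) = 0 from Subtype.val_injective h, map_zero]
      have hin : ∀ k, π (G₀ (locCoord i k)) ∈ J.map (π : S₀ →+* S₀ ⧸ J ^ N) := fun k =>
        Ideal.mem_map_of_mem _ (show G₀ _ ∈ J from hG _)
      obtain ⟨h4, h5, h6, h7⟩ := compCoord_inertia (D i) (Or.inl hk) (l i) (u i)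
      obtain ⟨-, heq⟩ := exists_ur_point (D i) hI (v := fun k => π (G₀ (locCoord i k))) hin
        (hzero 4 (by rw [hpt, h4])) (hzero 5 (by rw [hpt, h5])) (hzero 6 (by rw [hpt, h6]))
        (hzero 7 (by rw [hpt, h7])) hdet
      have hpar : (D i).urPar (fun k => π (G₀ (locCoord i k))) = u₀ i := by
        funext j
        have hj : (D i).urPar (fun k => G (locCoord i k)) j = u i j := by
          have := funext (hpt i)
          rw [this, hk]
          unfold LocalDatum.urPar LocalDatum.compCoord LocalDatum.urCoord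
          cases hb : (D i).base <;> fin_cases j <;> simp [hb]
        show _ = π ⟨u i j, huS i j⟩
        unfold LocalDatum.urPar at hj ⊢
        cases hb : (D i).base <;> simp only [hb] at hj ⊢ <;> fin_cases j <;>
          exact congrArg π (Subtype.val_injective hj)
      rw [← hpar]
      exact (heq _ k).symm
    | st ε =>
      have h1 : G₀ (locCoord i k) =
          (D i).compCoord (c i) (⟨l i, hlS i⟩ : S₀) (fun j => ⟨u i j, huS i j⟩) k := by
        refine Subtype.val_injective ?_
        show S₀.val (G₀ (locCoord i k)) = S₀.val _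
        rw [(D i).compCoord_map S₀.val _ _ _ (fun h => by rw [hk] at h; simp at h)]
        exact hpt i k
      rw [h1, (D i).compCoord_map π _ _ _ (fun h => by rw [hk] at h; simp at h), hk]
    | stUr ε =>
      have h1 : G₀ (locCoord i k) =
          (D i).compCoord (c i) (⟨l i, hlS i⟩ : S₀) (fun j => ⟨u i j, huS i j⟩) k := by
        refine Subtype.val_injective ?_
        show S₀.val (G₀ (locCoord i k)) = S₀.val _
        rw [(D i).compCoord_map S₀.val _ _ _ (fun h => by rw [hk] at h; simp at h)]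
        exact hpt i k
      rw [h1, (D i).compCoord_map π _ _ _ (fun h => by rw [hk] at h; simp at h), hk]

/-- The component and the chart at a point of a valuation ring. -/
theorem exists_local_data (D₀ : LocalDatum 𝒪) {V : Type} [CommRing V] [IsDomain V]
    [ValuationRing V] [Algebra 𝒪 V] [IsLocalHom (algebraMap 𝒪 V)] (v : Fin 8 → V)
    (hvm : ∀ k, v k ∈ maximalIdeal V) (hrel : D₀.Rel 2 v) (hnorm : D₀.IsNorm v) :
    ∃ (ci : CompType 𝒪) (si : Bool) (li : V) (ui : Fin 3 → V),
      ci.OK D₀ ∧ (si = true → ∃ φ, D₀.base = LocalBase.scalar φ) ∧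
      (∀ j, ui j ∈ maximalIdeal V ∧
        (ui j = 0 ∨ (∃ (k : Fin 8) (a : 𝒪), ui j = algebraMap 𝒪 V a * v k) ∨
          ∃ a : 𝒪, ui j = li + algebraMap 𝒪 V a)) ∧
      (∀ j, D₀.free ci j = false → ui j = 0) ∧
      (∀ k, v (if si then swapIdx k else k) = D₀.compCoord ci li ui k) ∧
      ((ci = CompType.ur ∧ ∀ k : Fin 8, 4 ≤ k → v k = 0) ∨
        ∃ ε, ci = CompType.st ε ∧ (ε = 1 ∨ ε = -1) ∧ (∃ k : Fin 8, 4 ≤ k ∧ v k ≠ 0) ∧
          (D₀.phiMat v).trace = algebraMap 𝒪 V ε * ((D₀.q : V) + 1)) := by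
  obtain ⟨hh, hnull, -⟩ := hrel.eqns
  by_cases h0 : v 4 = 0 ∧ v 5 = 0 ∧ v 6 = 0 ∧ v 7 = 0
  · obtain ⟨h4, h5, h6, h7⟩ := h0
    refine ⟨.ur, false, 0, D₀.urPar v, trivial, by simp, fun j => ⟨?_, Or.inr (Or.inl ?_)⟩,
      fun j hj => ?_, fun k => ?_, Or.inl ⟨rfl, fun k hk => ?_⟩⟩
    · unfold LocalDatum.urPar; cases D₀.base <;> fin_cases j <;> exact hvm _
    · unfold LocalDatum.urPar
      cases D₀.base <;> fin_cases j <;> exact ⟨_, 1, by rw [map_one, one_mul]; rfl⟩
    · unfold LocalDatum.free at hj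
      unfold LocalDatum.urPar
      cases hb : D₀.base with
      | scalar φ => simp [hb] at hj
      | companion T =>
        obtain ⟨hn0, hn2⟩ := hnorm T hb
        fin_cases j <;> simp [hb, hn0, hn2] at hj ⊢
    · simp only [if_neg Bool.false_ne_true]
      refine (D₀.urCoord_of_det h4 h5 h6 h7 hrel.det_phi ?_ k).symm
      have hb' : ∀ {a m : V}, IsUnit a → m ∈ maximalIdeal V → IsUnit (a + m) := by
        intro a m ha hm
        by_contra hcon
        have : a ∈ maximalIdeal V := by
          simpa using (maximalIdeal V).sub_mem ((IsLocalRing.mem_maximalIdeal _).mpr hcon) hm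
        exact (IsLocalRing.mem_maximalIdeal _).mp this ha
      unfold LocalDatum.urDen LocalDatum.urPar
      cases hb : D₀.base with
      | scalar φ =>
        exact hb' ((isUnit_of_mul_isUnit_left ((D₀.scalar_sq φ hb).symm ▸ D₀.isUnit_q)).map
          (algebraMap 𝒪 V)) (hvm 0)
      | companion T => exact hb' isUnit_one (hvm 2)
    · fin_cases k <;> first | exact absurd hk (by decide) | assumption
  · have hne : ∃ k : Fin 8, 4 ≤ k ∧ v k ≠ 0 := by
      by_contra hcon
      push Not at hcon
      exact h0 ⟨hcon 4 le_rfl, hcon 5 (by decide), hcon 6 (by decide), hcon 7 (by decide)⟩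
    -- the line, possibly after exchanging the two lines
    have hline : ∃ (si : Bool) (li : V), (si = true → ∃ φ, D₀.base = LocalBase.scalar φ) ∧
        v (if si then swapIdx 5 else 5) ≠ 0 ∧
        v (if si then swapIdx 4 else 4) + li * v (if si then swapIdx 5 else 5) = 0 := by
      cases hb : D₀.base with
      | companion T =>
        obtain ⟨hf, li, hli⟩ := D₀.exists_line_companion hb hvm hrel h0
        exact ⟨false, li, by simp, by simpa using hf, by simpa using hli⟩
      | scalar φ =>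
        by_cases hdiv : v 5 ≠ 0 ∧ v 5 ∣ v 4
        · obtain ⟨hf, c₀, hc₀⟩ := hdiv
          exact ⟨false, -c₀, by simp, by simpa using hf, by simp [hc₀, mul_comm]⟩
        · have hg : v 6 ≠ 0 := by
            intro hg
            have he : v 4 = 0 := mul_self_eq_zero.mp (by linear_combination hnull - v 5 * hg)
            refine hdiv ⟨fun hf => h0 ⟨he, hf, hg, by rw [hh, he, neg_zero]⟩, ?_⟩
            rw [he]; exact dvd_zero _
          have h6 : v 6 ∣ v 7 := by
            rw [hh, dvd_neg]
            by_cases hf : v 5 = 0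
            · have he : v 4 = 0 := mul_self_eq_zero.mp (by linear_combination hnull - v 6 * hf)
              rw [he]; exact dvd_zero _
            · obtain ⟨r, hr⟩ := (ValuationRing.dvd_total (v 4) (v 5)).resolve_right
                (fun h => hdiv ⟨hf, h⟩)
              refine ⟨-r, ?_⟩
              have he : v 4 ≠ 0 := fun he => hf (by rw [hr, he, zero_mul])
              refine mul_left_cancel₀ he ?_
              linear_combination hnull - v 6 * hr
          obtain ⟨c₀, hc₀⟩ := h6
          refine ⟨true, -c₀, fun _ => ⟨φ, rfl⟩, by simpa [swapIdx] using hg, ?_⟩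
          simp [swapIdx]
          linear_combination hc₀
    obtain ⟨si, li, hsi, hf, hli⟩ := hline
    have hwrel : D₀.Rel 2 fun k => v (if si then swapIdx k else k) := by
      cases si with
      | false => exact hrel
      | true => obtain ⟨φ, hb⟩ := hsi rfl; exact hrel.swap hb
    obtain ⟨ε, hε, hOK, hcomp, hst⟩ := D₀.exists_sign_of_line
      (v := fun k => v (if si then swapIdx k else k)) (fun k => hvm _) hwrel hf hli
    have hεε : ε * ε = 1 := by rcases hε with rfl | rfl <;> norm_num
    refine ⟨.st ε, si, li,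
      ![match D₀.base with | .scalar _ => 0 | .companion _ => li + algebraMap 𝒪 V ε,
        v (if si then swapIdx 5 else 5), algebraMap 𝒪 V ε * v (if si then swapIdx 1 else 1)],
      hOK, hsi, fun j => ?_, fun j hj => ?_, fun k => ?_, Or.inr ⟨ε, rfl, hε, hne, ?_⟩⟩
    · fin_cases j
      · cases hb : D₀.base with
        | scalar φ => simp
        | companion T => exact ⟨by simpa using hcomp T hb, Or.inr (Or.inr ⟨ε, by simp⟩)⟩
      · exact ⟨hvm _, Or.inr (Or.inl ⟨_, 1, by rw [map_one, one_mul]; rfl⟩)⟩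
      · exact ⟨Ideal.mul_mem_left _ _ (hvm _), Or.inr (Or.inl ⟨_, ε, rfl⟩)⟩
    · unfold LocalDatum.free at hj
      cases hb : D₀.base with
      | scalar φ => simp [hb] at hj
      | companion T =>
        cases si with
        | true => obtain ⟨φ, hφ⟩ := hsi rfl; rw [hb] at hφ; cases hφ
        | false =>
          obtain ⟨hn0, hn2⟩ := hnorm T hb
          have hv1 : v 1 = 0 := by
            have hd := hrel.det_phi
            rw [det_fin_two] at hd
            simp [LocalDatum.phiMat, LocalDatum.baseMat, hb, hn0, hn2] at hd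
            linear_combination hd
          have hlam : li + algebraMap 𝒪 V ε = 0 := by
            have h0 := hst 0
            simp [LocalDatum.stCoord, LocalDatum.m0, LocalDatum.baseMat, hb, hv1, hn0] at h0
            have hqu : IsUnit (D₀.q : V) := by simpa using D₀.isUnit_q.map (algebraMap 𝒪 V)
            have he : algebraMap 𝒪 V ε * algebraMap 𝒪 V ε = 1 := by
              rw [← map_mul, hεε, map_one]
            first
              | exact hqu.mul_right_eq_zero.mp (by linear_combination -h0 - li * (D₀.q : V) * he)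
              | (rcases h0 with h | h
                 · rw [h] at he; simp at he
                 · exact hqu.mul_right_eq_zero.mp (by
                    linear_combination (algebraMap 𝒪 V ε) * h - (D₀.q : V) * li * he))
          fin_cases j
          · simpa [hb] using hlam
          · simp [hb] at hj
          · simp [hv1]
    · rw [hst k]
      unfold LocalDatum.compCoord
      cases hb : D₀.base with
      | scalar φ => rfl
      | companion T => simp
    · have htw : (D₀.phiMat v).trace =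
          (D₀.phiMat fun k => v (if si then swapIdx k else k)).trace := by
        cases si with
        | false => rfl
        | true =>
          obtain ⟨φ, hb⟩ := hsi rfl
          simp [LocalDatum.phiMat, LocalDatum.baseMat, hb, swapIdx, trace_fin_two]
          ring
      rw [htw, funext hst]
      exact D₀.trace_stCoord hεε _ _ _

/-- **Decomposition.** A prime in which the relations hold and which does not contain the
maximal ideal of `𝒪` contains a component, chosen by the inertia coordinates. -/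
theorem exists_compKer_le (D : ι → LocalDatum 𝒪) (Q : Ideal (MvPowerSeries (LocVar ι X) 𝒪))
    [Q.IsPrime] (hrel : ∀ i, (D i).Rel 2 fun k => Ideal.Quotient.mk Q (locCoord i k))
    (hnorm : ∀ i, (D i).IsNorm fun k => Ideal.Quotient.mk Q (locCoord i k)) :
    ∃ (c : ι → CompType 𝒪) (hc : ∀ i, (c i).OK (D i)), compKer D c hc ≤ Q ∧
      ∀ i, (c i = CompType.ur ∧ ∀ k : Fin 8, 4 ≤ k → (locCoord i k : MvPowerSeries (LocVar ι X) 𝒪) ∈ Q) ∨
        ∃ ε, c i = CompType.st ε ∧ (ε = 1 ∨ ε = -1) ∧
          (∃ k : Fin 8, 4 ≤ k ∧ (locCoord i k : MvPowerSeries (LocVar ι X) 𝒪) ∉ Q) ∧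
          Ideal.Quotient.mk Q
            (((D i).phiMat fun k => (locCoord i k : MvPowerSeries (LocVar ι X) 𝒪)).trace -
              algebraMap 𝒪 _ ε * ((D i).q + 1)) = 0 := by
  classical
  let R := MvPowerSeries (LocVar ι X) 𝒪
  have : IsLocalRing (R ⧸ Q) := isLocalRing_quotient ‹Q.IsPrime›.ne_top
  let K := FractionRing (R ⧸ Q)
  obtain ⟨V, hVmem, hVloc⟩ := IsLocalRing.exists_factor_valuationRing (algebraMap (R ⧸ Q) K)
  let g : (R ⧸ Q) →+* V := (algebraMap (R ⧸ Q) K).codRestrict V.toSubring hVmem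
  have hgloc : IsLocalHom g := hVloc
  letI : Algebra 𝒪 V := (g.comp (algebraMap 𝒪 (R ⧸ Q))).toAlgebra
  let G : R →ₐ[𝒪] V :=
    ⟨g.comp (Ideal.Quotient.mk Q), fun a => by
      show g (Ideal.Quotient.mk Q (algebraMap 𝒪 R a)) = g (algebraMap 𝒪 (R ⧸ Q) a)
      rw [Ideal.Quotient.mk_algebraMap]⟩
  have hginj : ∀ x, g x = 0 → x = 0 := fun x hx => by
    have h : algebraMap (R ⧸ Q) K x = 0 := congrArg Subtype.val hx
    rwa [map_eq_zero_iff _ (IsFractionRing.injective (R ⧸ Q) K)] at h
  have hGQ : ∀ r, G r = 0 ↔ r ∈ Q := fun r => by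
    rw [← Ideal.Quotient.eq_zero_iff_mem]
    exact ⟨hginj _, fun h => by show g _ = 0; rw [h, map_zero]⟩
  have hGm : ∀ {r : R}, r ∈ maximalIdeal R → G r ∈ maximalIdeal V := fun {r} hr => by
    rw [IsLocalRing.mem_maximalIdeal, mem_nonunits_iff]
    intro hu
    have h1 : IsUnit (Ideal.Quotient.mk Q r) := hgloc.map_nonunit _ hu
    have h2 : Ideal.Quotient.mk Q r ∈ maximalIdeal (R ⧸ Q) := by
      rw [maximalIdeal_quotient_eq]; exact Ideal.mem_map_of_mem _ hr
    exact (IsLocalRing.mem_maximalIdeal _).mp h2 h1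
  have hGX : ∀ j, G (MvPowerSeries.X j) ∈ maximalIdeal V := fun j =>
    hGm (span_X_le_maximalIdeal (Ideal.subset_span ⟨j, rfl⟩))
  have hm : ∀ a ∈ maximalIdeal 𝒪, algebraMap 𝒪 V a ∈ maximalIdeal V := fun a ha => by
    rw [← G.commutes]
    refine hGm ?_
    rw [mem_maximalIdeal_powerSeries, constantCoeff_algebraMap]
    exact ha
  have : IsLocalHom (algebraMap 𝒪 V) := ⟨fun a ha => by
    by_contra hcon
    exact (IsLocalRing.mem_maximalIdeal _).mp (hm a ((IsLocalRing.mem_maximalIdeal _).mpr hcon)) ha⟩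
  have hrelV : ∀ i, (D i).Rel 2 fun k => G (locCoord i k) := fun i => by
    obtain ⟨h1, h2, h3, h4⟩ := hrel i
    exact (LocalDatum.Rel.map ⟨h1, h2, h3, h4⟩
      (⟨g, fun a => rfl⟩ : (R ⧸ Q) →ₐ[𝒪] V))
  -- the data at each prime
  have hdata : ∀ i, ∃ (ci : CompType 𝒪) (si : Bool) (li : V) (ui : Fin 3 → V),
      ci.OK (D i) ∧ (si = true → ∃ φ, (D i).base = LocalBase.scalar φ) ∧
      (∀ j, ui j ∈ maximalIdeal V ∧
        (ui j = 0 ∨ (∃ (k : Fin 8) (a : 𝒪), ui j = algebraMap 𝒪 V a * G (locCoord i k)) ∨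
          ∃ a : 𝒪, ui j = li + algebraMap 𝒪 V a)) ∧
      (∀ j, (D i).free ci j = false → ui j = 0) ∧
      (∀ k, G (locCoord i (if si then swapIdx k else k)) = (D i).compCoord ci li ui k) ∧
      ((ci = CompType.ur ∧ ∀ k : Fin 8, 4 ≤ k → (locCoord i k : R) ∈ Q) ∨
        ∃ ε, ci = CompType.st ε ∧ (ε = 1 ∨ ε = -1) ∧
          (∃ k : Fin 8, 4 ≤ k ∧ (locCoord i k : R) ∉ Q) ∧
          Ideal.Quotient.mk Q
            (((D i).phiMat fun k => (locCoord i k : R)).trace -
              algebraMap 𝒪 R ε * ((D i).q + 1)) = 0) := by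
    intro i
    obtain ⟨ci, si, li, ui, h1, h2, h3, h3', h4, h5⟩ := exists_local_data (D i)
      (fun k => G (locCoord i k)) (fun k => hGX _) (hrelV i) ((hnorm i).map g)
    refine ⟨ci, si, li, ui, h1, h2, h3, h3', h4, ?_⟩
    rcases h5 with ⟨h, hzero⟩ | ⟨ε, h, hε, hne, htr⟩
    · exact Or.inl ⟨h, fun k hk => (hGQ _).mp (hzero k hk)⟩
    · obtain ⟨k, hk, hk'⟩ := hne
      refine Or.inr ⟨ε, h, hε, ⟨k, hk, fun hQ => hk' ((hGQ _).mpr hQ)⟩, hginj _ ?_⟩
      show G _ = 0
      rw [map_sub, map_mul, G.commutes, map_add, map_one, map_natCast, sub_eq_zero, ← htr,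
        ← (D i).phiMat_map G]
      simp [trace_fin_two]
  choose c s l u hOK hs hu hu0 hpt hclass using hdata
  refine ⟨c, hOK, fun f hf => (hGQ f).mp ?_, hclass⟩
  have hsf : swapHom s f ∈ compKer D c hOK := swapHom_mem_compKer_self D hOK s hs hf
  have key : (G.comp (swapHom s)) (swapHom s f) = 0 := by
    refine eq_zero_of_domain_point D c hOK (G.comp (swapHom s)) hm (fun j => ?_) l u
      (fun i j => ⟨(hu i j).1, ?_⟩) hu0 (fun i k => ?_) hsf
    · rw [AlgHom.comp_apply, swapHom_X]; exact hGX _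
    · have hG' : ∀ r, G r ∈ (MvPolynomial.eval₂Hom (G.comp (swapHom s)).toRingHom l).range :=
        fun r => ⟨MvPolynomial.C (swapHom s r), by
          rw [MvPolynomial.eval₂Hom_C]
          show G (swapHom s (swapHom s r)) = G r
          rw [swapHom_swapHom]⟩
      rcases (hu i j).2 with h | ⟨k, a, h⟩ | ⟨a, h⟩
      · rw [h]; exact zero_mem _
      · rw [h, ← G.commutes, ← map_mul]; exact hG' _
      · rw [h, ← G.commutes]
        exact add_mem ⟨MvPolynomial.X i, MvPolynomial.eval₂Hom_X' _ _ i⟩ (hG' _)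
    · rw [← hpt i k, AlgHom.comp_apply, locCoord, swapHom_X]
      rfl
  rwa [AlgHom.comp_apply, swapHom_swapHom] at key

end FLTAgent.RT
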