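import Fermat.Agent.RT.LocalPoint
import Mathlib.RingTheory.Localization.Away.Basic

/-!
# Change of chart and inclusions of components

Both follow from the point lemma applied to the universal point of a component, after inverting
some of the line coordinates.
-/

set_option autoImplicit false
set_option linter.unusedSectionVars false

noncomputable section

open IsLocalRing Matrix FLTAgent.Deformation

namespace FLTAgent.RT

variable {𝒪 : Type} [CommRing 𝒪]

theorem LocalDatum.Rel.swap {D : LocalDatum 𝒪} {φ : 𝒪} (hb : D.base = LocalBase.scalar φ)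
    {t : 𝒪} {A : Type*} [CommRing A] [Algebra 𝒪 A] {v : Fin 8 → A} (h : D.Rel t v) :
    D.Rel t fun k => v (swapIdx k) := by
  set w : Matrix (Fin 2) (Fin 2) A := !![0, 1; 1, 0] with hw
  have hww : w * w = 1 := by
    ext i j; fin_cases i <;> fin_cases j <;> simp [hw]
  have hphi : D.phiMat (fun k => v (swapIdx k)) = w * D.phiMat v * w := by
    ext i j
    fin_cases i <;> fin_cases j <;>
      simp [hw, LocalDatum.phiMat, LocalDatum.baseMat, hb, swapIdx, Matrix.mul_apply,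
        Fin.sum_univ_two]
  have hs : sMat (fun k => v (swapIdx k)) = w * sMat v * w := by
    rw [sMat, sMat, mul_add, mul_one, add_mul, hww, add_right_inj]
    ext i j
    fin_cases i <;> fin_cases j <;> simp [hw, sMat, swapIdx, Matrix.mul_apply, Fin.sum_univ_two]
  have hpow : ∀ (M : Matrix (Fin 2) (Fin 2) A) (n : ℕ), (w * M * w) ^ n = w * M ^ n * w := by
    intro M n
    induction n with
    | zero => rw [pow_zero, pow_zero, mul_one, hww]
    | succ n ih =>
      rw [pow_succ, pow_succ, ih, mul_assoc (w * M ^ n) w, ← mul_assoc w (w * M) w,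
        ← mul_assoc w w M, hww, one_mul]
      simp only [mul_assoc]
  refine ⟨?_, ?_, ?_, ?_⟩
  · rw [hphi, det_mul, det_mul, mul_comm, ← mul_assoc, ← det_mul, hww, det_one, one_mul, h.det_phi]
  · rw [hphi, hs, hpow]
    calc w * D.phiMat v * w * (w * sMat v * w)
        = w * (D.phiMat v * (w * w) * sMat v) * w := by simp only [mul_assoc]
      _ = w * (sMat v ^ D.q * (w * w) * D.phiMat v) * w := by
          rw [hww, mul_one, mul_one, h.comm]
      _ = _ := by simp only [mul_assoc]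
  · rw [hs, trace_mul_cycle, hww, one_mul, h.trace_s]
  · rw [hs, det_mul, det_mul, mul_comm, ← mul_assoc, ← det_mul, hww, det_one, one_mul, h.det_s]

theorem LocalDatum.stCoord_swap (D : LocalDatum 𝒪) {φ : 𝒪} (hb : D.base = LocalBase.scalar φ)
    {ε : 𝒪} (hε : ε * ε = 1) {A : Type*} [CommRing A] [Algebra 𝒪 A] {l l' : A} (hl : l * l' = 1)
    (n m : A) (k : Fin 8) :
    D.stCoord ε l' (D.stCoord ε l n m 6) (algebraMap 𝒪 A ε * D.stCoord ε l n m 2) k =
      D.stCoord ε l n m (swapIdx k) := by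
  have he : algebraMap 𝒪 A ε * algebraMap 𝒪 A ε = 1 := by rw [← map_mul, hε, map_one]
  fin_cases k <;> simp [LocalDatum.stCoord, LocalDatum.m0, LocalDatum.baseMat, hb, swapIdx]
  · linear_combination
      (-(algebraMap 𝒪 A ε) * ((D.q : A) - 1 - l * m) * (l * l')) * he +
        (-(algebraMap 𝒪 A ε) * ((D.q : A) - 1 - l * m)) * hl
  · linear_combination (algebraMap 𝒪 A ε * l * ((D.q : A) - 1 - l * m)) * he
  · linear_combination
      (-(algebraMap 𝒪 A ε) * l' * ((D.q : A) - 1 - l * m) * (l * l')) * he +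
        (algebraMap 𝒪 A ε * m - algebraMap 𝒪 A ε * l' * ((D.q : A) - 1 - l * m)) * hl
  · linear_combination
      (algebraMap 𝒪 A ε * ((D.q : A) - 1 - l * m) * (l * l')) * he +
        (algebraMap 𝒪 A ε * ((D.q : A) - 1 - l * m)) * hl
  · linear_combination (l * n) * hl
  · linear_combination (n * (l * l' + 1)) * hl
  · linear_combination (l * n) * hl

/-- A quotient with one element inverted. -/
theorem exists_localization {A : Type} [CommRing A] [Algebra 𝒪 A] (J : Ideal A) (a : A) :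
    ∃ (W : Type) (_ : CommRing W) (_ : Algebra 𝒪 W) (ρ : A →ₐ[𝒪] W),
      (∀ G ∈ J, ρ G = 0) ∧ (∀ G, ρ G = 0 → ∃ k : ℕ, a ^ k * G ∈ J) ∧ IsUnit (ρ a) := by
  refine ⟨Localization.Away (Ideal.Quotient.mkₐ 𝒪 J a), inferInstance, inferInstance,
    (IsScalarTower.toAlgHom 𝒪 (A ⧸ J) _).comp (Ideal.Quotient.mkₐ 𝒪 J), fun G hG => ?_,
    fun G hG => ?_, ?_⟩
  · rw [AlgHom.comp_apply,
      show Ideal.Quotient.mkₐ 𝒪 J G = 0 from Ideal.Quotient.eq_zero_iff_mem.mpr hG, map_zero]
  · rw [AlgHom.comp_apply, IsScalarTower.toAlgHom_apply,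
      IsLocalization.map_eq_zero_iff (Submonoid.powers (Ideal.Quotient.mkₐ 𝒪 J a))] at hG
    obtain ⟨⟨_, k, rfl⟩, hk⟩ := hG
    refine ⟨k, Ideal.Quotient.eq_zero_iff_mem.mp ?_⟩
    rw [← Ideal.Quotient.mkₐ_eq_mk (R₁ := 𝒪), map_mul, map_pow]
    exact hk
  · exact IsLocalization.map_units _
      ⟨Ideal.Quotient.mkₐ 𝒪 J a, Submonoid.mem_powers _⟩

variable [IsLocalRing 𝒪] {ι X : Type} [Finite ι] [Finite X]
variable [IsAdicComplete (maximalIdeal 𝒪) 𝒪]

theorem chartIdeal_pow (N : ℕ) : chartIdeal 𝒪 ι X 1 ^ N = chartIdeal 𝒪 ι X N := by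
  rw [chartIdeal, chartIdeal, pow_one, Ideal.map_pow]

theorem map_chartIdeal_pow {W : Type} [CommRing W] [Algebra 𝒪 W] (ρ : Chart 𝒪 ι X →ₐ[𝒪] W) {N : ℕ}
    (hN : ∀ G ∈ chartIdeal 𝒪 ι X N, ρ G = 0) :
    (chartIdeal 𝒪 ι X 1).map (ρ : Chart 𝒪 ι X →+* W) ^ N = ⊥ := by
  rw [← Ideal.map_pow, chartIdeal_pow, Ideal.map_eq_bot_iff_le_ker]
  exact fun G hG => hN G hG

theorem mem_chartIdeal_of_monomial_mul {N : ℕ} (e : ι →₀ ℕ) {G : Chart 𝒪 ι X}
    (h : MvPolynomial.monomial e 1 * G ∈ chartIdeal 𝒪 ι X N) : G ∈ chartIdeal 𝒪 ι X N := by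
  refine MvPolynomial.mem_map_C_iff.mpr fun t => ?_
  have := MvPolynomial.mem_map_C_iff.mp h (e + t)
  rwa [MvPolynomial.coeff_monomial_mul, one_mul] at this

variable (D : ι → LocalDatum 𝒪) {c c' : ι → CompType 𝒪}

/-- The universal comparison: a point of the component `c` inside the universal point of `c'`. -/
theorem swapHom_mem_compKer (hc : ∀ i, (c i).OK (D i)) (hc' : ∀ i, (c' i).OK (D i))
    (s : ι → Bool) (e : ι →₀ ℕ)
    (hpt : ∀ (W : Type) [CommRing W] [Algebra 𝒪 W] (ρ : Chart 𝒪 ι X →ₐ[𝒪] W),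
      IsUnit (ρ (MvPolynomial.monomial e 1)) →
      (∃ N : ℕ, ∀ G ∈ chartIdeal 𝒪 ι X N, ρ G = 0) →
      ∀ i, ∃ (l : W) (u : Fin 3 → W),
        (∀ j, u j ∈ (chartIdeal 𝒪 ι X 1).map (ρ : Chart 𝒪 ι X →+* W)) ∧
        (∀ j, (D i).free (c i) j = false → u j = 0) ∧
        ∀ k, (D i).compCoord (c i) l u k =
          ρ (chartCoord D c' i (if s i then swapIdx k else k)))
    {f : MvPowerSeries (LocVar ι X) 𝒪} (hf : f ∈ compKer D c hc) :
    swapHom s f ∈ compKer D c' hc' := by
  refine mem_compKer_of_forall D c' hc' fun N => ?_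
  obtain ⟨W, _, _, ρ, hkill, hinjk, hunit⟩ :=
    exists_localization (𝒪 := 𝒪) (chartIdeal 𝒪 ι X N) (MvPolynomial.monomial e (1 : Small 𝒪 ι X))
  have hinj : ∀ G, ρ G = 0 → G ∈ chartIdeal 𝒪 ι X N := by
    intro G hG
    obtain ⟨k, hk⟩ := hinjk G hG
    have hk' : MvPolynomial.monomial (k • e) 1 * G ∈ chartIdeal 𝒪 ι X N := by
      rwa [show (MvPolynomial.monomial (k • e) 1 : Chart 𝒪 ι X) =
        MvPolynomial.monomial e 1 ^ k by rw [MvPolynomial.monomial_pow, one_pow]]
    exact mem_chartIdeal_of_monomial_mul _ hk'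
  set I := (chartIdeal 𝒪 ι X 1).map (ρ : Chart 𝒪 ι X →+* W) with hIdef
  have hI : I ^ N = ⊥ := by
    exact map_chartIdeal_pow ρ hkill
  have hvm : ∀ j, ρ (chartVar D c' j) ∈ I := fun j =>
    Ideal.mem_map_of_mem _ (chartVar_mem D c' hc' j)
  let F := evalNil (𝒪 := 𝒪) hI (fun j => ρ (chartVar D c' j)) hvm
  refine ⟨W, _, _, ρ, hinj, F, fun j => evalNil_X hI _ hvm j, ?_, ?_⟩
  · have hle : (Ideal.span (Set.range (MvPowerSeries.X (σ := LocVar ι X) (R := 𝒪)))).map F ≤ I := by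
      rw [Ideal.map_span, Ideal.span_le]
      rintro _ ⟨_, ⟨j, rfl⟩, rfl⟩
      rw [SetLike.mem_coe, evalNil_X]
      exact hvm j
    have h0 := Ideal.pow_right_mono hle N
    rw [← Ideal.map_pow, hI] at h0
    exact Ideal.mem_bot.mp (h0 (Ideal.mem_map_of_mem _ (sub_truncTotal_mem_span_X_pow _ N)))
  · choose l u hu hu0 hlu using hpt W ρ hunit ⟨N, hkill⟩
    have hm : ∀ a ∈ maximalIdeal 𝒪, algebraMap 𝒪 W a ∈ I := by
      intro a ha
      rw [← ρ.commutes]
      exact Ideal.mem_map_of_mem _ (algebraMap_mem_chartIdeal ha)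
    refine eq_zero_of_point D c hc hI hm l u hu hu0 (fun t => ρ (chartVar D c' (Sum.inr t)))
      (fun t => hvm _) (F.comp (swapHom s)) (fun i k => ?_) (fun t => ?_) hf
    · show F (swapHom s (MvPowerSeries.X (Sum.inl (i, k)))) = _
      rw [swapHom_X, evalNil_X, hlu i k]
      rfl
    · show F (swapHom s (MvPowerSeries.X (Sum.inr t))) = _
      rw [swapHom_X, evalNil_X]
      rfl

theorem compCoord_chart (c : ι → CompType 𝒪) {W : Type} [CommRing W] [Algebra 𝒪 W]
    (ρ : Chart 𝒪 ι X →ₐ[𝒪] W) (i : ι) (k : Fin 8) :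
    (D i).compCoord (c i) (ρ (MvPolynomial.X i)) (fun j => ρ (cpar D c i j)) k =
      ρ (chartCoord D c i k) := by
  rw [chartCoord_eq]
  symm
  refine LocalDatum.compCoord_map (A := Chart 𝒪 ι X) (D i) ρ _ _ _ (fun _ => ?_) k
  have := (isUnit_urDen (X := X) D c i).map
    (IsScalarTower.toAlgHom 𝒪 (Small 𝒪 ι X) (Chart 𝒪 ι X))
  unfold LocalDatum.urDen at this ⊢
  cases hb : (D i).base <;> simp only [hb] at this ⊢ <;> simpa [cpar] using this

theorem cpar_eq_zero (c : ι → CompType 𝒪) {i : ι} {j : Fin 3}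
    (h : (D i).free (c i) j = false) : cpar (X := X) D c i j = 0 := by
  rw [cpar, spar, if_neg (by simp [h]), map_zero]

theorem free_scalar (D₀ : LocalDatum 𝒪) {φ : 𝒪} (hb : D₀.base = LocalBase.scalar φ)
    (c₀ : CompType 𝒪) (j : Fin 3) : D₀.free c₀ j = true := by
  unfold LocalDatum.free
  simp [hb]

/-- An unramified point from coordinates with trivial inertia. -/
theorem exists_ur_point (D₀ : LocalDatum 𝒪) {W : Type} [CommRing W] [Algebra 𝒪 W] {I : Ideal W}
    {N : ℕ} (hI : I ^ N = ⊥) {v : Fin 8 → W} (hv : ∀ k, v k ∈ I) (h4 : v 4 = 0) (h5 : v 5 = 0)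
    (h6 : v 6 = 0) (h7 : v 7 = 0) (hdet : (D₀.phiMat v).det = (D₀.q : W)) :
    (∀ j, D₀.urPar v j ∈ I) ∧
      ∀ (l : W) (k : Fin 8), D₀.compCoord CompType.ur l (D₀.urPar v) k = v k := by
  have hmem : ∀ j, D₀.urPar v j ∈ I := by
    intro j
    unfold LocalDatum.urPar
    cases D₀.base <;> fin_cases j <;> exact hv _
  exact ⟨hmem, fun _ k =>
    D₀.urCoord_of_det h4 h5 h6 h7 hdet (isUnit_urDen_of_mem D₀ hI (hmem 0) (hmem 1)) k⟩

theorem compCoord_inertia (D₀ : LocalDatum 𝒪) {c₀ : CompType 𝒪}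
    (h : c₀ = CompType.ur ∨ ∃ ε, c₀ = CompType.stUr ε) {A : Type} [CommRing A] [Algebra 𝒪 A]
    (l : A) (u : Fin 3 → A) :
    D₀.compCoord c₀ l u 4 = 0 ∧ D₀.compCoord c₀ l u 5 = 0 ∧
      D₀.compCoord c₀ l u 6 = 0 ∧ D₀.compCoord c₀ l u 7 = 0 := by
  rcases h with rfl | ⟨ε, rfl⟩
  · unfold LocalDatum.compCoord LocalDatum.urCoord
    cases hb : D₀.base <;> simp [hb]
  · unfold LocalDatum.compCoord LocalDatum.stCoord
    simp

theorem LocalDatum.compCoord_stUr_scalar (D₀ : LocalDatum 𝒪) {φ : 𝒪}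
    (hb : D₀.base = LocalBase.scalar φ) {ε : 𝒪} {A : Type} [CommRing A] [Algebra 𝒪 A] (l : A)
    (u : Fin 3 → A) : D₀.compCoord (CompType.stUr ε) l u = D₀.stCoord ε l 0 (u 2) := by
  unfold LocalDatum.compCoord
  simp only [hb]

/-- The point with exchanged lines at one scalar prime. -/
theorem exists_swap_point (D₀ : LocalDatum 𝒪) {φ : 𝒪} (hb : D₀.base = LocalBase.scalar φ)
    {c₀ : CompType 𝒪} (hc₀ : c₀.OK D₀) {W : Type} [CommRing W] [Algebra 𝒪 W] {I : Ideal W}
    {N : ℕ} (hI : I ^ N = ⊥) {l : W} (hl : IsUnit l) (u : Fin 3 → W)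
    (hv : ∀ k, D₀.compCoord c₀ l u k ∈ I) (hrel : D₀.Rel 2 (D₀.compCoord c₀ l u)) :
    ∃ (l' : W) (u' : Fin 3 → W), (∀ j, u' j ∈ I) ∧
      ∀ k, D₀.compCoord c₀ l' u' k = D₀.compCoord c₀ l u (swapIdx k) := by
  cases c₀ with
  | ur =>
    obtain ⟨h4, h5, h6, h7⟩ := compCoord_inertia D₀ (Or.inl rfl) l u
    obtain ⟨hmem, heq⟩ := exists_ur_point D₀ hI
      (v := fun k => D₀.compCoord CompType.ur l u (swapIdx k))
      (fun k => hv _) (by simpa [swapIdx] using h7) (by simpa [swapIdx] using h6)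
      (by simpa [swapIdx] using h5) (by simpa [swapIdx] using h4) (hrel.swap hb).det_phi
    exact ⟨0, _, hmem, fun k => heq 0 k⟩
  | st ε =>
    obtain ⟨l', hl'⟩ := isUnit_iff_exists_inv.mp hl
    refine ⟨l', ![0, D₀.compCoord (CompType.st ε) l u 6,
      algebraMap 𝒪 W ε * D₀.compCoord (CompType.st ε) l u 2], fun j => ?_, fun k => ?_⟩
    · fin_cases j
      · exact zero_mem _
      · exact hv 6
      · exact Ideal.mul_mem_left _ _ (hv 2)
    · unfold LocalDatum.compCoord
      simp only [hb, Matrix.cons_val_one, Matrix.cons_val_zero, Matrix.cons_val]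
      exact D₀.stCoord_swap hb hc₀.1 hl' _ _ k
  | stUr ε =>
    obtain ⟨l', hl'⟩ := isUnit_iff_exists_inv.mp hl
    refine ⟨l', ![0, 0, algebraMap 𝒪 W ε * D₀.compCoord (CompType.stUr ε) l u 2],
      fun j => ?_, fun k => ?_⟩
    · fin_cases j
      · exact zero_mem _
      · exact zero_mem _
      · exact Ideal.mul_mem_left _ _ (hv 2)
    · have h := D₀.stCoord_swap hb hc₀.1 hl' 0 (u 2) k
      have h6 : D₀.stCoord ε l 0 (u 2) 6 = 0 := by
        unfold LocalDatum.stCoord
        simp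
      rw [h6] at h
      rw [D₀.compCoord_stUr_scalar hb, D₀.compCoord_stUr_scalar hb]
      simpa only [Matrix.cons_val] using h

theorem isUnit_line_of_isUnit [Fintype ι] {W : Type} [CommRing W] [Algebra 𝒪 W]
    (ρ : Chart 𝒪 ι X →ₐ[𝒪] W)
    (h : IsUnit (ρ (MvPolynomial.monomial (∑ i, Finsupp.single i 1) 1))) (i : ι) :
    IsUnit (ρ (MvPolynomial.X i)) := by
  refine isUnit_of_dvd_unit (_root_.map_dvd ρ ?_) h
  rw [MvPolynomial.monomial_sum_one]
  exact Finset.dvd_prod_of_mem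
    (fun j => MvPolynomial.monomial (Finsupp.single j 1) (1 : Small 𝒪 ι X)) (Finset.mem_univ i)

/-- **Change of chart.** Components are stable under exchanging the two lines at scalar primes. -/
theorem swapHom_mem_compKer_self (hc : ∀ i, (c i).OK (D i)) (s : ι → Bool)
    (hs : ∀ i, s i = true → ∃ φ, (D i).base = LocalBase.scalar φ)
    {f : MvPowerSeries (LocVar ι X) 𝒪} (hf : f ∈ compKer D c hc) :
    swapHom s f ∈ compKer D c hc := by
  classical
  cases nonempty_fintype ι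
  refine swapHom_mem_compKer D hc hc s (∑ i, Finsupp.single i 1)
    (fun W _ _ ρ hunit hkill i => ?_) hf
  obtain ⟨N, hN⟩ := hkill
  cases hsi : s i with
  | false =>
    exact ⟨ρ (MvPolynomial.X i), fun j => ρ (cpar D c i j),
      fun j => Ideal.mem_map_of_mem _ (cpar_mem D c i j),
      fun j hj => (congrArg ρ (cpar_eq_zero D c hj)).trans (map_zero ρ), fun k => by
        rw [compCoord_chart D c ρ i k]; simp⟩
  | true =>
    obtain ⟨φ, hb⟩ := hs i hsi
    obtain ⟨l', u', hu', heq⟩ := exists_swap_point (D i) hb (hc i)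
      (I := (chartIdeal 𝒪 ι X 1).map (ρ : Chart 𝒪 ι X →+* W)) (N := N) (map_chartIdeal_pow ρ hN)
      (isUnit_line_of_isUnit ρ hunit i) (fun j => ρ (cpar D c i j))
      (fun k => by
        rw [compCoord_chart D c ρ i k]
        exact Ideal.mem_map_of_mem _ (chartCoord_mem D c (hc i) k))
      (by
        rw [show (D i).compCoord (c i) (ρ (MvPolynomial.X i)) (fun j => ρ (cpar D c i j)) =
          fun k => ρ (chartCoord D c i k) from funext (compCoord_chart D c ρ i)]
        exact (chartCoord_rel (X := X) D c (hc i)).map ρ)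
    exact ⟨l', u', hu', fun j hj => absurd hj (by simp [free_scalar _ hb]), fun k => by
      rw [heq, compCoord_chart D c ρ i]; simp⟩

/-- `c'` is obtained from `c` by specialising some coordinates to the intersection. -/
def CompLE (c c' : ι → CompType 𝒪) : Prop :=
  ∀ i, c i = c' i ∨ ∃ ε, c' i = CompType.stUr ε ∧ (c i = CompType.st ε ∨ c i = CompType.ur)

/-- **Inclusion of components.** -/
theorem compKer_le (hc : ∀ i, (c i).OK (D i)) (hc' : ∀ i, (c' i).OK (D i)) (h : CompLE c c') :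
    compKer (X := X) D c hc ≤ compKer D c' hc' := by
  intro f hf
  have hid : swapHom (X := X) (𝒪 := 𝒪) (fun _ : ι => false) f = f := by
    have := isAdicComplete_powerSeries (σ := LocVar ι X) (𝒪 := 𝒪)
    have he : swapHom (X := X) (𝒪 := 𝒪) (fun _ : ι => false) = AlgHom.id 𝒪 _ := by
      refine powerSeries_algHom_ext (fun j => ?_) (fun j => ?_)
      · rw [swapHom_X]
        rcases j with ⟨i, k⟩ | t <;> rfl
      · rw [swapHom_X]
        exact span_X_le_maximalIdeal (Ideal.subset_span ⟨_, rfl⟩)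
    rw [he, AlgHom.id_apply]
  rw [← hid]
  refine swapHom_mem_compKer D hc hc' _ 0 (fun W _ _ ρ _ hkill i => ?_) hf
  obtain ⟨N, hN⟩ := hkill
  set I := (chartIdeal 𝒪 ι X 1).map (ρ : Chart 𝒪 ι X →+* W) with hIdef
  have hI : I ^ N = ⊥ := by
    rw [hIdef, ← Ideal.map_pow, chartIdeal_pow, Ideal.map_eq_bot_iff_le_ker]
    exact fun G hG => hN G hG
  rcases h i with h | ⟨ε, h', h | h⟩
  · refine ⟨ρ (MvPolynomial.X i), fun j => ρ (cpar D c' i j),
      fun j => Ideal.mem_map_of_mem _ (cpar_mem D c' i j),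
      fun j hj => (congrArg ρ (cpar_eq_zero D c' (h ▸ hj))).trans (map_zero ρ), fun k => ?_⟩
    rw [h, compCoord_chart D c' ρ i k]
    simp
  · refine ⟨ρ (MvPolynomial.X i), ![ρ (cpar D c' i 0), 0, ρ (cpar D c' i 2)],
      fun j => ?_, fun j hj => ?_, fun k => ?_⟩
    · fin_cases j
      · exact Ideal.mem_map_of_mem _ (cpar_mem D c' i 0)
      · exact zero_mem _
      · exact Ideal.mem_map_of_mem _ (cpar_mem D c' i 2)
    · have hj' : (D i).free (c' i) j = false := by
        rw [h] at hj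
        rw [h']
        unfold LocalDatum.free at hj ⊢
        cases hb : (D i).base <;> simpa [hb] using hj
      fin_cases j
      · exact (congrArg ρ (cpar_eq_zero D c' hj')).trans (map_zero ρ)
      · rfl
      · exact (congrArg ρ (cpar_eq_zero D c' hj')).trans (map_zero ρ)
    · simp only [if_neg Bool.false_ne_true]
      rw [← compCoord_chart D c' ρ i k, h, h']
      unfold LocalDatum.compCoord
      cases hb : (D i).base <;> simp
  · obtain ⟨h4, h5, h6, h7⟩ := compCoord_inertia (D i) (Or.inr ⟨ε, h'⟩)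
      (ρ (MvPolynomial.X i)) (fun j => ρ (cpar D c' i j))
    rw [compCoord_chart D c' ρ i] at h4 h5 h6 h7
    obtain ⟨hmem, heq⟩ := exists_ur_point (D i) hI (v := fun k => ρ (chartCoord D c' i k))
      (fun k => Ideal.mem_map_of_mem _ (chartCoord_mem D c' (hc' i) k))
      h4 h5 h6 h7
      ((chartCoord_rel (X := X) D c' (hc' i)).map ρ).det_phi
    refine ⟨0, _, hmem, fun j hj => ?_, fun k => by rw [h]; simpa using heq 0 k⟩
    have hn := (chartCoord_norm (X := X) D c' (hc' i)).map ρ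
    rw [h] at hj
    unfold LocalDatum.free at hj
    unfold LocalDatum.urPar
    cases hb : (D i).base with
    | scalar φ => simp [hb] at hj
    | companion T =>
      obtain ⟨h0, h2⟩ := hn T hb
      fin_cases j <;> simp [hb, h0, h2] at hj ⊢

end FLTAgent.RT
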