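import Fermat.Agent.RT.Main.Choice
import Fermat.Agent.RT.Main.InputsStrict
import Fermat.Agent.RT.AtP.NotFlat
import Fermat.Agent.TW.Flat.Main
import Fermat.Agent.TW.Local.StrictOrdinary

/-!
# The chain from the minimal level, at a good or très ramifié `p`

For a good `p` the deformations are flat at `p`; at a multiplicative `p` with `E[p]` not peu
ramifiée they are strictly ordinary. In both cases the patching argument makes the curve modular of
a squarefree level.
-/

set_option autoImplicit false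
set_option linter.unusedSectionVars false

noncomputable section

open IsLocalRing Matrix Polynomial WeierstrassCurve FLTAgent.Deformation FLTAgent.GalRep

namespace FLTAgent.RT

open Main

attribute [local instance] dualAlg

variable {W : WeierstrassCurve ℤ} {p : ℕ} [Fact p.Prime]

/-- The frame of a condition at `p` satisfied by the Tate module. -/
theorem frame_of_tate {O : Type} [CommRing O] [IsDomain O] [IsDiscreteValuationRing O]
    [IsAdicComplete (maximalIdeal O) O] [Finite (ResidueField O)] [CharZero O] {loc : PCond}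
    {aux : Finset ℕ} (hΔ : W.Δ ≠ 0) (hp2 : p ≠ 2) (hp : (p : O) ∈ maximalIdeal O)
    (hss : W.IsSemistableModel) (hirr : W.ModRepIsIrreducible p)
    (hquad : ∀ (φ : ZMod p →+* ResidueField O) (b c : ZMod p), ∃ α β : ResidueField O,
      X ^ 2 + C (φ b) * X + C (φ c) = (X - C α) * (X - C β))
    (htype : IsLocalType O p loc) (haux : AuxOK W p aux) (ψ : ℤ_[p] →+* O)
    (hTate : ∀ (g : (Mat O)ˣ) (hN : MatCont (conjRep g (Tate.tateO hΔ p ψ))),
      problem O p loc (badSet W p) (badSet W p) (matRep (conjRep g (Tate.tateO hΔ p ψ)) hN)) :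
    Frame O W p loc aux where
  disc_ne := hΔ
  ne_two := hp2
  mem_p := hp
  semistable := hss
  irr := hirr
  quad := hquad
  type := htype
  resid :=
    ((cond_rbar (𝒟 := problem O p loc (badSet W p) (badSet W p)) hΔ hp ψ
      (htype.isCond (badSet W p) (badSet W p)) hTate).1).2.1
  aux_ok r hr := by
    obtain ⟨h1, h2, h3, ⟨c, hc⟩, h5⟩ := haux.spec r hr
    refine ⟨h1, h2, h3, ?_, h5⟩
    rw [← Nat.cast_one (R := O), ← Nat.cast_add, hc, Nat.cast_mul]
    exact Ideal.mul_mem_right _ _ hp

/-- Outside the bad primes and `p` the curve has good reduction. -/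
theorem good_of_notMem_badSet (hΔ : W.Δ ≠ 0) {q : ℕ} (hq : q.Prime) (h : q ∉ badSet W p) :
    W.IsGoodPrimeFor q ∧ q ≠ p := by
  simp only [badSet, Finset.mem_insert, not_or, Nat.mem_primeFactors, not_and] at h
  exact ⟨fun hd => h.2 hq (Int.natCast_dvd.mp hd) (Int.natAbs_ne_zero.mpr hΔ), h.1⟩

/-- **The chain at a prime of good reduction.** -/
theorem chainConclusion_of_good (hp2 : p ≠ 2) (hΔ : W.Δ ≠ 0) (hss : W.IsSemistableModel)
    (hirr : W.ModRepIsIrreducible p) (hgood : W.IsGoodPrimeFor p) :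
    Shell.ChainConclusion W p := by
  intro hres
  obtain ⟨O, _, _, _, _, _, _, hp, -, hquad⟩ := exists_coeff p
  obtain ⟨ψ⟩ := exists_padicHom p O hp
  obtain ⟨aux, haux⟩ := exists_auxOK hΔ hss hirr
  have hTate : ∀ (g : (Mat O)ˣ) (hN : MatCont (conjRep g (Tate.tateO hΔ p ψ))),
      problem O p (flatAt p) (badSet W p) (badSet W p)
        (matRep (conjRep g (Tate.tateO hΔ p ψ)) hN) := fun g hN =>
    Tate.flatProblem_matRep hΔ p ψ hp hss hgood _ _ fun q hq hqS =>
      good_of_notMem_badSet hΔ hq hqS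
  let F := frame_of_tate hΔ hp2 hp hss hirr hquad (isLocalType_flat O hp) haux ψ hTate
  have hne : NeZero (∏ l ∈ levelSet W p aux ∅, l) :=
    ⟨Finset.prod_ne_zero_iff.mpr fun l hl =>
      (prime_of_mem_levelSet F (Finset.empty_subset _) hl).ne_zero⟩
  have hpN : ¬ p ∣ ∏ l ∈ levelSet W p aux ∅, l := fun h => by
    rcases (p_dvd_levelSet_iff F (Finset.empty_subset _)).mp h with h | h
    · exact hgood ((Shell.mem_minPrimes hΔ).mp h).1.2
    · simp at h
  have hcp : CharP (ResidueField O) p := charP_of_injective_ringHom (resHom hp).injective p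
  exact exists_modular_level F (base_levelSet F haux (Finset.empty_subset _) hres)
    (locMax_flat F hpN) ψ hTate (fun ρ => ρ.IsFlatAt p)
    (fun P hP => TW.flat_cocycle_bound hp2 (barMatrix F.rb) F.residualHyp.level
      (fun σ => by rw [TW.charpoly_barMatrix]; exact rbar_hsplit p hΔ hp hquad σ)
      F.residualHyp.det P hP)
    fun _ _ h => h

/-- **The chain at a prime where `E[p]` is not peu ramifiée.** -/
theorem chainConclusion_of_not_peu (hp2 : p ≠ 2) (hΔ : W.Δ ≠ 0) (hss : W.IsSemistableModel)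
    (hirr : W.ModRepIsIrreducible p)
    (hpeu : ¬ (W.map (Int.castRingHom ℚ)).IsPeuRamifieeAt p p) : Shell.ChainConclusion W p := by
  intro hres
  obtain ⟨O, _, _, _, _, _, _, hp, -, hquad⟩ := exists_coeff p
  obtain ⟨ψ⟩ := exists_padicHom p O hp
  obtain ⟨aux, haux⟩ := exists_auxOK hΔ hss hirr
  have hbad : (p : ℤ) ∣ W.Δ := by
    by_contra hgood
    refine hpeu ?_
    rw [IsPeuRamifieeAt, map_Δ, eq_intCast, padicValRat.of_int,
      padicValInt.eq_zero_of_not_dvd hgood, Nat.cast_zero]
    exact dvd_zero _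
  have hTate : ∀ (g : (Mat O)ˣ) (hN : MatCont (conjRep g (Tate.tateO hΔ p ψ))),
      problem O p (strictAt p) (badSet W p) (badSet W p)
        (matRep (conjRep g (Tate.tateO hΔ p ψ)) hN) := fun g hN =>
    Tate.strictProblem_matRep hΔ p ψ hp hss hp2 hbad _ _ fun q hq hqS =>
      good_of_notMem_badSet hΔ hq hqS
  let F := frame_of_tate hΔ hp2 hp hss hirr hquad (isLocalType_strict O hp2 hp) haux ψ hTate
  have hne : NeZero (∏ l ∈ levelSet W p aux ∅, l) :=
    ⟨Finset.prod_ne_zero_iff.mpr fun l hl =>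
      (prime_of_mem_levelSet F (Finset.empty_subset _) hl).ne_zero⟩
  have hpN : p ∣ ∏ l ∈ levelSet W p aux ∅, l :=
    (p_dvd_levelSet_iff F (Finset.empty_subset _)).mpr
      (Or.inl ((Shell.mem_minPrimes hΔ).mpr ⟨⟨Fact.out, hbad⟩, Or.inl ⟨rfl, hpeu⟩⟩))
  have hcp : CharP (ResidueField O) p := charP_of_injective_ringHom (resHom hp).injective p
  exact exists_modular_level F (base_levelSet F haux (Finset.empty_subset _) hres)
    (locMax_strict F hpN (not_isFlatAt_rbar_of_not_peu hΔ hp hp2 hss hpeu)) ψ hTate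
    (fun ρ => ρ.IsStrictOrdinaryAt p)
    (fun P hP => TW.strictOrdinary_cocycle_bound hp2 (barMatrix F.rb) F.residualHyp.level
      F.residualHyp.det P hP)
    fun _ _ h => h

/-- **The chain**, given the case of a multiplicative `p` with `E[p]` peu ramifiée. -/
theorem chainConclusion (hp2 : p ≠ 2) (hΔ : W.Δ ≠ 0) (hss : W.IsSemistableModel)
    (hirr : W.ModRepIsIrreducible p)
    (hR2 : (p : ℤ) ∣ W.Δ → (W.map (Int.castRingHom ℚ)).IsPeuRamifieeAt p p →
      Shell.ChainConclusion W p) : Shell.ChainConclusion W p := by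
  by_cases hgood : W.IsGoodPrimeFor p
  · exact chainConclusion_of_good hp2 hΔ hss hirr hgood
  by_cases hpeu : (W.map (Int.castRingHom ℚ)).IsPeuRamifieeAt p p
  · exact hR2 (not_not.mp hgood) hpeu
  · exact chainConclusion_of_not_peu hp2 hΔ hss hirr hpeu

end FLTAgent.RT
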